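import Mathlib

/-!
# S52, node [HIT]: weak Hilbert irreducibility over `ℤ` — seams

Target (file `HIT/Main.lean`, owner helper12):

  theorem s52h_hit (g : ℚ[X][Y]) (hg : ∀ r : RatFunc ℚ, eval r (g.map (algebraMap ℚ[X] (RatFunc ℚ))) ≠ 0)
      (N : ℤ) : ∃ t : ℤ, N ≤ t ∧ ∀ y : ℚ, evalEval (t : ℚ) y g ≠ 0

`evalEval t y g` = value of `g` at inner variable `X = t`, outer variable `Y = y`.
The cells below are Mathlib-only and mutually independent.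
-/

open Polynomial Filter
open scoped Polynomial.Bivariate

namespace Fermat.Agent.S52

/-- (A) DECAY ("Hardy field" lemma).  `f k` is the `k`-th derivative of `f 0` on `(R, ∞)`; every
`f k` has eventually constant sign; `f 0` is polynomially bounded.  Then `f k = O(t ^ (D - k))`. -/
def s52h_Decay_stmt : Prop :=
  ∀ (f : ℕ → ℝ → ℝ) (R : ℝ),
    (∀ k : ℕ, ∀ t : ℝ, R < t → HasDerivAt (f k) (f (k + 1) t) t) →
    (∀ k : ℕ, (∀ᶠ t in atTop, 0 ≤ f k t) ∨ (∀ᶠ t in atTop, f k t ≤ 0)) →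
    ∀ (C : ℝ) (D : ℕ), (∀ᶠ t in atTop, |f 0 t| ≤ C * t ^ D) →
      ∀ k : ℕ, ∃ C' : ℝ, ∀ᶠ t in atTop, |f k t| * t ^ k ≤ C' * t ^ D

/-- (B) GENERALIZED ROLLE + INTEGRALITY OF THE DIVIDED DIFFERENCE.  `f k` is the `k`-th derivative
of `f 0` on `[a, b]` (`k ≤ m`); `x 0 < … < x m` are integers in `[a, b]` at which `f 0` takes
integer values.  Then for some `ξ ∈ [a, b]`:
`(an integer) * m! = (∏_{i ≠ j} (x i - x j)) * f m ξ`. -/
def s52h_DivDiff_stmt : Prop :=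
  ∀ (m : ℕ) (f : ℕ → ℝ → ℝ) (a b : ℝ),
    (∀ k : ℕ, k < m → ∀ t : ℝ, t ∈ Set.Icc a b → HasDerivAt (f k) (f (k + 1) t) t) →
    ∀ (x : Fin (m + 1) → ℤ), StrictMono x → (∀ i, (x i : ℝ) ∈ Set.Icc a b) →
      (∀ i, ∃ z : ℤ, f 0 (x i : ℝ) = z) →
      ∃ ξ ∈ Set.Icc a b, ∃ I : ℤ,
        (I : ℝ) * (m.factorial : ℝ) =
          (∏ i : Fin (m + 1), ∏ j ∈ Finset.univ.erase i, ((x i : ℝ) - (x j : ℝ))) * f m ξ

/-- (C1) `m`-th derivative identically zero on `(R, ∞)` ⟹ polynomial of degree `< m` there. -/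
def s52h_PolyOfDeriv_stmt : Prop :=
  ∀ (m : ℕ) (f : ℕ → ℝ → ℝ) (R : ℝ),
    (∀ k : ℕ, k < m → ∀ t : ℝ, R < t → HasDerivAt (f k) (f (k + 1) t) t) →
    (∀ t : ℝ, R < t → f m t = 0) →
    ∃ P : ℝ[X], P.degree < m ∧ ∀ t : ℝ, R < t → f 0 t = P.eval t

/-- (C2) a real polynomial taking rational values at more than `deg` rational points has rational
coefficients. -/
def s52h_RatPoly_stmt : Prop :=
  ∀ (P : ℝ[X]) (S : Finset ℚ), P.degree < S.card →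
    (∀ x ∈ S, ∃ q : ℚ, P.eval (x : ℝ) = q) →
    ∃ Q : ℚ[X], Q.map (algebraMap ℚ ℝ) = P

/-- (D) DIFFERENTIABLE ROOT BRANCHES.  If for `t > R₀` the leading coefficient (in `Y`) of `G`
does not vanish at `t` and all real roots of `G(t, ·)` are simple, then on `(R₀, ∞)` the real roots
of `G(t, ·)` are the values of finitely many differentiable functions (`φ i t` := the `i`-th
smallest real root; implicit function theorem + tube lemma + connectedness of `(R₀, ∞)`). -/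
def s52h_Branch_stmt : Prop :=
  ∀ (G : ℝ[X][Y]) (R₀ : ℝ),
    (∀ t : ℝ, R₀ < t → G.leadingCoeff.eval t ≠ 0) →
    (∀ t : ℝ, R₀ < t → ∀ y : ℝ, evalEval t y G = 0 → evalEval t y (derivative G) ≠ 0) →
    ∃ (r : ℕ) (φ : Fin r → ℝ → ℝ),
      (∀ i, ∀ t : ℝ, R₀ < t → DifferentiableAt ℝ (φ i) t) ∧
      ∀ t : ℝ, R₀ < t → ∀ y : ℝ, evalEval t y G = 0 ↔ ∃ i, φ i t = y

/-- (E2) DICHOTOMY FOR ALGEBRAIC FUNCTIONS.  `φ` continuous on `(R, ∞)` with `G(t, φ t) = 0`,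
`G ≠ 0`.  Then for every `N ∈ ℝ[X][Y]` the function `t ↦ N(t, φ t)` is eventually `= 0`, eventually
`> 0` or eventually `< 0`.  (It is a continuous root of some nonzero `P(t, Z)`: `N` is algebraic
over `ℝ(X)` modulo `G`; write `P = Z ^ k * P₁` with `P₁(t, 0) ≠ 0`; the zero set is clopen in a
connected `(R', ∞)`; then the intermediate value theorem.) -/
def s52h_Dich_stmt : Prop :=
  ∀ (G N : ℝ[X][Y]) (R : ℝ) (φ : ℝ → ℝ), G ≠ 0 → ContinuousOn φ (Set.Ioi R) →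
    (∀ t : ℝ, R < t → evalEval t (φ t) G = 0) →
    (∀ᶠ t in atTop, evalEval t (φ t) N = 0) ∨ (∀ᶠ t in atTop, 0 < evalEval t (φ t) N) ∨
      (∀ᶠ t in atTop, evalEval t (φ t) N < 0)

/-- (E3) POLYNOMIAL GROWTH (Cauchy bound).  -/
def s52h_Growth_stmt : Prop :=
  ∀ (G N : ℝ[X][Y]) (R : ℝ) (φ : ℝ → ℝ), G.leadingCoeff ≠ 0 →
    (∀ t : ℝ, R < t → evalEval t (φ t) G = 0) →
    ∃ (C : ℝ) (D : ℕ), ∀ᶠ t in atTop, |evalEval t (φ t) N| ≤ C * t ^ D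

/-- (F) ALGEBRAIC REDUCTION.  For `g ∈ ℚ[X][Y]`, `g ≠ 0`: a multiple `G` of the squarefree part of
`g` over `ℚ(X)` with a Bezout identity `U G + V ∂G/∂Y = d(X) ≠ 0`; roots of `G` in `ℚ(X)` are roots
of `g`; outside the zeros of `e ≠ 0` the rational roots `y` of `g(t, ·)`, `t ∈ ℤ`, are roots of
`G(t, ·)` and `a(t) * y ∈ ℤ` (`a ≠ 0`, e.g. `a = D * lc(g)`). -/
def s52h_Red_stmt : Prop :=
  ∀ g : ℚ[X][Y], g ≠ 0 →
    ∃ (G U V : ℚ[X][Y]) (d e a : ℚ[X]), d ≠ 0 ∧ e ≠ 0 ∧ a ≠ 0 ∧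
      U * G + V * derivative G = C d ∧
      (∀ r : RatFunc ℚ, eval r (G.map (algebraMap ℚ[X] (RatFunc ℚ))) = 0 →
        eval r (g.map (algebraMap ℚ[X] (RatFunc ℚ))) = 0) ∧
      (∀ (t : ℤ) (y : ℚ), e.eval (t : ℚ) ≠ 0 → evalEval (t : ℚ) y g = 0 →
        evalEval (t : ℚ) y G = 0 ∧ ∃ z : ℤ, a.eval (t : ℚ) * y = z)

end Fermat.Agent.S52
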