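import Mathlib
import Fermat.Agent.S52.HIT.Seams

/-!
# S52, node [HIT], cell (D): differentiable root branches

`s52hd_main : s52h_Branch_stmt`.  For `t > R₀` the real roots of `G(t, ·)` are simple and the leading
coefficient does not vanish; `φ i t` := the `i`-th smallest real root.  Locally at `t₀` the roots are
given by implicit functions (Mathlib's `implicitFunctionOfProdDomain`), there are no other roots
nearby (uniform bound on the roots + sequential compactness), hence the number of roots is locally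
constant, hence constant on the connected `(R₀, ∞)`, and the sorted roots coincide locally with the
implicit functions.
-/

open Polynomial Filter Topology
open scoped Polynomial.Bivariate

namespace Fermat.Agent.S52

/-- the two-variable polynomial function. -/
noncomputable def s52hd_F (G : ℝ[X][Y]) (p : ℝ × ℝ) : ℝ := evalEval p.1 p.2 G

theorem s52hd_F_contDiff (G : ℝ[X][Y]) : ContDiff ℝ ⊤ (s52hd_F G) := by
  unfold s52hd_F
  induction G using Polynomial.induction_on' with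
  | add p q hp hq =>
    simp only [evalEval_add]
    exact hp.add hq
  | monomial n a =>
    have : ∀ p : ℝ × ℝ, evalEval p.1 p.2 (monomial n a) = a.eval p.1 * p.2 ^ n := by
      intro p
      rw [← C_mul_X_pow_eq_monomial, evalEval_mul, evalEval_C, evalEval_pow, evalEval_X]
    simp only [this]
    exact ((Polynomial.contDiff_aeval a ⊤).comp contDiff_fst).mul (contDiff_snd.pow n)

/-- one-variable implicit function theorem in the form we need. -/
theorem s52hd_ift (F : ℝ × ℝ → ℝ) (L : ℝ × ℝ →L[ℝ] ℝ) (t₀ y₀ : ℝ)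
    (hF : HasStrictFDerivAt F L (t₀, y₀)) (h0 : F (t₀, y₀) = 0) (hL : L (0, 1) ≠ 0) :
    ∃ ψ : ℝ → ℝ, DifferentiableAt ℝ ψ t₀ ∧ ψ t₀ = y₀ ∧ (∀ᶠ t in 𝓝 t₀, F (t, ψ t) = 0) ∧
      (∀ᶠ p in 𝓝 (t₀, y₀), F p = 0 → ψ p.1 = p.2) := by
  have hinv : (L ∘L ContinuousLinearMap.inr ℝ ℝ ℝ).IsInvertible := by
    refine ContinuousLinearMap.IsInvertible.of_inverse
      (g := (L (0, 1))⁻¹ • ContinuousLinearMap.id ℝ ℝ) ?_ ?_
    · apply ContinuousLinearMap.ext_ring
      have h1 : ((0 : ℝ), (L (0, 1))⁻¹) = (L (0, 1))⁻¹ • ((0 : ℝ), (1 : ℝ)) := by simp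
      simp only [ContinuousLinearMap.coe_comp, Function.comp_apply,
        FunLike.coe_smul, Pi.smul_apply, ContinuousLinearMap.coe_id', id_eq,
        ContinuousLinearMap.inr_apply, smul_eq_mul, mul_one]
      rw [h1, map_smul, smul_eq_mul, inv_mul_cancel₀ hL]
    · apply ContinuousLinearMap.ext_ring
      simp [hL]
  refine ⟨hF.implicitFunctionOfProdDomain hinv, ?_, ?_, ?_, ?_⟩
  · exact (hF.hasStrictFDerivAt_implicitFunctionOfProdDomain hinv).hasFDerivAt.differentiableAt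
  · exact (hF.eventually_apply_eq_iff_implicitFunctionOfProdDomain hinv).self_of_nhds.mp rfl
  · have := hF.eventually_apply_implicitFunctionOfProdDomain hinv
    simpa [h0] using this
  · filter_upwards [hF.eventually_apply_eq_iff_implicitFunctionOfProdDomain hinv] with p hp h
    exact hp.mp (by rw [h, h0])

/-- strict differentiability of the polynomial function, with its `y`-partial derivative. -/
theorem s52hd_F_deriv (G : ℝ[X][Y]) (t₀ y₀ : ℝ) :
    ∃ L : ℝ × ℝ →L[ℝ] ℝ, HasStrictFDerivAt (s52hd_F G) L (t₀, y₀) ∧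
      L (0, 1) = evalEval t₀ y₀ (derivative G) := by
  have h1 : HasStrictFDerivAt (s52hd_F G) (fderiv ℝ (s52hd_F G) (t₀, y₀)) (t₀, y₀) :=
    ((s52hd_F_contDiff G).contDiffAt).hasStrictFDerivAt (by simp)
  refine ⟨_, h1, ?_⟩
  have h2 : HasDerivAt (fun y : ℝ => s52hd_F G (t₀, y))
      (fderiv ℝ (s52hd_F G) (t₀, y₀) (0, 1)) y₀ := by
    have hc : HasDerivAt (fun y : ℝ => (t₀, y)) ((0 : ℝ), (1 : ℝ)) y₀ :=
      (hasDerivAt_const y₀ t₀).prodMk (hasDerivAt_id y₀)
    exact h1.hasFDerivAt.comp_hasDerivAt y₀ hc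
  have h3 : HasDerivAt (fun y : ℝ => s52hd_F G (t₀, y)) (evalEval t₀ y₀ (derivative G)) y₀ := by
    have : (fun y : ℝ => s52hd_F G (t₀, y)) = fun y => (G.map (evalRingHom t₀)).eval y := by
      funext y; simp [s52hd_F, map_evalRingHom_eval]
    rw [this, ← map_evalRingHom_eval, ← derivative_map]
    exact (G.map (evalRingHom t₀)).hasDerivAt y₀
  exact h2.unique h3

/-- expansion of `evalEval` as a finite sum. -/
theorem s52hd_evalEval_sum (G : ℝ[X][Y]) (t y : ℝ) :
    evalEval t y G = ∑ i ∈ Finset.range (G.natDegree + 1), (G.coeff i).eval t * y ^ i := by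
  rw [← map_evalRingHom_eval,
    eval_eq_sum_range' (Nat.lt_succ_of_le (natDegree_map_le (f := evalRingHom t) (p := G)))]
  simp [coeff_map]

/-- locally uniform bound on the roots. -/
theorem s52hd_bound (G : ℝ[X][Y]) (t₀ : ℝ) (h : G.leadingCoeff.eval t₀ ≠ 0) :
    ∃ B : ℝ, ∀ᶠ t in 𝓝 t₀, ∀ y : ℝ, evalEval t y G = 0 → |y| ≤ B := by
  set d := G.natDegree with hd
  set c : ℕ → ℝ → ℝ := fun i t => (G.coeff i).eval t with hc
  have hcont : ∀ i, Continuous (c i) := fun i => (G.coeff i).continuous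
  set m : ℝ := |c d t₀| / 2 with hm
  have hm0 : 0 < m := by
    have : c d t₀ ≠ 0 := h
    positivity
  set M : ℝ := ∑ i ∈ Finset.range d, (|c i t₀| + 1) with hM
  have hM0 : 0 ≤ M := Finset.sum_nonneg (fun i _ => by positivity)
  refine ⟨max 1 (M / m), ?_⟩
  have e1 : ∀ᶠ t in 𝓝 t₀, m < |c d t| := by
    have : ContinuousAt (fun t => |c d t|) t₀ := (hcont d).abs.continuousAt
    exact this.eventually (lt_mem_nhds (by simp only [hm]; linarith [abs_pos.mpr h]))
  have e2 : ∀ᶠ t in 𝓝 t₀, ∀ i ∈ Finset.range d, |c i t| < |c i t₀| + 1 := by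
    rw [eventually_all_finset]
    intro i _
    have : ContinuousAt (fun t => |c i t|) t₀ := (hcont i).abs.continuousAt
    exact this.eventually (gt_mem_nhds (by linarith))
  filter_upwards [e1, e2] with t h1 h2 y hy
  by_contra hcon
  rw [not_le, max_lt_iff] at hcon
  obtain ⟨hy1, hy2⟩ := hcon
  have hypos : 0 < |y| := by linarith
  rw [div_lt_iff₀ hm0] at hy2
  rw [s52hd_evalEval_sum, Finset.sum_range_succ] at hy
  have hyd : 0 < |y| ^ d := by positivity
  have key : |c d t| * |y| ^ d ≤ M * (|y| ^ d / |y|) := by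
    have : c d t * y ^ d = - ∑ i ∈ Finset.range d, c i t * y ^ i := by linarith
    calc |c d t| * |y| ^ d = |c d t * y ^ d| := by rw [abs_mul, abs_pow]
      _ = |∑ i ∈ Finset.range d, c i t * y ^ i| := by rw [this, abs_neg]
      _ ≤ ∑ i ∈ Finset.range d, |c i t * y ^ i| := Finset.abs_sum_le_sum_abs _ _
      _ ≤ ∑ i ∈ Finset.range d, (|c i t₀| + 1) * (|y| ^ d / |y|) := by
          apply Finset.sum_le_sum
          intro i hi
          rw [abs_mul, abs_pow]
          have hi' : i + 1 ≤ d := Finset.mem_range.mp hi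
          have hp : |y| ^ i ≤ |y| ^ d / |y| := by
            rw [le_div_iff₀ hypos, ← pow_succ]
            exact pow_le_pow_right₀ hy1.le hi'
          exact mul_le_mul (h2 i hi).le hp (by positivity) (by positivity)
      _ = M * (|y| ^ d / |y|) := by rw [hM, Finset.sum_mul]
  have : m * |y| ^ d < |c d t| * |y| ^ d := mul_lt_mul_of_pos_right h1 hyd
  have h3 : m * |y| ^ d < M * (|y| ^ d / |y|) := lt_of_lt_of_le this key
  have h4 : M * (|y| ^ d / |y|) = (M / |y|) * |y| ^ d := by field_simp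
  rw [h4] at h3
  have h5 : m < M / |y| := lt_of_mul_lt_mul_right h3 hyd.le
  rw [lt_div_iff₀ hypos] at h5
  linarith

/-- local description of the real roots near a parameter with simple roots. -/
theorem s52hd_local (G : ℝ[X][Y]) (t₀ : ℝ) (hlc : G.leadingCoeff.eval t₀ ≠ 0)
    (hs : ∀ y : ℝ, evalEval t₀ y G = 0 → evalEval t₀ y (derivative G) ≠ 0)
    (k : ℕ) (e : Fin k → ℝ) (he : StrictMono e)
    (hroots : ∀ y, evalEval t₀ y G = 0 ↔ ∃ j, e j = y) :
    ∃ ψ : Fin k → ℝ → ℝ, (∀ j, DifferentiableAt ℝ (ψ j) t₀) ∧ (∀ j, ψ j t₀ = e j) ∧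
      ∀ᶠ t in 𝓝 t₀, StrictMono (fun j => ψ j t) ∧
        ∀ y, evalEval t y G = 0 ↔ ∃ j, ψ j t = y := by
  have hroot : ∀ j, evalEval t₀ (e j) G = 0 := fun j => (hroots (e j)).mpr ⟨j, rfl⟩
  have hex : ∀ j, ∃ ψ : ℝ → ℝ, DifferentiableAt ℝ ψ t₀ ∧ ψ t₀ = e j ∧
      (∀ᶠ t in 𝓝 t₀, s52hd_F G (t, ψ t) = 0) ∧
      (∀ᶠ p in 𝓝 (t₀, e j), s52hd_F G p = 0 → ψ p.1 = p.2) := by
    intro j
    obtain ⟨L, hL, hL1⟩ := s52hd_F_deriv G t₀ (e j)
    exact s52hd_ift (s52hd_F G) L t₀ (e j) hL (hroot j) (by rw [hL1]; exact hs _ (hroot j))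
  choose ψ hψd hψ0 hψF hψU using hex
  refine ⟨ψ, hψd, hψ0, ?_⟩
  have hA : ∀ᶠ t in 𝓝 t₀, ∀ j, s52hd_F G (t, ψ j t) = 0 := eventually_all.mpr hψF
  have hB : ∀ᶠ t in 𝓝 t₀, StrictMono (fun j => ψ j t) := by
    have : ∀ᶠ t in 𝓝 t₀, ∀ j j' : Fin k, j < j' → ψ j t < ψ j' t := by
      rw [eventually_all]; intro j
      rw [eventually_all]; intro j'
      by_cases hjj : j < j'
      · have := (hψd j).continuousAt.eventually_lt (hψd j').continuousAt
          (by rw [hψ0, hψ0]; exact he hjj)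
        filter_upwards [this] with t ht _ using ht
      · exact Eventually.of_forall (fun t h => absurd h hjj)
    filter_upwards [this] with t ht j j' hjj using ht j j' hjj
  have hC : ∀ᶠ t in 𝓝 t₀, ∀ y, s52hd_F G (t, y) = 0 → ∃ j, ψ j t = y := by
    obtain ⟨B, hB'⟩ := s52hd_bound G t₀ hlc
    by_contra hcon
    rw [not_eventually] at hcon
    have hfr : ∃ᶠ t in 𝓝 t₀, ∃ y, |y| ≤ B ∧ s52hd_F G (t, y) = 0 ∧ ∀ j, ψ j t ≠ y := by
      refine (hcon.and_eventually hB').mono ?_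
      rintro t ⟨h1, h2⟩
      push Not at h1
      obtain ⟨y, hy0, hyj⟩ := h1
      exact ⟨y, h2 y hy0, hy0, hyj⟩
    obtain ⟨u, hu, hup⟩ := exists_seq_forall_of_frequently hfr
    choose y hyB hy0 hyj using hup
    have hmem : ∀ n, y n ∈ Set.Icc (-B) B := fun n => abs_le.mp (hyB n)
    obtain ⟨a, -, φ, hφ, hlim⟩ := isCompact_Icc.tendsto_subseq hmem
    have hu' : Tendsto (u ∘ φ) atTop (𝓝 t₀) := hu.comp hφ.tendsto_atTop
    have hpair : Tendsto (fun n => ((u ∘ φ) n, (y ∘ φ) n)) atTop (𝓝 (t₀, a)) :=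
      hu'.prodMk_nhds hlim
    have hFa : s52hd_F G (t₀, a) = 0 := by
      have h1 : Tendsto (fun n => s52hd_F G ((u ∘ φ) n, (y ∘ φ) n)) atTop
          (𝓝 (s52hd_F G (t₀, a))) :=
        ((s52hd_F_contDiff G).continuous.tendsto _).comp hpair
      have h2 : (fun n => s52hd_F G ((u ∘ φ) n, (y ∘ φ) n)) = fun _ => (0 : ℝ) := by
        funext n; exact hy0 (φ n)
      rw [h2] at h1
      exact tendsto_nhds_unique h1 tendsto_const_nhds
    obtain ⟨j, rfl⟩ := (hroots a).mp hFa
    have := hpair.eventually (hψU j)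
    obtain ⟨n, hn⟩ := this.exists
    exact hyj (φ n) j (hn (hy0 (φ n)))
  filter_upwards [hA, hB, hC] with t hA hB hC
  refine ⟨hB, fun y => ⟨fun h => hC y h, ?_⟩⟩
  rintro ⟨j, rfl⟩
  exact hA j

/-- the finset of real roots of `G(t, ·)`. -/
noncomputable def s52hd_Z (G : ℝ[X][Y]) (t : ℝ) : Finset ℝ :=
  (G.map (evalRingHom t)).roots.toFinset

theorem s52hd_mem_Z (G : ℝ[X][Y]) (t : ℝ) (h : G.leadingCoeff.eval t ≠ 0) (y : ℝ) :
    y ∈ s52hd_Z G t ↔ evalEval t y G = 0 := by
  have hne : G.map (evalRingHom t) ≠ 0 := by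
    intro h0
    apply h
    have := congrArg (fun p => p.coeff G.natDegree) h0
    simpa [coeff_map] using this
  simp [s52hd_Z, mem_roots hne, IsRoot, map_evalRingHom_eval]

theorem s52hd_main : s52h_Branch_stmt := by
  intro G R₀ hlc hs
  set n : ℝ → ℕ := fun t => (s52hd_Z G t).card with hn
  have hloc : ∀ t₀, R₀ < t₀ → ∀ k, n t₀ = k → ∃ ψ : Fin k → ℝ → ℝ,
      (∀ j, DifferentiableAt ℝ (ψ j) t₀) ∧
      ∀ᶠ t in 𝓝 t₀, ∃ h : n t = k, ∀ j, ψ j t = (s52hd_Z G t).orderEmbOfFin h j := by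
    intro t₀ ht₀ k hk
    obtain ⟨ψ, hψd, -, hev⟩ := s52hd_local G t₀ (hlc t₀ ht₀) (hs t₀ ht₀) k
      ((s52hd_Z G t₀).orderEmbOfFin hk) (OrderEmbedding.strictMono _) (by
        intro y
        rw [← s52hd_mem_Z G t₀ (hlc t₀ ht₀), ← Finset.mem_coe,
          ← Finset.range_orderEmbOfFin _ hk]
        rfl)
    refine ⟨ψ, hψd, ?_⟩
    filter_upwards [hev, Ioi_mem_nhds ht₀] with t ⟨hmono, hroots⟩ ht
    have himg : Finset.image (fun j => ψ j t) Finset.univ = s52hd_Z G t := by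
      ext y; simp [s52hd_mem_Z G t (hlc t ht), hroots]
    have hcard : n t = k := by
      simp only [hn]
      rw [← himg, Finset.card_image_of_injective _ hmono.injective]
      simp
    refine ⟨hcard, ?_⟩
    have := Finset.orderEmbOfFin_unique hcard (f := fun j => ψ j t)
      (fun j => by rw [← himg]; simp) hmono
    intro j; exact congrFun this j
  have hconst : ∀ t, R₀ < t → n t = n (R₀ + 1) := by
    have hcont : ContinuousOn n (Set.Ioi R₀) := by
      intro t₀ ht₀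
      obtain ⟨ψ, -, hev⟩ := hloc t₀ ht₀ _ rfl
      apply ContinuousAt.continuousWithinAt
      refine (continuousAt_const (y := n t₀)).congr ?_
      filter_upwards [hev] with t ht
      exact ht.1.symm
    intro t ht
    exact isPreconnected_Ioi.constant hcont ht (by simp)
  refine ⟨n (R₀ + 1), fun i t => if h : n t = n (R₀ + 1) then
    (s52hd_Z G t).orderEmbOfFin h i else 0, ?_, ?_⟩
  · intro i t₀ ht₀
    obtain ⟨ψ, hψd, hev⟩ := hloc t₀ ht₀ _ (hconst t₀ ht₀)
    refine (hψd i).congr_of_eventuallyEq ?_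
    filter_upwards [hev] with t ⟨h, hj⟩
    rw [dif_pos h, hj]
  · intro t ht y
    have h := hconst t ht
    simp only [dif_pos h]
    rw [← s52hd_mem_Z G t (hlc t ht), ← Finset.mem_coe, ← Finset.range_orderEmbOfFin _ h]
    rfl

end Fermat.Agent.S52
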