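/-
S52, node [HIT], cell [HIT-A] (helper27).  Prefix `s52ha_`.
DECAY ("Hardy field" lemma): `s52ha_main : s52h_Decay_stmt`.

`f k` is the `k`-th derivative of `f 0` on `(R, ∞)`, every `f k` has eventually constant sign and
`f 0 = O(t ^ D)`: then `f k = O(t ^ (D - k))`.  Induction on `k`: `h := f k`, `h' := f (k + 1)` has
constant sign and is monotone (sign of `f (k + 2)`); the mean value inequality on `[t, 2 t]`
(`|h'|` nondecreasing) or on `[t / 2, t]` (`|h'|` nonincreasing) bounds `h' t * t` by values of `h`.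
-/
import Mathlib
import Fermat.Agent.S52.HIT.Seams

set_option autoImplicit false

open Polynomial Filter

namespace Fermat.Agent.S52

/-- the mean value inequality from a lower bound of the derivative. -/
theorem s52ha_mvt (h h' : ℝ → ℝ) {u v : ℝ} (huv : u ≤ v)
    (hd : ∀ x ∈ Set.Icc u v, HasDerivAt h (h' x) x) (c : ℝ)
    (hc : ∀ x ∈ Set.Ioo u v, c ≤ h' x) : c * (v - u) ≤ h v - h u := by
  refine Convex.mul_sub_le_image_sub_of_le_deriv (convex_Icc u v)
    (fun x hx => (hd x hx).continuousAt.continuousWithinAt)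
    (fun x hx => (hd x (interior_subset hx)).differentiableAt.differentiableWithinAt)
    (fun x hx => ?_) u (Set.left_mem_Icc.mpr huv) v (Set.right_mem_Icc.mpr huv) huv
  rw [interior_Icc] at hx
  rw [(hd x (Set.Ioo_subset_Icc_self hx)).deriv]
  exact hc x hx

/-- one step, `h' ≥ 0` eventually. -/
theorem s52ha_step_pos (h h' h'' : ℝ → ℝ) (R : ℝ)
    (hd : ∀ t, R < t → HasDerivAt h (h' t) t) (hd' : ∀ t, R < t → HasDerivAt h' (h'' t) t)
    (hpos : ∀ᶠ t in atTop, 0 ≤ h' t)
    (hsgn : (∀ᶠ t in atTop, 0 ≤ h'' t) ∨ (∀ᶠ t in atTop, h'' t ≤ 0))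
    (C : ℝ) (hC : 0 ≤ C) (D k : ℕ) (hb : ∀ᶠ t in atTop, |h t| * t ^ k ≤ C * t ^ D) :
    ∃ C' : ℝ, 0 ≤ C' ∧ ∀ᶠ t in atTop, |h' t| * t ^ (k + 1) ≤ C' * t ^ D := by
  obtain ⟨T₁, hT₁⟩ := eventually_atTop.mp hpos
  obtain ⟨T₃, hT₃⟩ := eventually_atTop.mp hb
  rcases hsgn with hsgn | hsgn
  · -- `h'` nondecreasing
    obtain ⟨T₂, hT₂⟩ := eventually_atTop.mp hsgn
    set T : ℝ := max (max T₁ T₂) (max T₃ (max R 0 + 1)) with hT
    have hTT₁ : T₁ ≤ T := le_trans (le_max_left _ _) (le_max_left _ _)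
    have hTT₂ : T₂ ≤ T := le_trans (le_max_right _ _) (le_max_left _ _)
    have hTT₃ : T₃ ≤ T := le_trans (le_max_left _ _) (le_max_right _ _)
    have hTR : R < T := by
      have h1 : max R 0 + 1 ≤ T := le_trans (le_max_right _ _) (le_max_right _ _)
      have h2 : R ≤ max R 0 := le_max_left _ _
      linarith
    have hT0 : 1 ≤ T := by
      have h1 : max R 0 + 1 ≤ T := le_trans (le_max_right _ _) (le_max_right _ _)
      have h2 : (0 : ℝ) ≤ max R 0 := le_max_right _ _
      linarith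
    have hmono : MonotoneOn h' (Set.Ici T) := by
      refine monotoneOn_of_deriv_nonneg (convex_Ici T)
        (fun x hx => (hd' x (lt_of_lt_of_le hTR hx)).continuousAt.continuousWithinAt)
        (fun x hx => (hd' x (lt_of_lt_of_le hTR (interior_subset hx))).differentiableAt.differentiableWithinAt)
        (fun x hx => ?_)
      have hx' : T ≤ x := interior_subset hx
      rw [(hd' x (lt_of_lt_of_le hTR hx')).deriv]
      exact hT₂ x (le_trans hTT₂ hx')
    refine ⟨C * (2 ^ D + 1), mul_nonneg hC (by positivity), ?_⟩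
    refine eventually_atTop.mpr ⟨T, fun t ht => ?_⟩
    have ht0 : 0 < t := by linarith
    have h2t : t ≤ 2 * t := by linarith
    have hmv : h' t * (2 * t - t) ≤ h (2 * t) - h t := by
      refine s52ha_mvt h h' h2t (fun x hx => hd x (by have := hx.1; linarith)) (h' t)
        (fun x hx => hmono (Set.mem_Ici.mpr ht) (Set.mem_Ici.mpr (by have := hx.1; linarith))
          (le_of_lt hx.1))
    have e : 2 * t - t = t := by ring
    rw [e] at hmv
    have hh't : 0 ≤ h' t := hT₁ t (le_trans hTT₁ ht)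
    have hb1 : |h t| * t ^ k ≤ C * t ^ D := hT₃ t (le_trans hTT₃ ht)
    have hb2 : |h (2 * t)| * (2 * t) ^ k ≤ C * (2 * t) ^ D := hT₃ (2 * t) (by linarith)
    have hpk : t ^ k ≤ (2 * t) ^ k := pow_le_pow_left₀ ht0.le h2t k
    have hb3 : |h (2 * t)| * t ^ k ≤ C * (2 * t) ^ D :=
      le_trans (mul_le_mul_of_nonneg_left hpk (abs_nonneg _)) hb2
    have habs : h (2 * t) - h t ≤ |h (2 * t)| + |h t| := by
      have h1 := le_abs_self (h (2 * t))
      have h2 := neg_abs_le (h t)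
      linarith
    have htk : 0 ≤ t ^ k := pow_nonneg ht0.le k
    calc |h' t| * t ^ (k + 1) = (h' t * t) * t ^ k := by rw [abs_of_nonneg hh't, pow_succ]; ring
      _ ≤ (|h (2 * t)| + |h t|) * t ^ k := mul_le_mul_of_nonneg_right (le_trans hmv habs) htk
      _ = |h (2 * t)| * t ^ k + |h t| * t ^ k := by ring
      _ ≤ C * (2 * t) ^ D + C * t ^ D := add_le_add hb3 hb1
      _ = C * (2 ^ D + 1) * t ^ D := by rw [mul_pow]; ring
  · -- `h'` nonincreasing
    obtain ⟨T₂, hT₂⟩ := eventually_atTop.mp hsgn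
    set T : ℝ := max (max T₁ T₂) (max T₃ (max R 0 + 1)) with hT
    have hTT₁ : T₁ ≤ T := le_trans (le_max_left _ _) (le_max_left _ _)
    have hTT₂ : T₂ ≤ T := le_trans (le_max_right _ _) (le_max_left _ _)
    have hTT₃ : T₃ ≤ T := le_trans (le_max_left _ _) (le_max_right _ _)
    have hTR : R < T := by
      have h1 : max R 0 + 1 ≤ T := le_trans (le_max_right _ _) (le_max_right _ _)
      have h2 : R ≤ max R 0 := le_max_left _ _
      linarith
    have hT0 : 1 ≤ T := by
      have h1 : max R 0 + 1 ≤ T := le_trans (le_max_right _ _) (le_max_right _ _)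
      have h2 : (0 : ℝ) ≤ max R 0 := le_max_right _ _
      linarith
    have hanti : AntitoneOn h' (Set.Ici T) := by
      refine antitoneOn_of_deriv_nonpos (convex_Ici T)
        (fun x hx => (hd' x (lt_of_lt_of_le hTR hx)).continuousAt.continuousWithinAt)
        (fun x hx => (hd' x (lt_of_lt_of_le hTR (interior_subset hx))).differentiableAt.differentiableWithinAt)
        (fun x hx => ?_)
      have hx' : T ≤ x := interior_subset hx
      rw [(hd' x (lt_of_lt_of_le hTR hx')).deriv]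
      exact hT₂ x (le_trans hTT₂ hx')
    refine ⟨2 * (C + C * 2 ^ k), by positivity, ?_⟩
    refine eventually_atTop.mpr ⟨2 * T, fun t ht => ?_⟩
    have ht0 : 0 < t := by linarith
    have htT : T ≤ t := by linarith
    have htT2 : T ≤ t / 2 := by linarith
    have h2t : t / 2 ≤ t := by linarith
    have hmv : h' t * (t - t / 2) ≤ h t - h (t / 2) := by
      refine s52ha_mvt h h' h2t (fun x hx => hd x (by have := hx.1; linarith)) (h' t)
        (fun x hx => hanti (Set.mem_Ici.mpr (by have := hx.1; linarith)) (Set.mem_Ici.mpr htT)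
          (le_of_lt hx.2))
    have e : t - t / 2 = t / 2 := by ring
    rw [e] at hmv
    have hh't : 0 ≤ h' t := hT₁ t (le_trans hTT₁ htT)
    have hb1 : |h t| * t ^ k ≤ C * t ^ D := hT₃ t (le_trans hTT₃ htT)
    have hb2 : |h (t / 2)| * (t / 2) ^ k ≤ C * (t / 2) ^ D := hT₃ (t / 2) (le_trans hTT₃ htT2)
    have hpD : (t / 2) ^ D ≤ t ^ D := pow_le_pow_left₀ (by linarith) h2t D
    have hb3 : |h (t / 2)| * t ^ k ≤ C * 2 ^ k * t ^ D := by
      have e1 : |h (t / 2)| * t ^ k = 2 ^ k * (|h (t / 2)| * (t / 2) ^ k) := by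
        rw [div_pow]
        field_simp
      rw [e1]
      calc 2 ^ k * (|h (t / 2)| * (t / 2) ^ k) ≤ 2 ^ k * (C * (t / 2) ^ D) :=
            mul_le_mul_of_nonneg_left hb2 (by positivity)
        _ ≤ 2 ^ k * (C * t ^ D) :=
            mul_le_mul_of_nonneg_left (mul_le_mul_of_nonneg_left hpD hC) (by positivity)
        _ = C * 2 ^ k * t ^ D := by ring
    have habs : h t - h (t / 2) ≤ |h t| + |h (t / 2)| := by
      have h1 := le_abs_self (h t)
      have h2 := neg_abs_le (h (t / 2))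
      linarith
    have htk : 0 ≤ t ^ k := pow_nonneg ht0.le k
    calc |h' t| * t ^ (k + 1) = 2 * ((h' t * (t / 2)) * t ^ k) := by
          rw [abs_of_nonneg hh't, pow_succ]; ring
      _ ≤ 2 * ((|h t| + |h (t / 2)|) * t ^ k) :=
          mul_le_mul_of_nonneg_left
            (mul_le_mul_of_nonneg_right (le_trans hmv habs) htk) (by norm_num)
      _ = 2 * (|h t| * t ^ k + |h (t / 2)| * t ^ k) := by ring
      _ ≤ 2 * (C * t ^ D + C * 2 ^ k * t ^ D) :=
          mul_le_mul_of_nonneg_left (add_le_add hb1 hb3) (by norm_num)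
      _ = 2 * (C + C * 2 ^ k) * t ^ D := by ring

/-- one step. -/
theorem s52ha_step (h h' h'' : ℝ → ℝ) (R : ℝ)
    (hd : ∀ t, R < t → HasDerivAt h (h' t) t) (hd' : ∀ t, R < t → HasDerivAt h' (h'' t) t)
    (hsgn' : (∀ᶠ t in atTop, 0 ≤ h' t) ∨ (∀ᶠ t in atTop, h' t ≤ 0))
    (hsgn : (∀ᶠ t in atTop, 0 ≤ h'' t) ∨ (∀ᶠ t in atTop, h'' t ≤ 0))
    (C : ℝ) (hC : 0 ≤ C) (D k : ℕ) (hb : ∀ᶠ t in atTop, |h t| * t ^ k ≤ C * t ^ D) :
    ∃ C' : ℝ, 0 ≤ C' ∧ ∀ᶠ t in atTop, |h' t| * t ^ (k + 1) ≤ C' * t ^ D := by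
  rcases hsgn' with hpos | hneg
  · exact s52ha_step_pos h h' h'' R hd hd' hpos hsgn C hC D k hb
  · obtain ⟨C', hC', hb'⟩ := s52ha_step_pos (fun t => -h t) (fun t => -h' t) (fun t => -h'' t) R
      (fun t ht => (hd t ht).neg) (fun t ht => (hd' t ht).neg)
      (hneg.mono fun t ht => neg_nonneg.mpr ht)
      (hsgn.symm.imp (fun hh => hh.mono fun t ht => neg_nonneg.mpr ht)
        (fun hh => hh.mono fun t ht => neg_nonpos.mpr ht)) C hC D k
      (hb.mono fun t ht => by rw [abs_neg]; exact ht)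
    exact ⟨C', hC', hb'.mono fun t ht => by rw [abs_neg] at ht; exact ht⟩

/-- **[HIT-A]** -/
theorem s52ha_main : s52h_Decay_stmt := by
  intro f R hd hs C D hb k
  suffices hh : ∃ C' : ℝ, 0 ≤ C' ∧ ∀ᶠ t in atTop, |f k t| * t ^ k ≤ C' * t ^ D by
    obtain ⟨C', -, h'⟩ := hh
    exact ⟨C', h'⟩
  induction k with
  | zero =>
    refine ⟨|C|, abs_nonneg C, ?_⟩
    filter_upwards [hb, eventually_ge_atTop 0] with t ht ht0
    rw [pow_zero, mul_one]
    exact ht.trans (mul_le_mul_of_nonneg_right (le_abs_self C) (pow_nonneg ht0 D))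
  | succ k ih =>
    obtain ⟨C', hC', hb'⟩ := ih
    exact s52ha_step (f k) (f (k + 1)) (f (k + 2)) R (hd k) (hd (k + 1)) (hs (k + 1))
      (hs (k + 2)) C' hC' D k hb'

end Fermat.Agent.S52
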