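import Mathlib
import Fermat.Agent.S52.HIT.Seams

/-!
# S52, node [HIT], cell (E2): dichotomy for algebraic functions (prefix `s52he_`)

`φ` continuous on `(R, ∞)` with `G(t, φ t) = 0`, `G ≠ 0`.  Then for every `N ∈ ℝ[X][Y]` the function
`w t := N(t, φ t)` is eventually `= 0`, eventually `> 0` or eventually `< 0`.

Proof.  `N` is algebraic over `ℝ(X)` modulo `G` (the algebra `ℝ(X)[Y]/(G)` is finite-dimensional), so
after clearing denominators `C c * P(N) = G * H` with `P ∈ ℝ[X][Z]`, `P ≠ 0`, `c ∈ ℝ[X]`, `c ≠ 0`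
(`s52he_rel`); hence `P(t, w t) = 0` for `t > R` with `c t ≠ 0`.  Write `P = Z ^ k * P₁` with
`P₁(X, 0) ≠ 0` (`s52he_factor`).  Beyond the roots of `c` and of `P₁(X, 0)` the sign of `w` is locally
constant: near a zero `t₀` of `w` one has `P₁(t, w t) ≠ 0` by continuity, so `w t ^ k = 0`.  The
half line is connected, so the sign is constant.
-/

set_option autoImplicit false
set_option linter.style.haveILetI false

open Polynomial Filter Topology
open scoped Polynomial.Bivariate

namespace Fermat.Agent.S52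

/-- `evalEval` as a finite sum. -/
theorem s52he_evalEval_eq_sum (F : ℝ[X][Y]) (t y : ℝ) :
    evalEval t y F = ∑ i ∈ F.support, (F.coeff i).eval t * y ^ i := by
  rw [← eval₂_evalRingHom, eval₂_eq_sum, Polynomial.sum_def]
  rfl

/-- `(t, y) ↦ F(t, y)` is continuous. -/
theorem s52he_continuous (F : ℝ[X][Y]) : Continuous fun p : ℝ × ℝ => evalEval p.1 p.2 F := by
  simp only [s52he_evalEval_eq_sum]
  refine continuous_finsetSum _ fun i _ => ?_
  exact ((F.coeff i).continuous.comp continuous_fst).mul (continuous_snd.pow i)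

/-- `t ↦ F(t, ψ t)` is continuous at `x₀` if `ψ` is. -/
theorem s52he_continuousAt (F : ℝ[X][Y]) {ψ : ℝ → ℝ} {x₀ : ℝ} (hψ : ContinuousAt ψ x₀) :
    ContinuousAt (fun t => evalEval t (ψ t) F) x₀ :=
  (s52he_continuous F).continuousAt.comp (f := fun t => (t, ψ t)) (continuousAt_id.prodMk hψ)

/-- `(P ∘ N)(t, y) = P(t, N(t, y))`. -/
theorem s52he_evalEval_comp (P N : ℝ[X][Y]) (t y : ℝ) :
    evalEval t y (P.comp N) = evalEval t (evalEval t y N) P := by
  have h : ∀ q : ℝ[X], eval t (eval q P) = evalEval t (eval t q) P := by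
    intro q
    rw [← eval₂_evalRingHom, ← coe_evalRingHom, eval₂_at_apply]
  rw [evalEval, eval_comp, h]

/-- Split off the exact power of the outer variable. -/
theorem s52he_factor (P : ℝ[X][Y]) (hP : P ≠ 0) :
    ∃ (k : ℕ) (P₁ : ℝ[X][Y]), P = X ^ k * P₁ ∧ P₁.coeff 0 ≠ 0 := by
  obtain ⟨q, hq, hnd⟩ := exists_eq_pow_rootMultiplicity_mul_and_not_dvd P hP 0
  rw [C_0, sub_zero] at hq hnd
  exact ⟨_, q, hq, fun h => hnd (X_dvd_iff.2 h)⟩

/-- The algebraic relation: `N` is algebraic over `ℝ(X)` modulo `G`, denominators cleared. -/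
theorem s52he_rel (G N : ℝ[X][Y]) (hG : G ≠ 0) :
    ∃ (P : ℝ[X][Y]) (c : ℝ[X]) (H : ℝ[X][Y]), P ≠ 0 ∧ c ≠ 0 ∧ C c * P.comp N = G * H := by
  classical
  have hιinj : Function.Injective (algebraMap ℝ[X] (RatFunc ℝ)) :=
    IsFractionRing.injective ℝ[X] (RatFunc ℝ)
  have hGK : G.map (algebraMap ℝ[X] (RatFunc ℝ)) ≠ 0 := (Polynomial.map_ne_zero_iff hιinj).2 hG
  haveI : Module.Finite (RatFunc ℝ) (AdjoinRoot (G.map (algebraMap ℝ[X] (RatFunc ℝ)))) :=
    (AdjoinRoot.powerBasis hGK).finite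
  obtain ⟨Q, hQ0, hQ⟩ := (Algebra.IsAlgebraic.of_finite (RatFunc ℝ)
    (AdjoinRoot (G.map (algebraMap ℝ[X] (RatFunc ℝ))))).isAlgebraic
      (AdjoinRoot.mk (G.map (algebraMap ℝ[X] (RatFunc ℝ))) (N.map (algebraMap ℝ[X] (RatFunc ℝ))))
  have h1 : AdjoinRoot.mk (G.map (algebraMap ℝ[X] (RatFunc ℝ)))
      (Q.comp (N.map (algebraMap ℝ[X] (RatFunc ℝ)))) = 0 := by
    rw [← hQ, Polynomial.comp, Polynomial.hom_eval₂, aeval_def]
    rfl
  obtain ⟨HK, hHK⟩ := AdjoinRoot.mk_eq_zero.1 h1
  obtain ⟨b, hb, hbQ⟩ := IsLocalization.integerNormalization_spec (nonZeroDivisors ℝ[X]) Q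
  obtain ⟨c, hc, hcH⟩ := IsLocalization.integerNormalization_spec (nonZeroDivisors ℝ[X]) HK
  refine ⟨IsLocalization.integerNormalization (nonZeroDivisors ℝ[X]) Q, c,
    C b * IsLocalization.integerNormalization (nonZeroDivisors ℝ[X]) HK, ?_,
    nonZeroDivisors.ne_zero hc, ?_⟩
  · exact mt IsFractionRing.integerNormalization_eq_zero_iff.1 hQ0
  · apply Polynomial.map_injective _ hιinj
    rw [Polynomial.map_mul, Polynomial.map_mul, Polynomial.map_mul, Polynomial.map_comp,
      Polynomial.map_C, Polynomial.map_C, hbQ, hcH, smul_comp, hHK, Algebra.smul_def,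
      Algebra.smul_def]
    simp only [Polynomial.algebraMap_apply]
    ring

/-- **(E2)** dichotomy for algebraic functions. -/
theorem s52he_main : s52h_Dich_stmt := by
  intro G N R φ hG hφ hroot
  obtain ⟨P, c, H, hP, hc, hrel⟩ := s52he_rel G N hG
  obtain ⟨k, P₁, hPk, hP₁⟩ := s52he_factor P hP
  -- `P(t, w t) = 0` where `c t ≠ 0`
  have hPw : ∀ t, R < t → c.eval t ≠ 0 →
      evalEval t (evalEval t (φ t) N) P = 0 := by
    intro t ht hct
    have h := congrArg (evalEval t (φ t)) hrel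
    rw [evalEval_mul, evalEval_mul, evalEval_C, s52he_evalEval_comp, hroot t ht, zero_mul] at h
    exact (mul_eq_zero.1 h).resolve_left hct
  -- beyond `R₁` neither `c` nor `P₁(X, 0)` vanishes
  obtain ⟨R₁, hRR₁, hR₁⟩ : ∃ R₁, R ≤ R₁ ∧
      ∀ t, R₁ < t → c.eval t ≠ 0 ∧ (P₁.coeff 0).eval t ≠ 0 := by
    obtain ⟨a, ha⟩ := eventually_atTop.1
      ((eventually_atTop_not_isRoot c hc).and (eventually_atTop_not_isRoot (P₁.coeff 0) hP₁))
    exact ⟨max a R, le_max_right _ _, fun t ht => ha t (le_of_lt (lt_of_le_of_lt (le_max_left _ _) ht))⟩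
  have hkey : ∀ t, R₁ < t →
      evalEval t (φ t) N ^ k * evalEval t (evalEval t (φ t) N) P₁ = 0 := by
    intro t ht
    have h := hPw t (lt_of_le_of_lt hRR₁ ht) (hR₁ t ht).1
    rw [hPk, evalEval_mul, evalEval_pow, evalEval_X] at h
    exact h
  have hφat : ∀ t, R₁ < t → ContinuousAt φ t := fun t ht =>
    hφ.continuousAt (Ioi_mem_nhds (lt_of_le_of_lt hRR₁ ht))
  have hwat : ∀ t, R₁ < t → ContinuousAt (fun t => evalEval t (φ t) N) t := fun t ht =>
    s52he_continuousAt N (hφat t ht)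
  -- the sign of `w` is locally constant on `(R₁, ∞)`
  have hloc : ∀ x₀, R₁ < x₀ → ∀ᶠ y in 𝓝 x₀,
      SignType.sign (evalEval y (φ y) N) = SignType.sign (evalEval x₀ (φ x₀) N) := by
    intro x₀ hx₀
    rcases lt_trichotomy (evalEval x₀ (φ x₀) N) 0 with hneg | hzero | hpos
    · filter_upwards [(hwat x₀ hx₀).eventually (eventually_lt_nhds hneg)] with y hy
      rw [sign_neg hy, sign_neg hneg]
    · have hc1 : ContinuousAt (fun t => evalEval t (evalEval t (φ t) N) P₁) x₀ :=
        s52he_continuousAt P₁ (hwat x₀ hx₀)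
      have hne : evalEval x₀ (evalEval x₀ (φ x₀) N) P₁ ≠ 0 := by
        rw [hzero, evalEval, C_0, ← coeff_zero_eq_eval_zero]
        exact (hR₁ x₀ hx₀).2
      filter_upwards [hc1.eventually_ne hne, Ioi_mem_nhds hx₀] with y hy hyR
      have h := hkey y hyR
      have h0 : evalEval y (φ y) N = 0 :=
        eq_zero_of_pow_eq_zero ((mul_eq_zero.1 h).resolve_right hy)
      rw [h0, hzero]
    · filter_upwards [(hwat x₀ hx₀).eventually (eventually_gt_nhds hpos)] with y hy
      rw [sign_pos hy, sign_pos hpos]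
  -- connectedness
  haveI : PreconnectedSpace (Set.Ioi R₁) := Subtype.preconnectedSpace isPreconnected_Ioi
  have hlc : IsLocallyConstant
      (fun x : Set.Ioi R₁ => SignType.sign (evalEval (x : ℝ) (φ x) N)) := by
    rw [IsLocallyConstant.iff_eventually_eq]
    intro x
    exact (continuous_subtype_val.tendsto x).eventually (hloc x x.2)
  have hconst : ∀ t, R₁ < t → SignType.sign (evalEval t (φ t) N) =
      SignType.sign (evalEval (R₁ + 1) (φ (R₁ + 1)) N) := fun t ht =>
    hlc.apply_eq_of_preconnectedSpace ⟨t, ht⟩ ⟨R₁ + 1, lt_add_one R₁⟩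
  rcases lt_trichotomy (evalEval (R₁ + 1) (φ (R₁ + 1)) N) 0 with hneg | hzero | hpos
  · right; right
    filter_upwards [eventually_gt_atTop R₁] with t ht
    have h := hconst t ht
    rw [sign_neg hneg] at h
    exact sign_eq_neg_one_iff.1 h
  · left
    filter_upwards [eventually_gt_atTop R₁] with t ht
    have h := hconst t ht
    rw [hzero, sign_zero] at h
    exact sign_eq_zero_iff.1 h
  · right; left
    filter_upwards [eventually_gt_atTop R₁] with t ht
    have h := hconst t ht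
    rw [sign_pos hpos] at h
    exact sign_eq_one_iff.1 h

end Fermat.Agent.S52
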