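/-
Project S52 (the 3–5 switch), node [HIT] (owner helper12), cell [HIT-B] (helper29).
Prefix `s52hb_`.  GENERALIZED ROLLE + INTEGRALITY OF THE DIVIDED DIFFERENCE:

* `s52hb_rolle`  : chain form of iterated Rolle: `h (k + 1)` is the derivative of `h k` on `[a, b]`
                   (`k < n`), `h 0` has `n + 1` zeros in `[a, b]`  ⟹  `h n` has a zero in `[a, b]`;
* `s52hb_main : s52h_DivDiff_stmt`.
-/
import Mathlib
import Fermat.Agent.S52.HIT.Seams

set_option autoImplicit false

namespace Fermat.Agent.S52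

open Set Polynomial

/-- **iterated Rolle, chain form**. -/
theorem s52hb_rolle (n : ℕ) : ∀ (h : ℕ → ℝ → ℝ) (a b : ℝ),
    (∀ k : ℕ, k < n → ∀ t : ℝ, t ∈ Icc a b → HasDerivAt (h k) (h (k + 1) t) t) →
    ∀ v : Fin (n + 1) → ℝ, StrictMono v → (∀ i, v i ∈ Icc a b) → (∀ i, h 0 (v i) = 0) →
    ∃ ξ ∈ Icc a b, h n ξ = 0 := by
  induction n with
  | zero =>
    intro h a b _ v _ hv hz
    exact ⟨v 0, hv 0, hz 0⟩
  | succ n ih =>
    intro h a b hd v hv hvab hz
    have hR : ∀ i : Fin (n + 1), ∃ c ∈ Ioo (v i.castSucc) (v i.succ), h 1 c = 0 := by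
      intro i
      have hlt : v i.castSucc < v i.succ := hv (Fin.castSucc_lt_succ)
      have hsub : Icc (v i.castSucc) (v i.succ) ⊆ Icc a b := fun x hx =>
        ⟨le_trans (hvab _).1 hx.1, le_trans hx.2 (hvab _).2⟩
      refine exists_hasDerivAt_eq_zero hlt ?_ (by rw [hz, hz])
        (fun x hx => hd 0 (Nat.succ_pos n) x (hsub (Ioo_subset_Icc_self hx)))
      intro x hx
      exact (hd 0 (Nat.succ_pos n) x (hsub hx)).continuousAt.continuousWithinAt
    choose w hw hw0 using hR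
    have hwmono : StrictMono w := by
      intro i j hij
      calc w i < v i.succ := (hw i).2
        _ ≤ v j.castSucc := hv.monotone (by
            rw [Fin.le_iff_val_le_val, Fin.val_succ, Fin.val_castSucc]
            exact hij)
        _ < w j := (hw j).1
    have hwab : ∀ i, w i ∈ Icc a b := fun i =>
      ⟨le_trans (hvab _).1 (hw i).1.le, le_trans (hw i).2.le (hvab _).2⟩
    exact ih (fun k => h (k + 1)) a b
      (fun k hk t ht => hd (k + 1) (Nat.succ_lt_succ hk) t ht) w hwmono hwab hw0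

/-- the top iterated derivative of a polynomial of degree `≤ m` (over `ℝ`). -/
theorem s52hb_top_deriv {q : ℝ[X]} {m : ℕ} (hq : q.natDegree ≤ m) (x : ℝ) :
    (derivative^[m] q).eval x = (m.factorial : ℝ) * q.coeff m := by
  have h1 : (derivative^[m] q).natDegree ≤ 0 := by
    refine (natDegree_iterate_derivative q m).trans ?_
    omega
  rw [eq_C_of_natDegree_le_zero h1, eval_C, coeff_iterate_derivative, zero_add,
    Nat.descFactorial_self, nsmul_eq_mul]

/-- **[HIT-B]**. -/
theorem s52hb_main : s52h_DivDiff_stmt := by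
  classical
  intro m f a b hf x hx hxab hint
  choose z hz using hint
  set u : Fin (m + 1) → ℝ := fun i => (x i : ℝ) with hu
  have humono : StrictMono u := fun i j hij => by
    show ((x i : ℤ) : ℝ) < ((x j : ℤ) : ℝ)
    exact_mod_cast hx hij
  -- the interpolant
  set q : ℝ[X] := Lagrange.interpolate Finset.univ u (fun j => f 0 (u j)) with hq
  have hinj : Set.InjOn u ↑(Finset.univ : Finset (Fin (m + 1))) := humono.injective.injOn
  have hcard : (Finset.univ : Finset (Fin (m + 1))).card = m + 1 := by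
    rw [Finset.card_univ, Fintype.card_fin]
  have hdeg : q.degree < ((Finset.univ : Finset (Fin (m + 1))).card : WithBot ℕ) :=
    Lagrange.degree_interpolate_lt _ hinj
  have heval : ∀ j, q.eval (u j) = f 0 (u j) := fun j =>
    Lagrange.eval_interpolate_at_node _ hinj (Finset.mem_univ j)
  have hcoeff : q.coeff m = ∑ j, f 0 (u j) / ∏ k ∈ Finset.univ.erase j, (u j - u k) := by
    have h1 := Lagrange.coeff_eq_sum hinj hdeg
    rw [hcard, Nat.add_sub_cancel] at h1
    rw [h1]
    refine Finset.sum_congr rfl (fun j _ => ?_)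
    rw [heval]
  have hnat : q.natDegree ≤ m := by
    rw [hcard] at hdeg
    by_cases hq0 : q = 0
    · rw [hq0, natDegree_zero]
      exact Nat.zero_le _
    · have h2 := (natDegree_lt_iff_degree_lt hq0).mpr hdeg
      omega
  -- Rolle
  obtain ⟨ξ, hξ, h0⟩ := s52hb_rolle m (fun k t => f k t - (derivative^[k] q).eval t) a b
    (fun k hk t ht => by
      have h1 := hf k hk t ht
      have h2 := (derivative^[k] q).hasDerivAt t
      rw [← Function.iterate_succ_apply' derivative k q] at h2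
      exact h1.sub h2)
    u humono hxab (fun i => by
      show f 0 (u i) - (derivative^[0] q).eval (u i) = 0
      rw [Function.iterate_zero, id, heval, sub_self])
  rw [s52hb_top_deriv hnat, sub_eq_zero] at h0
  refine ⟨ξ, hξ, ?_⟩
  -- integrality
  set Pi : Fin (m + 1) → ℤ := fun i => ∏ k ∈ Finset.univ.erase i, (x i - x k) with hPi
  have hPi0 : ∀ i, Pi i ≠ 0 := by
    intro i
    rw [hPi]
    refine Finset.prod_ne_zero_iff.mpr (fun k hk => ?_)
    have hki : k ≠ i := Finset.ne_of_mem_erase hk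
    exact sub_ne_zero.mpr (fun h => hki (hx.injective h).symm)
  have hPiR : ∀ i, ((Pi i : ℤ) : ℝ) = ∏ k ∈ Finset.univ.erase i, (u i - u k) := by
    intro i
    rw [hPi]
    push_cast
    rfl
  refine ⟨∑ j, z j * ∏ i ∈ Finset.univ.erase j, Pi i, ?_⟩
  have hprod : (∏ i : Fin (m + 1), ∏ j ∈ Finset.univ.erase i, ((x i : ℝ) - (x j : ℝ))) =
      ∏ i : Fin (m + 1), ((Pi i : ℤ) : ℝ) := by
    refine Finset.prod_congr rfl (fun i _ => ?_)
    rw [hPiR]
  rw [hprod, h0, hcoeff]
  push_cast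
  rw [Finset.sum_mul]
  have hrw : ∀ j, f 0 (u j) / ∏ k ∈ Finset.univ.erase j, (u j - u k) =
      (z j : ℝ) / ((Pi j : ℤ) : ℝ) := by
    intro j
    rw [hPiR, hz j]
  have hsplit : ∀ j, (∏ i : Fin (m + 1), ((Pi i : ℤ) : ℝ)) =
      ((Pi j : ℤ) : ℝ) * ∏ i ∈ Finset.univ.erase j, ((Pi i : ℤ) : ℝ) := fun j =>
    (Finset.mul_prod_erase Finset.univ (fun i => ((Pi i : ℤ) : ℝ)) (Finset.mem_univ j)).symm
  have key : ∀ j, (z j : ℝ) * (∏ i ∈ Finset.univ.erase j, ((Pi i : ℤ) : ℝ)) * (m.factorial : ℝ) =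
      (∏ i : Fin (m + 1), ((Pi i : ℤ) : ℝ)) *
        ((m.factorial : ℝ) * ((z j : ℝ) / ((Pi j : ℤ) : ℝ))) := by
    intro j
    have hne : ((Pi j : ℤ) : ℝ) ≠ 0 := Int.cast_ne_zero.mpr (hPi0 j)
    rw [hsplit j]
    field_simp
  calc ∑ j, (z j : ℝ) * (∏ i ∈ Finset.univ.erase j, ((Pi i : ℤ) : ℝ)) * (m.factorial : ℝ)
      = ∑ j, (∏ i : Fin (m + 1), ((Pi i : ℤ) : ℝ)) *
        ((m.factorial : ℝ) * ((z j : ℝ) / ((Pi j : ℤ) : ℝ))) :=
        Finset.sum_congr rfl (fun j _ => key j)
    _ = (∏ i : Fin (m + 1), ((Pi i : ℤ) : ℝ)) *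
        ((m.factorial : ℝ) * ∑ j, f 0 (u j) / ∏ k ∈ Finset.univ.erase j, (u j - u k)) := by
        rw [Finset.mul_sum, Finset.mul_sum]
        refine Finset.sum_congr rfl (fun j _ => ?_)
        rw [hrw j]

end Fermat.Agent.S52
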