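import Mathlib
import Fermat.Agent.S52.HIT.Seams

/-!
# S52, node [HIT], cell (E3): polynomial growth of algebraic functions (prefix `s52hg_`)

`s52hg_main : s52h_Growth_stmt`: if `φ t` is a root of `G(t, ·)` for `t > R`, `G ≠ 0`, then
`t ↦ N(t, φ t)` is polynomially bounded at `+∞` (Cauchy's bound on the roots of `G(t, ·)`, the
leading coefficient being bounded below eventually, and the coefficients polynomially bounded).
-/

set_option autoImplicit false

open Polynomial Filter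
open scoped Polynomial.Bivariate

namespace Fermat.Agent.S52

/-- Polynomially bounded at `+∞`. -/
def s52hg_PB (f : ℝ → ℝ) : Prop := ∃ (C : ℝ) (D : ℕ), ∀ᶠ t in atTop, |f t| ≤ C * t ^ D

/-- Normal form: nonnegative constant, `t ≥ 1`. -/
theorem s52hg_PB.exists_nonneg {f : ℝ → ℝ} (hf : s52hg_PB f) :
    ∃ (C : ℝ) (D : ℕ), 0 ≤ C ∧ ∀ᶠ t in atTop, 1 ≤ t ∧ |f t| ≤ C * t ^ D := by
  obtain ⟨C, D, h⟩ := hf
  refine ⟨|C|, D, abs_nonneg C, ?_⟩
  filter_upwards [h, eventually_ge_atTop (1 : ℝ)] with t ht h1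
  refine ⟨h1, ht.trans ?_⟩
  exact mul_le_mul_of_nonneg_right (le_abs_self C) (pow_nonneg (by linarith) D)

theorem s52hg_PB.of_le {f g : ℝ → ℝ} (hg : s52hg_PB g) (h : ∀ᶠ t in atTop, |f t| ≤ g t) :
    s52hg_PB f := by
  obtain ⟨C, D, hC⟩ := hg
  refine ⟨C, D, ?_⟩
  filter_upwards [hC, h] with t h1 h2
  exact h2.trans ((le_abs_self _).trans h1)

theorem s52hg_PB.const (c : ℝ) : s52hg_PB (fun _ => c) :=
  ⟨|c|, 0, Eventually.of_forall fun t => by simp⟩

theorem s52hg_PB.id : s52hg_PB (fun t => t) := by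
  refine ⟨1, 1, ?_⟩
  filter_upwards [eventually_ge_atTop (0 : ℝ)] with t ht
  rw [abs_of_nonneg ht]
  simp

theorem s52hg_PB.add {f g : ℝ → ℝ} (hf : s52hg_PB f) (hg : s52hg_PB g) :
    s52hg_PB (fun t => f t + g t) := by
  obtain ⟨C₁, D₁, hC₁, h₁⟩ := hf.exists_nonneg
  obtain ⟨C₂, D₂, hC₂, h₂⟩ := hg.exists_nonneg
  refine ⟨C₁ + C₂, max D₁ D₂, ?_⟩
  filter_upwards [h₁, h₂] with t ⟨ht, h1⟩ ⟨_, h2⟩
  have e1 : t ^ D₁ ≤ t ^ max D₁ D₂ := pow_le_pow_right₀ ht (le_max_left _ _)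
  have e2 : t ^ D₂ ≤ t ^ max D₁ D₂ := pow_le_pow_right₀ ht (le_max_right _ _)
  calc |f t + g t| ≤ |f t| + |g t| := abs_add_le _ _
    _ ≤ C₁ * t ^ D₁ + C₂ * t ^ D₂ := add_le_add h1 h2
    _ ≤ C₁ * t ^ max D₁ D₂ + C₂ * t ^ max D₁ D₂ :=
      add_le_add (mul_le_mul_of_nonneg_left e1 hC₁) (mul_le_mul_of_nonneg_left e2 hC₂)
    _ = (C₁ + C₂) * t ^ max D₁ D₂ := by ring

theorem s52hg_PB.mul {f g : ℝ → ℝ} (hf : s52hg_PB f) (hg : s52hg_PB g) :
    s52hg_PB (fun t => f t * g t) := by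
  obtain ⟨C₁, D₁, hC₁, h₁⟩ := hf.exists_nonneg
  obtain ⟨C₂, D₂, hC₂, h₂⟩ := hg.exists_nonneg
  refine ⟨C₁ * C₂, D₁ + D₂, ?_⟩
  filter_upwards [h₁, h₂] with t ⟨ht, h1⟩ ⟨_, h2⟩
  have ht0 : (0 : ℝ) ≤ t := by linarith
  calc |f t * g t| = |f t| * |g t| := abs_mul _ _
    _ ≤ (C₁ * t ^ D₁) * (C₂ * t ^ D₂) :=
      mul_le_mul h1 h2 (abs_nonneg _) (mul_nonneg hC₁ (pow_nonneg ht0 _))
    _ = C₁ * C₂ * t ^ (D₁ + D₂) := by ring

theorem s52hg_PB.abs {f : ℝ → ℝ} (hf : s52hg_PB f) : s52hg_PB (fun t => |f t|) := by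
  obtain ⟨C, D, h⟩ := hf
  exact ⟨C, D, by simpa only [abs_abs] using h⟩

theorem s52hg_PB.pow {f : ℝ → ℝ} (hf : s52hg_PB f) (n : ℕ) : s52hg_PB (fun t => f t ^ n) := by
  induction n with
  | zero => simpa using s52hg_PB.const 1
  | succ n ih => simpa only [pow_succ] using ih.mul hf

theorem s52hg_PB.sum {ι : Type*} (s : Finset ι) {f : ι → ℝ → ℝ} (hf : ∀ i ∈ s, s52hg_PB (f i)) :
    s52hg_PB (fun t => ∑ i ∈ s, f i t) := by
  classical
  induction s using Finset.induction_on with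
  | empty => simpa using s52hg_PB.const 0
  | insert a s ha ih =>
    simp only [Finset.sum_insert ha]
    exact (hf a (Finset.mem_insert_self a s)).add
      (ih fun i hi => hf i (Finset.mem_insert_of_mem hi))

/-- A polynomial function is polynomially bounded. -/
theorem s52hg_PB.poly (p : ℝ[X]) : s52hg_PB (fun t => p.eval t) := by
  simp only [eval_eq_sum_range]
  exact s52hg_PB.sum _ fun i _ => (s52hg_PB.const _).mul (s52hg_PB.id.pow i)

/-- A polynomial in `t` and a polynomially bounded function is polynomially bounded. -/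
theorem s52hg_PB.evalEval (N : ℝ[X][Y]) {φ : ℝ → ℝ} (hφ : s52hg_PB φ) :
    s52hg_PB (fun t => evalEval t (φ t) N) := by
  induction N using Polynomial.induction_on' with
  | add p q hp hq =>
    simp only [evalEval_add]
    exact hp.add hq
  | monomial n a =>
    have h : ∀ t : ℝ, Polynomial.evalEval t (φ t) (monomial n a) = a.eval t * φ t ^ n := by
      intro t
      rw [← C_mul_X_pow_eq_monomial, evalEval_mul, evalEval_C, evalEval_pow, evalEval_X]
    simp only [h]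
    exact (s52hg_PB.poly a).mul (hφ.pow n)

/-- A nonzero real polynomial is eventually bounded below in absolute value. -/
theorem s52hg_lower (p : ℝ[X]) (hp : p ≠ 0) : ∃ c : ℝ, 0 < c ∧ ∀ᶠ t in atTop, c ≤ |p.eval t| := by
  by_cases hdeg : 0 < p.degree
  · exact ⟨1, one_pos, (p.abs_tendsto_atTop hdeg).eventually_ge_atTop 1⟩
  · rw [not_lt] at hdeg
    have hC := eq_C_of_degree_le_zero hdeg
    have h0 : p.coeff 0 ≠ 0 := by
      intro h
      apply hp
      rw [hC, h, C_0]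
    refine ⟨|p.coeff 0|, abs_pos.2 h0, Eventually.of_forall fun t => ?_⟩
    rw [hC, eval_C, coeff_C_zero]

/-- Cauchy's bound, in real form with a sum. -/
theorem s52hg_cauchy (p : ℝ[X]) (hp : p ≠ 0) {y : ℝ} (hy : p.IsRoot y) :
    |y| ≤ (∑ i ∈ Finset.range p.natDegree, |p.coeff i|) / |p.leadingCoeff| + 1 := by
  have h := (IsRoot.norm_lt_cauchyBound hp hy).le
  have h2 : (Finset.range p.natDegree).sup (fun i => ‖p.coeff i‖₊) ≤
      ∑ i ∈ Finset.range p.natDegree, ‖p.coeff i‖₊ :=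
    Finset.sup_le fun i hi => Finset.single_le_sum (f := fun i => ‖p.coeff i‖₊)
      (fun _ _ => zero_le) hi
  have h3 : ‖y‖₊ ≤ (∑ i ∈ Finset.range p.natDegree, ‖p.coeff i‖₊) / ‖p.leadingCoeff‖₊ + 1 := by
    refine h.trans ?_
    unfold cauchyBound
    gcongr
  have h4 := NNReal.coe_le_coe.2 h3
  simpa [NNReal.coe_sum, Real.norm_eq_abs] using h4

/-- **Cell (E3) of [HIT].** -/
theorem s52hg_main : s52h_Growth_stmt := by
  intro G N R φ hG hroot
  refine (s52hg_PB.evalEval N ?_ : s52hg_PB _)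
  obtain ⟨c, hc, hlow⟩ := s52hg_lower G.leadingCoeff hG
  have hb : s52hg_PB (fun t =>
      (∑ i ∈ Finset.range G.natDegree, |(G.coeff i).eval t|) * c⁻¹ + 1) :=
    ((s52hg_PB.sum _ fun i _ => (s52hg_PB.poly (G.coeff i)).abs).mul (s52hg_PB.const _)).add
      (s52hg_PB.const 1)
  refine hb.of_le ?_
  filter_upwards [hlow, eventually_gt_atTop R] with t ht hR
  have hlc : G.leadingCoeff.eval t ≠ 0 := by
    intro h
    rw [h, abs_zero] at ht
    linarith
  have hlc' : (evalRingHom t) G.leadingCoeff ≠ 0 := hlc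
  have hnd : (G.map (evalRingHom t)).natDegree = G.natDegree :=
    natDegree_map_of_leadingCoeff_ne_zero _ hlc'
  have hld : (G.map (evalRingHom t)).leadingCoeff = G.leadingCoeff.eval t :=
    leadingCoeff_map_of_leadingCoeff_ne_zero _ hlc'
  have hne : G.map (evalRingHom t) ≠ 0 := by
    intro h
    rw [h, leadingCoeff_zero] at hld
    exact hlc hld.symm
  have hr : (G.map (evalRingHom t)).IsRoot (φ t) := by
    rw [IsRoot.def, map_evalRingHom_eval]
    exact hroot t hR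
  have h := s52hg_cauchy _ hne hr
  rw [hnd, hld] at h
  simp only [coeff_map, coe_evalRingHom] at h
  refine h.trans ?_
  have hs : 0 ≤ ∑ i ∈ Finset.range G.natDegree, |(G.coeff i).eval t| :=
    Finset.sum_nonneg fun _ _ => abs_nonneg _
  have : (∑ i ∈ Finset.range G.natDegree, |(G.coeff i).eval t|) / |G.leadingCoeff.eval t| ≤
      (∑ i ∈ Finset.range G.natDegree, |(G.coeff i).eval t|) * c⁻¹ := by
    rw [div_eq_mul_inv]
    exact mul_le_mul_of_nonneg_left (inv_anti₀ hc ht) hs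
  linarith

end Fermat.Agent.S52
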