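import Fermat.Agent.S52.HIT.Seams

/-!
# S52, node [HIT], cell (C) (prefix `s52hc_`)

* `s52hc_main : s52h_PolyOfDeriv_stmt` : a function on `(R, ∞)` whose `m`-th derivative vanishes
  identically is a polynomial of degree `< m` there;
* `s52hc_rat : s52h_RatPoly_stmt` : a real polynomial taking rational values at more than `deg`
  rational points has rational coefficients.
-/

set_option autoImplicit false

open Polynomial

namespace Fermat.Agent.S52

/-- The antiderivative (without constant term) of a polynomial of degree `< m`. -/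
noncomputable def s52hc_anti (m : ℕ) (Q : ℝ[X]) : ℝ[X] :=
  ∑ i ∈ Finset.range m, C (Q.coeff i / ((i : ℝ) + 1)) * X ^ (i + 1)

theorem s52hc_anti_coeff_succ (m : ℕ) (Q : ℝ[X]) (n : ℕ) :
    (s52hc_anti m Q).coeff (n + 1) = if n < m then Q.coeff n / ((n : ℝ) + 1) else 0 := by
  unfold s52hc_anti
  rw [finsetSum_coeff]
  simp only [coeff_C_mul, coeff_X_pow, Nat.add_right_cancel_iff]
  split_ifs with h
  · rw [Finset.sum_eq_single n]
    · simp
    · intro b _ hb
      rw [if_neg (Ne.symm hb), mul_zero]
    · intro hn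
      exact absurd (Finset.mem_range.2 h) hn
  · refine Finset.sum_eq_zero fun b hb => ?_
    rw [if_neg, mul_zero]
    rintro rfl
    exact h (Finset.mem_range.1 hb)

theorem s52hc_anti_derivative (m : ℕ) (Q : ℝ[X]) (hQ : Q.degree < m) :
    derivative (s52hc_anti m Q) = Q := by
  ext n
  rw [coeff_derivative, s52hc_anti_coeff_succ]
  split_ifs with h
  · have : ((n : ℝ) + 1) ≠ 0 := by positivity
    field_simp
  · rw [zero_mul]
    exact (coeff_eq_zero_of_degree_lt (lt_of_lt_of_le hQ (by exact_mod_cast not_lt.1 h))).symm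

theorem s52hc_anti_degree (m : ℕ) (Q : ℝ[X]) : (s52hc_anti m Q).degree < (m + 1 : ℕ) := by
  rw [degree_lt_iff_coeff_zero]
  intro k hk
  obtain ⟨n, rfl⟩ : ∃ n, k = n + 1 := ⟨k - 1, by omega⟩
  rw [s52hc_anti_coeff_succ, if_neg (by omega)]

/-- **(C1).** -/
theorem s52hc_main : s52h_PolyOfDeriv_stmt := by
  intro m
  induction m with
  | zero =>
    intro f R _ h0
    refine ⟨0, ?_, fun t ht => ?_⟩
    · rw [degree_zero]
      exact WithBot.bot_lt_coe _
    · rw [h0 t ht, eval_zero]
  | succ m ih =>
    intro f R hd h0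
    obtain ⟨Q, hQ, hQe⟩ := ih (fun k => f (k + 1)) R
      (fun k hk t ht => hd (k + 1) (by omega) t ht) h0
    -- `f 0 - eval (anti Q)` has derivative zero on `(R, ∞)`
    set A := s52hc_anti m Q with hA
    have hder : ∀ t : ℝ, R < t → HasDerivAt (fun t => f 0 t - A.eval t) 0 t := by
      intro t ht
      have h1 := hd 0 (Nat.succ_pos m) t ht
      have h2 := A.hasDerivAt t
      have h3 := h1.sub h2
      rw [s52hc_anti_derivative m Q hQ] at h3
      have h4 : f (0 + 1) t - eval t Q = 0 := by
        have := hQe t ht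
        simp only [zero_add] at this ⊢
        rw [this, sub_self]
      rw [h4] at h3
      exact h3
    obtain ⟨c, hc⟩ := (isOpen_Ioi (a := R)).exists_is_const_of_deriv_eq_zero
      (convex_Ioi R).isPreconnected
      (fun t ht => (hder t ht).differentiableAt.differentiableWithinAt)
      (fun t ht => (hder t ht).deriv)
    refine ⟨A + C c, ?_, fun t ht => ?_⟩
    · refine lt_of_le_of_lt (degree_add_le _ _) (max_lt (s52hc_anti_degree m Q) ?_)
      refine lt_of_le_of_lt degree_C_le ?_
      exact_mod_cast Nat.succ_pos m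
    · have := hc t ht
      rw [eval_add, eval_C, ← this]
      ring

/-- **(C2).** -/
theorem s52hc_rat : s52h_RatPoly_stmt := by
  intro P S hdeg hval
  classical
  choose! v hv using hval
  set Q : ℚ[X] := Lagrange.interpolate S id v with hQ
  have hinj : Set.InjOn (id : ℚ → ℚ) (S : Set ℚ) := Function.injective_id.injOn
  refine ⟨Q, ?_⟩
  have hcard : (S.image (fun x : ℚ => (x : ℝ))).card = S.card :=
    Finset.card_image_of_injective _ Rat.cast_injective
  refine Polynomial.eq_of_degrees_lt_of_eval_finset_eq (S.image (fun x : ℚ => (x : ℝ))) ?_ ?_ ?_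
  · rw [hcard]
    exact lt_of_le_of_lt degree_map_le (Lagrange.degree_interpolate_lt v hinj)
  · rw [hcard]
    exact hdeg
  · intro y hy
    obtain ⟨x, hx, rfl⟩ := Finset.mem_image.1 hy
    have h1 : (Q.map (algebraMap ℚ ℝ)).eval (x : ℝ) = ((Q.eval x : ℚ) : ℝ) := by
      have := Polynomial.eval_map_algebraMap Q (x : ℝ)
      rw [this]
      exact (Polynomial.aeval_algebraMap_apply_eq_algebraMap_eval (A := ℝ) x Q)
    rw [h1, hv x hx]
    congr 1
    exact Lagrange.eval_interpolate_at_node (s := S) (v := id) v hinj hx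

end Fermat.Agent.S52
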