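/-
S52, node [HIT], cell [HIT-F] (helper27).  Prefix `s52hf_`.
ALGEBRAIC REDUCTION: `s52hf_main : s52h_Red_stmt`.

For `g ∈ ℚ[X][Y]`, `g ≠ 0`, over `K = ℚ(X)`: `h := radical g` is squarefree, hence separable
(`u h + v h' = 1`), `h ∣ g ∣ h ^ k`.  Clearing denominators (`IsLocalization.integerNormalization`)
gives `G, U, V, d` with `U G + V G' = d` and `c₄ G ^ k = g Q`.  Integrality: `D g ∈ ℤ[X][Y]`, so for
`t ∈ ℤ` a rational root `y` of `g(t, ·)` has `D lc(g)(t) y` integral over `ℤ`.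
-/
import Mathlib
import Fermat.Agent.S52.HIT.Seams

set_option autoImplicit false

open Polynomial UniqueFactorizationMonoid
open scoped Polynomial.Bivariate

namespace Fermat.Agent.S52

/-- clearing the denominators of a polynomial over `ℚ(X)`. -/
theorem s52hf_clear (p : (RatFunc ℚ)[X]) : ∃ (P : ℚ[X][Y]) (c : ℚ[X]), c ≠ 0 ∧
    P.map (algebraMap ℚ[X] (RatFunc ℚ)) = C (algebraMap ℚ[X] (RatFunc ℚ) c) * p := by
  obtain ⟨b, hb, h⟩ := IsLocalization.integerNormalization_spec (nonZeroDivisors ℚ[X]) p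
  refine ⟨IsLocalization.integerNormalization (nonZeroDivisors ℚ[X]) p, b,
    nonZeroDivisors.ne_zero hb, ?_⟩
  rw [h]
  show b • p = _
  rw [← Polynomial.smul_eq_C_mul, algebraMap_smul]

/-- clearing the integer denominators of a polynomial over `ℚ`. -/
theorem s52hf_clearZ (c : ℚ[X]) : ∃ (D : ℤ) (cZ : ℤ[X]), D ≠ 0 ∧
    cZ.map (Int.castRingHom ℚ) = C (D : ℚ) * c := by
  obtain ⟨b, hb, h⟩ := IsLocalization.integerNormalization_spec (nonZeroDivisors ℤ) c
  refine ⟨b, IsLocalization.integerNormalization (nonZeroDivisors ℤ) c,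
    nonZeroDivisors.ne_zero hb, ?_⟩
  rw [← algebraMap_int_eq, h]
  show b • c = _
  rw [← Polynomial.smul_eq_C_mul, zsmul_eq_mul, Polynomial.smul_eq_C_mul, map_intCast]

/-- clearing the integer denominators of a bivariate polynomial over `ℚ`. -/
theorem s52hf_clearZ2 (g : ℚ[X][Y]) : ∃ (D : ℤ) (gZ : ℤ[X][Y]), D ≠ 0 ∧
    gZ.map (mapRingHom (Int.castRingHom ℚ)) = C (C (D : ℚ)) * g := by
  induction g using Polynomial.induction_on' with
  | add p q hp hq =>
    obtain ⟨D₁, P, hD₁, hP⟩ := hp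
    obtain ⟨D₂, Q, hD₂, hQ⟩ := hq
    refine ⟨D₁ * D₂, C (C D₂) * P + C (C D₁) * Q, mul_ne_zero hD₁ hD₂, ?_⟩
    have e : ∀ z : ℤ, (C (C z) : ℤ[X][Y]).map (mapRingHom (Int.castRingHom ℚ)) = C (C (z : ℚ)) := by
      intro z
      rw [Polynomial.map_C, coe_mapRingHom, Polynomial.map_C, eq_intCast]
    rw [Polynomial.map_add, Polynomial.map_mul, Polynomial.map_mul, e, e, hP, hQ, Int.cast_mul,
      map_mul, map_mul]
    ring
  | monomial n c =>
    obtain ⟨D, cZ, hD, hcZ⟩ := s52hf_clearZ c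
    refine ⟨D, monomial n cZ, hD, ?_⟩
    rw [Polynomial.map_monomial, coe_mapRingHom, hcZ, C_mul_monomial]

/-- **[HIT-F]** -/
theorem s52hf_main : s52h_Red_stmt := by
  intro g hg
  classical
  set φ : ℚ[X] →+* RatFunc ℚ := algebraMap ℚ[X] (RatFunc ℚ) with hφ
  have hφinj : Function.Injective φ := IsFractionRing.injective ℚ[X] (RatFunc ℚ)
  have hmapinj : Function.Injective (Polynomial.map φ) := Polynomial.map_injective φ hφinj
  set gK : (RatFunc ℚ)[X] := g.map φ with hgK
  have hgK0 : gK ≠ 0 := (Polynomial.map_ne_zero_iff hφinj).mpr hg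
  set h : (RatFunc ℚ)[X] := radical gK with hh
  have hsq : Squarefree h := squarefree_radical
  have hsep : h.Separable := PerfectField.separable_iff_squarefree.mpr hsq
  obtain ⟨u, v, huv⟩ := hsep
  obtain ⟨k, q, hq⟩ := exists_dvd_radical_self_pow hgK0
  obtain ⟨q₁, hq₁⟩ := radical_dvd_self (a := gK)
  obtain ⟨G, c₁, hc₁, hG⟩ := s52hf_clear h
  obtain ⟨U₀, c₂, hc₂, hU₀⟩ := s52hf_clear u
  obtain ⟨V₀, c₃, hc₃, hV₀⟩ := s52hf_clear v
  obtain ⟨Q, c₄, hc₄, hQ⟩ := s52hf_clear (C (φ c₁) ^ k * q)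
  obtain ⟨D, gZ, hD, hgZ⟩ := s52hf_clearZ2 g
  have hlc : g.leadingCoeff ≠ 0 := leadingCoeff_ne_zero.mpr hg
  have hDq : (C (D : ℚ) : ℚ[X]) ≠ 0 := C_ne_zero.mpr (Int.cast_ne_zero.mpr hD)
  refine ⟨G, C c₃ * U₀, C c₂ * V₀, c₁ * c₂ * c₃, c₄ * (C (D : ℚ) * g.leadingCoeff),
    C (D : ℚ) * g.leadingCoeff, mul_ne_zero (mul_ne_zero hc₁ hc₂) hc₃,
    mul_ne_zero hc₄ (mul_ne_zero hDq hlc), mul_ne_zero hDq hlc, ?_, ?_, ?_⟩
  · -- Bezout
    apply hmapinj
    rw [Polynomial.map_add, Polynomial.map_mul, Polynomial.map_mul, Polynomial.map_mul,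
      Polynomial.map_mul, ← derivative_map, Polynomial.map_C, Polynomial.map_C, Polynomial.map_C,
      hG, hU₀, hV₀, derivative_C_mul, map_mul, map_mul, map_mul, map_mul]
    linear_combination (C (φ c₁) * C (φ c₂) * C (φ c₃)) * huv
  · -- roots of `G` are roots of `g`
    intro r hr
    rw [hG, eval_mul, eval_C] at hr
    have h1 : eval r h = 0 := by
      rcases mul_eq_zero.mp hr with h0 | h0
      · exact absurd h0 ((map_ne_zero_iff φ hφinj).mpr hc₁)
      · exact h0
    show eval r gK = 0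
    rw [hq₁, eval_mul, h1, zero_mul]
  · -- specialisation
    intro t y het hgty
    rw [eval_mul] at het
    have hc₄t : c₄.eval (t : ℚ) ≠ 0 := left_ne_zero_of_mul het
    have hat : (C (D : ℚ) * g.leadingCoeff).eval (t : ℚ) ≠ 0 := right_ne_zero_of_mul het
    refine ⟨?_, ?_⟩
    · -- `c₄ G ^ k = g Q`
      have hrel : C c₄ * G ^ k = g * Q := by
        apply hmapinj
        rw [Polynomial.map_mul, Polynomial.map_pow, Polynomial.map_C, Polynomial.map_mul, hG, hQ,
          mul_pow, hq]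
        ring
      have h1 := congrArg (evalEval (t : ℚ) y) hrel
      rw [evalEval_mul, evalEval_mul, evalEval_C, evalEval_pow, hgty, zero_mul] at h1
      rcases mul_eq_zero.mp h1 with h0 | h0
      · exact absurd h0 hc₄t
      · exact pow_eq_zero_iff'.mp h0 |>.1
    · -- integrality
      set P : ℤ[X] := gZ.map (evalRingHom t) with hP
      have hhom : (Int.castRingHom ℚ).comp (evalRingHom t) =
          (evalRingHom (t : ℚ)).comp (mapRingHom (Int.castRingHom ℚ)) := by
        refine RingHom.ext fun c => ?_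
        show ((c.eval t : ℤ) : ℚ) = (c.map (Int.castRingHom ℚ)).eval (t : ℚ)
        rw [eval_intCast_map, eq_intCast, Int.cast_id]
      have hPmap : P.map (Int.castRingHom ℚ) = C (D : ℚ) * g.map (evalRingHom (t : ℚ)) := by
        rw [hP, Polynomial.map_map, hhom, ← Polynomial.map_map, hgZ, Polynomial.map_mul,
          Polynomial.map_C, coe_evalRingHom, eval_C]
      have hroot : aeval y P = 0 := by
        rw [aeval_def, eval₂_eq_eval_map, algebraMap_int_eq, hPmap, eval_mul, eval_C,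
          map_evalRingHom_eval, hgty, mul_zero]
      have hlc' : (evalRingHom (t : ℚ)) g.leadingCoeff ≠ 0 := by
        rw [eval_mul, eval_C] at hat
        exact right_ne_zero_of_mul hat
      have hPlc : ((P.leadingCoeff : ℤ) : ℚ) = (C (D : ℚ) * g.leadingCoeff).eval (t : ℚ) := by
        have h1 : (P.map (Int.castRingHom ℚ)).leadingCoeff = ((P.leadingCoeff : ℤ) : ℚ) := by
          rw [leadingCoeff_map_of_injective (RingHom.injective_int (Int.castRingHom ℚ)),
            eq_intCast]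
        rw [← h1, hPmap, leadingCoeff_mul, leadingCoeff_C,
          leadingCoeff_map_of_leadingCoeff_ne_zero _ hlc', eval_mul, eval_C, coe_evalRingHom]
      have hint : IsIntegral ℤ (P.leadingCoeff • y) := isIntegral_leadingCoeff_smul P y hroot
      obtain ⟨z, hz⟩ := IsIntegrallyClosed.isIntegral_iff.mp hint
      refine ⟨z, ?_⟩
      rw [← hPlc, ← zsmul_eq_mul, ← hz, algebraMap_int_eq, eq_intCast]

end Fermat.Agent.S52
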