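import Fermat.Agent.S52.HIT.Final
import Fermat.Agent.S52.HIT.Decay
import Fermat.Agent.S52.HIT.DivDiff
import Fermat.Agent.S52.HIT.PolyOfDeriv
import Fermat.Agent.S52.HIT.Branch
import Fermat.Agent.S52.HIT.Dich
import Fermat.Agent.S52.HIT.Growth
import Fermat.Agent.S52.HIT.Red

/-!
# S52 [HIT]: weak Hilbert irreducibility over `ℤ` — CLOSED

`g ∈ ℚ[X][Y]` (inner variable `X = t`, outer variable `Y`) without root in `ℚ(X)` ⟹ for every `N`
there is an integer `t ≥ N` such that `g(t, Y)` has no rational root.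
-/

open Polynomial
open scoped Polynomial.Bivariate

namespace Fermat.Agent.S52

/-- **Weak Hilbert irreducibility over `ℤ`.** -/
theorem s52h_hit (g : ℚ[X][Y])
    (hg : ∀ r : RatFunc ℚ, eval r (g.map (algebraMap ℚ[X] (RatFunc ℚ))) ≠ 0) (N : ℤ) :
    ∃ t : ℤ, N ≤ t ∧ ∀ y : ℚ, evalEval (t : ℚ) y g ≠ 0 :=
  s52h_hit_of_seams s52ha_main s52hb_main s52hc_main s52hc_rat s52hd_main s52he_main s52hg_main
    s52hf_main g hg N

/-- Variant: infinitely many such integers, avoiding any finite set. -/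
theorem s52h_hit_avoid (g : ℚ[X][Y])
    (hg : ∀ r : RatFunc ℚ, eval r (g.map (algebraMap ℚ[X] (RatFunc ℚ))) ≠ 0) (S : Finset ℤ) :
    ∃ t : ℤ, t ∉ S ∧ ∀ y : ℚ, evalEval (t : ℚ) y g ≠ 0 := by
  obtain ⟨t, ht, h⟩ := s52h_hit g hg (∑ s ∈ S, |s| + 1)
  refine ⟨t, fun hmem => ?_, h⟩
  have h1 : |t| ≤ ∑ s ∈ S, |s| :=
    Finset.single_le_sum (f := fun s : ℤ => |s|) (fun s _ => abs_nonneg s) hmem
  have h2 : t ≤ |t| := le_abs_self t
  omega

end Fermat.Agent.S52
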