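import Fermat.Agent.S52.HIT.Main
import Fermat.Agent.S52.Seams
import Fermat.Agent.S52.HITUse

/-!
# S52 [HIT]: the seam `s52_HIT_stmt` of `S52/Seams.lean` from `s52h_hit_avoid`
-/

open Polynomial
open scoped Polynomial.Bivariate

namespace Fermat.Agent.S52

/-- `p(t) ↦ p(s / M)`, from `ℚ[t]` to `ℂ[s]`. -/
noncomputable def s52h_psi (M : ℤ) : ℚ[X] →+* ℂ[X] :=
  (compRingHom (C ((M : ℂ)⁻¹) * X)).comp (mapRingHom (algebraMap ℚ ℂ))

theorem s52h_psi_apply (M : ℤ) (p : ℚ[X]) :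
    s52h_psi M p = (p.map (algebraMap ℚ ℂ)).comp (C ((M : ℂ)⁻¹) * X) := rfl

theorem s52h_psi_injective (M : ℤ) (hM : M ≠ 0) : Function.Injective (s52h_psi M) := by
  rw [injective_iff_map_eq_zero]
  intro p hp
  rw [s52h_psi_apply, comp_eq_zero_iff] at hp
  rcases hp with hp | ⟨-, hp⟩
  · exact (Polynomial.map_eq_zero_iff (algebraMap ℚ ℂ).injective).1 hp
  · exfalso
    have h1 := congrArg (fun q : ℂ[X] => q.coeff 1) hp
    simp only [coeff_C_mul, coeff_X_one, mul_one, coeff_C_succ] at h1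
    exact inv_ne_zero (Int.cast_ne_zero.2 hM) h1

theorem s52h_psi_comp (M : ℤ) (hM : M ≠ 0) :
    (s52h_psi M).comp (compRingHom (C (M : ℚ) * X)) = mapRingHom (algebraMap ℚ ℂ) := by
  have hMc : (M : ℂ) ≠ 0 := Int.cast_ne_zero.2 hM
  refine Polynomial.ringHom_ext (fun a => ?_) ?_
  · simp [s52h_psi_apply]
  · simp only [RingHom.comp_apply, coe_compRingHom_apply, X_comp, s52h_psi_apply,
      Polynomial.map_mul, map_C, map_X, mul_comp, C_comp, coe_mapRingHom]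
    rw [← mul_assoc, ← C_mul]
    simp [hMc]

/-- `r(t) ↦ r(s / M)`, from `ℚ(t)` to `ℂ(s)`. -/
noncomputable def s52h_theta (M : ℤ) (hM : M ≠ 0) : RatFunc ℚ →+* RatFunc ℂ :=
  RatFunc.liftRingHom ((algebraMap ℂ[X] (RatFunc ℂ)).comp (s52h_psi M)) (by
    intro p hp
    rw [Submonoid.mem_comap, mem_nonZeroDivisors_iff_ne_zero] at *
    intro h0
    apply hp
    have h1 : algebraMap ℂ[X] (RatFunc ℂ) (s52h_psi M p) = 0 := h0
    rw [map_eq_zero_iff _ (IsFractionRing.injective ℂ[X] (RatFunc ℂ))] at h1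
    exact (injective_iff_map_eq_zero _).1 (s52h_psi_injective M hM) p h1)

theorem s52h_theta_comp (M : ℤ) (hM : M ≠ 0) :
    (s52h_theta M hM).comp (algebraMap ℚ[X] (RatFunc ℚ)) =
      (algebraMap ℂ[X] (RatFunc ℂ)).comp (s52h_psi M) :=
  RatFunc.liftRingHom_comp_algebraMap _ _

/-- The seam `[HIT]` of `S52/Seams.lean` (v2: rootless over `RatFunc ℚ`); closed by helper25's
`s52u_HIT` (`S52/HITUse.lean`) from `s52h_hit_avoid`. -/
theorem s52h_HIT : s52_HIT_stmt := s52u_HIT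

end Fermat.Agent.S52
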