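import Fermat.Agent.S52.HIT.DiffRing

/-!
# S52 [HIT-G]: assembly of weak Hilbert irreducibility from the seams
-/

open Polynomial Filter
open scoped Polynomial.Bivariate

namespace Fermat.Agent.S52

/-- The pairs `(N_k, e_k)` representing the `k`-th derivative of `a(t) * φ t`. -/
noncomputable def s52h_seq (G V : ℝ[X][Y]) (d a : ℝ[X]) (k : ℕ) : ℝ[X][Y] × ℕ :=
  (s52h_step G V d)^[k] (C a * Y, 0)

theorem s52h_seq_succ (G V : ℝ[X][Y]) (d a : ℝ[X]) (k : ℕ) :
    s52h_seq G V d a (k + 1) = s52h_step G V d (s52h_seq G V d a k) := by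
  rw [s52h_seq, Function.iterate_succ_apply']; rfl

theorem s52h_val_seq_zero (G V : ℝ[X][Y]) (d a : ℝ[X]) (φ : ℝ → ℝ) (t : ℝ) :
    s52h_val φ d (s52h_seq G V d a 0) t = a.eval t * φ t := by
  simp [s52h_val, s52h_seq, evalEval_C]

theorem s52h_exists_gt_roots (p : ℝ[X]) (hp : p ≠ 0) : ∃ R : ℝ, ∀ t : ℝ, R < t → p.eval t ≠ 0 := by
  obtain ⟨R, hR⟩ := Filter.eventually_atTop.1 (Polynomial.eventually_atTop_not_isRoot p hp)
  exact ⟨R, fun t ht => hR t ht.le⟩

/-- Branch analysis: decay and dichotomy for the high derivatives of `a(t) * φ t`. -/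
theorem s52h_branch_analysis (hA : s52h_Decay_stmt) (hE2 : s52h_Dich_stmt)
    (hE3 : s52h_Growth_stmt) (G V : ℝ[X][Y]) (d a : ℝ[X]) (φ : ℝ → ℝ) (R : ℝ)
    (hlc : G.leadingCoeff ≠ 0)
    (hG : ∀ t : ℝ, R < t → evalEval t (φ t) G = 0)
    (hV : ∀ t : ℝ, R < t → evalEval t (φ t) V * evalEval t (φ t) (derivative G) = d.eval t)
    (hd : ∀ t : ℝ, R < t → 0 < d.eval t)
    (hφ : ∀ t : ℝ, R < t → DifferentiableAt ℝ φ t) :
    (∀ k : ℕ, ∀ t : ℝ, R < t → HasDerivAt (s52h_val φ d (s52h_seq G V d a k))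
        (s52h_val φ d (s52h_seq G V d a (k + 1)) t) t) ∧
    ∃ D : ℕ, ∀ m : ℕ, D < m → ∀ ε : ℝ, 0 < ε →
      (∃ R' : ℝ, ∀ t : ℝ, R' < t → s52h_val φ d (s52h_seq G V d a m) t = 0) ∨
      (∃ R' : ℝ, ∀ t : ℝ, R' < t → s52h_val φ d (s52h_seq G V d a m) t ≠ 0 ∧
        |s52h_val φ d (s52h_seq G V d a m) t| < ε) := by
  have hG0 : G ≠ 0 := fun h => hlc (by rw [h, leadingCoeff_zero])
  have hder : ∀ k : ℕ, ∀ t : ℝ, R < t → HasDerivAt (s52h_val φ d (s52h_seq G V d a k))
      (s52h_val φ d (s52h_seq G V d a (k + 1)) t) t := by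
    intro k t ht
    rw [s52h_seq_succ]
    exact s52h_hasDerivAt_val G V d φ R hG hV (fun t ht => (hd t ht).ne') hφ _ t ht
  refine ⟨hder, ?_⟩
  have hcont : ContinuousOn φ (Set.Ioi R) := fun t ht =>
    (hφ t ht).continuousAt.continuousWithinAt
  -- trichotomy for every member
  have htri : ∀ k : ℕ, (∀ᶠ t in atTop, s52h_val φ d (s52h_seq G V d a k) t = 0) ∨
      (∀ᶠ t in atTop, 0 < s52h_val φ d (s52h_seq G V d a k) t) ∨
      (∀ᶠ t in atTop, s52h_val φ d (s52h_seq G V d a k) t < 0) := by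
    intro k
    have hR : ∀ᶠ t : ℝ in atTop, R < t := eventually_gt_atTop R
    rcases hE2 G (s52h_seq G V d a k).1 R φ hG0 hcont hG with h | h | h
    · left
      filter_upwards [h] with t ht
      rw [s52h_val, ht, zero_div]
    · right; left
      filter_upwards [h, hR] with t ht htR
      exact div_pos ht (pow_pos (hd t htR) _)
    · right; right
      filter_upwards [h, hR] with t ht htR
      exact div_neg_of_neg_of_pos ht (pow_pos (hd t htR) _)
  have hsign : ∀ k : ℕ, (∀ᶠ t in atTop, 0 ≤ s52h_val φ d (s52h_seq G V d a k) t) ∨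
      (∀ᶠ t in atTop, s52h_val φ d (s52h_seq G V d a k) t ≤ 0) := by
    intro k
    rcases htri k with h | h | h
    · left; filter_upwards [h] with t ht using ht.ge
    · left; filter_upwards [h] with t ht using ht.le
    · right; filter_upwards [h] with t ht using ht.le
  obtain ⟨C, D, hCD⟩ := hE3 G (C a * Y) R φ hlc hG
  have hgrow : ∀ᶠ t in atTop, |s52h_val φ d (s52h_seq G V d a 0) t| ≤ C * t ^ D := by
    filter_upwards [hCD] with t ht
    rw [s52h_val_seq_zero]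
    simpa [evalEval_C] using ht
  have hdecay := hA (fun k => s52h_val φ d (s52h_seq G V d a k)) R hder hsign C D hgrow
  refine ⟨D, fun m hm ε hε => ?_⟩
  obtain ⟨C', hC'⟩ := hdecay m
  -- smallness
  have hsmall : ∀ᶠ t in atTop, |s52h_val φ d (s52h_seq G V d a m) t| < ε := by
    filter_upwards [hC', eventually_gt_atTop (1 : ℝ), eventually_gt_atTop (C' / ε)]
      with t ht ht1 ht2
    have ht0 : (0 : ℝ) < t := lt_trans one_pos ht1
    set w := |s52h_val φ d (s52h_seq G V d a m) t|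
    have hw0 : 0 ≤ w := abs_nonneg _
    -- w * t ^ m ≤ C' * t ^ D ≤ C' * t ^ (m - 1) (if C' ≥ 0)
    have hC'0 : 0 ≤ C' := by
      by_contra hneg
      push Not at hneg
      have : w * t ^ m < 0 := lt_of_le_of_lt ht (mul_neg_of_neg_of_pos hneg (pow_pos ht0 D))
      exact absurd (mul_nonneg hw0 (pow_pos ht0 m).le) (not_le.2 this)
    have hpow : t ^ D ≤ t ^ (m - 1) := pow_le_pow_right₀ ht1.le (by omega)
    have hm1 : t ^ m = t ^ (m - 1) * t := by
      rw [← pow_succ]; congr 1; omega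
    have h1 : w * t * t ^ (m - 1) ≤ C' * t ^ (m - 1) := by
      calc w * t * t ^ (m - 1) = w * t ^ m := by rw [hm1]; ring
        _ ≤ C' * t ^ D := ht
        _ ≤ C' * t ^ (m - 1) := mul_le_mul_of_nonneg_left hpow hC'0
    have h2 : w * t ≤ C' := le_of_mul_le_mul_right h1 (pow_pos ht0 _)
    have h3 : C' < ε * t := by rwa [div_lt_iff₀ hε, mul_comm] at ht2 
    have h4 : w * t < ε * t := lt_of_le_of_lt h2 h3
    exact lt_of_mul_lt_mul_right h4 ht0.le
  rcases htri m with h | h | h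
  · left
    obtain ⟨R', hR'⟩ := Filter.eventually_atTop.1 h
    exact ⟨R', fun t ht => hR' t ht.le⟩
  · right
    obtain ⟨R', hR'⟩ := Filter.eventually_atTop.1 (h.and hsmall)
    exact ⟨R', fun t ht => ⟨(hR' t ht.le).1.ne', (hR' t ht.le).2⟩⟩
  · right
    obtain ⟨R', hR'⟩ := Filter.eventually_atTop.1 (h.and hsmall)
    exact ⟨R', fun t ht => ⟨(hR' t ht.le).1.ne, (hR' t ht.le).2⟩⟩

/-- The core: if every integer `t ≥ T₀` has a real root `y` of `G(t, ·)` with `a(t) * y ∈ ℤ`, then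
some branch is a polynomial over `a`, with integer values at more than `deg` integers. -/
theorem s52h_core (hA : s52h_Decay_stmt) (hB : s52h_DivDiff_stmt) (hC1 : s52h_PolyOfDeriv_stmt)
    (hD : s52h_Branch_stmt) (hE2 : s52h_Dich_stmt) (hE3 : s52h_Growth_stmt)
    (G U V : ℝ[X][Y]) (d a : ℝ[X]) (hd : d ≠ 0) (ha : a ≠ 0)
    (hbez : U * G + V * derivative G = C d) (T₀ : ℤ)
    (hbad : ∀ t : ℤ, T₀ ≤ t →
      ∃ y : ℝ, evalEval (t : ℝ) y G = 0 ∧ ∃ z : ℤ, a.eval (t : ℝ) * y = z) :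
    ∃ (P : ℝ[X]) (S : Finset ℤ), P.degree < S.card ∧ (∀ t ∈ S, ∃ z : ℤ, P.eval (t : ℝ) = z) ∧
      ∀ᶠ t : ℝ in atTop, evalEval t (P.eval t / a.eval t) G = 0 := by
  have hG0 : G ≠ 0 := by
    rintro rfl
    simp only [mul_zero, derivative_zero, add_zero] at hbez
    exact hd (C_eq_zero.1 hbez.symm)
  have hlc : G.leadingCoeff ≠ 0 := leadingCoeff_ne_zero.2 hG0
  obtain ⟨R1, hR1⟩ := s52h_exists_gt_roots d hd
  obtain ⟨R2, hR2⟩ := s52h_exists_gt_roots _ hlc
  obtain ⟨R3, hR3⟩ := s52h_exists_gt_roots a ha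
  set R₀ := max R1 (max R2 R3) with hR₀
  have hR₀1 : R1 ≤ R₀ := le_max_left _ _
  have hR₀2 : R2 ≤ R₀ := le_trans (le_max_left _ _) (le_max_right _ _)
  have hR₀3 : R3 ≤ R₀ := le_trans (le_max_right _ _) (le_max_right _ _)
  have hbezev : ∀ t y : ℝ, evalEval t y G = 0 →
      evalEval t y V * evalEval t y (derivative G) = d.eval t := by
    intro t y h
    have h1 := congrArg (evalEval t y) hbez
    simp only [evalEval_add, evalEval_mul, evalEval_C, h, mul_zero, zero_add] at h1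
    exact h1
  have hsimple : ∀ t : ℝ, R₀ < t → ∀ y : ℝ, evalEval t y G = 0 →
      evalEval t y (derivative G) ≠ 0 := by
    intro t ht y h h0
    have h1 := hbezev t y h
    rw [h0, mul_zero] at h1
    exact hR1 t (lt_of_le_of_lt hR₀1 ht) h1.symm
  obtain ⟨r, φ, hφdiff, hφroots⟩ :=
    hD G R₀ (fun t ht => hR2 t (lt_of_le_of_lt hR₀2 ht)) hsimple
  have hGφ : ∀ (i : Fin r) (t : ℝ), R₀ < t → evalEval t (φ i t) G = 0 :=
    fun i t ht => (hφroots t ht _).2 ⟨i, rfl⟩
  have hV2 : ∀ (i : Fin r) (t : ℝ), R₀ < t →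
      evalEval t (φ i t) (C d * V) * evalEval t (φ i t) (derivative G) = (d * d).eval t := by
    intro i t ht
    rw [evalEval_mul, evalEval_C, mul_assoc, hbezev t _ (hGφ i t ht), eval_mul]
  have hd2 : ∀ t : ℝ, R₀ < t → 0 < (d * d).eval t := by
    intro t ht
    rw [eval_mul]
    exact mul_self_pos.2 (hR1 t (lt_of_le_of_lt hR₀1 ht))
  have hBA := fun i : Fin r => s52h_branch_analysis hA hE2 hE3 G (C d * V) (d * d) a (φ i) R₀ hlc
    (hGφ i) (hV2 i) hd2 (hφdiff i)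
  choose hder Dfun hDfun using hBA
  set f : Fin r → ℕ → ℝ → ℝ := fun i k => s52h_val (φ i) (d * d) (s52h_seq G (C d * V) (d * d) a k)
    with hf
  have hf0 : ∀ (i : Fin r) (t : ℝ), f i 0 t = a.eval t * φ i t := fun i t =>
    s52h_val_seq_zero _ _ _ _ _ _
  set m := (Finset.univ.sup Dfun) + 1 with hm_def
  have hm : ∀ i, Dfun i < m := fun i => Nat.lt_succ_of_le (Finset.le_sup (Finset.mem_univ i))
  set Lb : ℝ := ((r * m : ℕ) : ℝ) ^ ((m + 1) * m) with hLb
  have hLb0 : 0 ≤ Lb := by positivity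
  set ε : ℝ := 1 / (Lb + 1) with hε_def
  have hε : 0 < ε := by positivity
  have hthr : ∀ i : Fin r, ∃ R' : ℝ, (∀ t : ℝ, R' < t → f i m t = 0) ∨
      (∀ t : ℝ, R' < t → f i m t ≠ 0 ∧ |f i m t| < ε) := by
    intro i
    rcases hDfun i m (hm i) ε hε with ⟨R', h⟩ | ⟨R', h⟩
    · exact ⟨R', Or.inl h⟩
    · exact ⟨R', Or.inr h⟩
  choose Rfun hRfun using hthr
  set R₁ : ℝ := max (max R₀ (T₀ : ℝ)) (∑ i, |Rfun i|) with hR₁
  have hR₁0 : R₀ ≤ R₁ := le_trans (le_max_left _ _) (le_max_left _ _)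
  have hR₁T : (T₀ : ℝ) ≤ R₁ := le_trans (le_max_right _ _) (le_max_left _ _)
  have hR₁R : ∀ i, Rfun i ≤ R₁ := by
    intro i
    refine le_trans (le_trans (le_abs_self _) ?_) (le_max_right _ _)
    exact Finset.single_le_sum (f := fun i => |Rfun i|) (fun j _ => abs_nonneg _)
      (Finset.mem_univ i)
  obtain ⟨T, hT⟩ : ∃ T : ℤ, R₁ < T := exists_int_gt R₁
  have hTj : ∀ j : ℕ, R₁ < ((T + (j : ℤ) : ℤ) : ℝ) := by
    intro j
    push_cast
    have : (0 : ℝ) ≤ (j : ℝ) := Nat.cast_nonneg j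
    linarith
  have hbr : ∀ j : ℕ, ∃ i : Fin r, ∃ z : ℤ,
      a.eval ((T + (j : ℤ) : ℤ) : ℝ) * φ i ((T + (j : ℤ) : ℤ) : ℝ) = z := by
    intro j
    have hT0 : T₀ ≤ T + (j : ℤ) := by
      have h1 : (T₀ : ℝ) < ((T + (j : ℤ) : ℤ) : ℝ) := lt_of_le_of_lt hR₁T (hTj j)
      exact_mod_cast h1.le
    obtain ⟨y, hy, z, hz⟩ := hbad (T + (j : ℤ)) hT0
    obtain ⟨i, hi⟩ := (hφroots _ (lt_of_le_of_lt hR₁0 (hTj j)) y).1 hy
    exact ⟨i, z, by rw [hi]; exact hz⟩
  choose b hb using hbr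
  obtain ⟨i, -, hi⟩ := Finset.exists_lt_card_fiber_of_mul_lt_card_of_maps_to
    (s := Finset.range (r * m + 1)) (t := (Finset.univ : Finset (Fin r))) (f := b) (n := m)
    (fun _ _ => Finset.mem_univ _) (by simp)
  obtain ⟨S', hS'sub, hS'card⟩ := Finset.exists_subset_card_eq (Nat.succ_le_of_lt hi)
  set x : Fin (m + 1) → ℤ := fun k => T + ((S'.orderEmbOfFin hS'card k : ℕ) : ℤ) with hx
  have hxmono : StrictMono x := by
    intro k l hkl
    have := (S'.orderEmbOfFin hS'card).strictMono hkl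
    simp only [hx]
    omega
  have hxS : ∀ k, (S'.orderEmbOfFin hS'card k) ∈ S' := fun k => Finset.orderEmbOfFin_mem _ _ _
  have hxj : ∀ k, (S'.orderEmbOfFin hS'card k) < r * m + 1 ∧ b (S'.orderEmbOfFin hS'card k) = i := by
    intro k
    have := hS'sub (hxS k)
    simpa using this
  have hxmem : ∀ k, ((x k : ℤ) : ℝ) ∈ Set.Icc (T : ℝ) ((T : ℝ) + ((r * m : ℕ) : ℝ)) := by
    intro k
    have h1 := (hxj k).1
    simp only [hx, Set.mem_Icc]
    push_cast
    constructor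
    · have : (0 : ℝ) ≤ ((S'.orderEmbOfFin hS'card k : ℕ) : ℝ) := Nat.cast_nonneg _
      linarith
    · have : ((S'.orderEmbOfFin hS'card k : ℕ) : ℝ) ≤ ((r * m : ℕ) : ℝ) := by
        exact_mod_cast Nat.lt_succ_iff.1 h1
      push_cast at this
      linarith
  have hxz : ∀ k, ∃ z : ℤ, f i 0 ((x k : ℤ) : ℝ) = z := by
    intro k
    obtain ⟨z, hz⟩ := hb (S'.orderEmbOfFin hS'card k)
    rw [(hxj k).2] at hz
    exact ⟨z, by rw [hf0]; exact hz⟩
  have hIcc : ∀ t : ℝ, t ∈ Set.Icc (T : ℝ) ((T : ℝ) + ((r * m : ℕ) : ℝ)) → R₁ < t :=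
    fun t ht => lt_of_lt_of_le hT ht.1
  obtain ⟨ξ, hξ, I, hI⟩ := hB m (f i) (T : ℝ) ((T : ℝ) + ((r * m : ℕ) : ℝ))
    (fun k _ t ht => hder i k t (lt_of_le_of_lt hR₁0 (hIcc t ht))) x hxmono hxmem hxz
  rcases hRfun i with hz | hnz
  · -- the branch is a polynomial
    obtain ⟨P, hPdeg, hP⟩ := hC1 m (f i) R₁
      (fun k _ t ht => hder i k t (lt_of_le_of_lt hR₁0 ht))
      (fun t ht => hz t (lt_of_le_of_lt (hR₁R i) ht))
    refine ⟨P, Finset.univ.image x, ?_, ?_, ?_⟩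
    · rw [Finset.card_image_of_injective _ hxmono.injective, Finset.card_univ, Fintype.card_fin]
      refine lt_trans hPdeg ?_
      exact_mod_cast Nat.lt_succ_self m
    · intro t ht
      obtain ⟨k, -, rfl⟩ := Finset.mem_image.1 ht
      obtain ⟨z, hz⟩ := hxz k
      exact ⟨z, by rw [← hP _ (hIcc _ (hxmem k))]; exact hz⟩
    · filter_upwards [eventually_gt_atTop R₁] with t ht
      have hat : a.eval t ≠ 0 := hR3 t (lt_of_le_of_lt hR₀3 (lt_of_le_of_lt hR₁0 ht))
      have h1 : P.eval t / a.eval t = φ i t := by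
        rw [← hP t ht, hf0, mul_div_cancel_left₀ _ hat]
      rw [h1]
      exact hGφ i t (lt_of_le_of_lt hR₁0 ht)
  · -- contradiction
    exfalso
    have hξR : Rfun i < ξ := lt_of_le_of_lt (hR₁R i) (hIcc ξ hξ)
    obtain ⟨hne, hlt⟩ := hnz ξ hξR
    set L : ℝ := ∏ k : Fin (m + 1), ∏ j ∈ Finset.univ.erase k, (((x k : ℤ) : ℝ) - ((x j : ℤ) : ℝ))
      with hL
    have hLne : L ≠ 0 := by
      rw [hL]
      refine Finset.prod_ne_zero_iff.2 fun k _ => Finset.prod_ne_zero_iff.2 fun j hj => ?_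
      have hjk : j ≠ k := (Finset.mem_erase.1 hj).1
      have : x k ≠ x j := fun h => hjk (hxmono.injective h).symm
      exact sub_ne_zero.2 (by exact_mod_cast this)
    have hLle : |L| ≤ Lb := by
      rw [hL, Finset.abs_prod]
      calc ∏ k : Fin (m + 1), |∏ j ∈ Finset.univ.erase k, (((x k : ℤ) : ℝ) - ((x j : ℤ) : ℝ))|
          ≤ ∏ k : Fin (m + 1), ((r * m : ℕ) : ℝ) ^ m := by
            refine Finset.prod_le_prod (fun k _ => abs_nonneg _) fun k _ => ?_
            rw [Finset.abs_prod]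
            calc ∏ j ∈ Finset.univ.erase k, |((x k : ℤ) : ℝ) - ((x j : ℤ) : ℝ)|
                ≤ ∏ j ∈ Finset.univ.erase k, ((r * m : ℕ) : ℝ) := by
                  refine Finset.prod_le_prod (fun j _ => abs_nonneg _) fun j _ => ?_
                  have h1 := hxmem k
                  have h2 := hxmem j
                  rw [abs_le]
                  constructor <;> linarith [h1.1, h1.2, h2.1, h2.2]
              _ = ((r * m : ℕ) : ℝ) ^ m := by
                  rw [Finset.prod_const, Finset.card_erase_of_mem (Finset.mem_univ k),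
                    Finset.card_univ, Fintype.card_fin, Nat.add_sub_cancel]
        _ = Lb := by
            rw [Finset.prod_const, Finset.card_univ, Fintype.card_fin, ← pow_mul, hLb,
              mul_comm m (m + 1)]
    have hfact : (1 : ℝ) ≤ (m.factorial : ℝ) := by exact_mod_cast Nat.one_le_iff_ne_zero.2 (Nat.factorial_ne_zero m)
    have h1 : |(I : ℝ)| * (m.factorial : ℝ) = |L| * |f i m ξ| := by
      have h0 := congrArg (fun u : ℝ => |u|) hI
      simp only [abs_mul] at h0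
      rwa [abs_of_nonneg (le_trans zero_le_one hfact)] at h0
    have h2 : |L| * |f i m ξ| < 1 := by
      calc |L| * |f i m ξ| ≤ Lb * |f i m ξ| := mul_le_mul_of_nonneg_right hLle (abs_nonneg _)
        _ ≤ Lb * ε := mul_le_mul_of_nonneg_left hlt.le hLb0
        _ < 1 := by
            rw [hε_def, mul_one_div, div_lt_one (by positivity)]
            linarith
    have h3 : |(I : ℝ)| < 1 := by
      calc |(I : ℝ)| ≤ |(I : ℝ)| * (m.factorial : ℝ) := le_mul_of_one_le_right (abs_nonneg _) hfact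
        _ < 1 := by rw [h1]; exact h2
    have hI0 : I = 0 := by
      have : |I| < 1 := by exact_mod_cast h3
      exact Int.abs_lt_one_iff.1 this
    rw [hI0, Int.cast_zero, zero_mul] at hI
    rcases mul_eq_zero.1 hI.symm with h | h
    · exact hLne h
    · exact hne h

end Fermat.Agent.S52
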