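import Fermat.Agent.S52.HIT.Seams

/-!
# S52 [HIT-E1]: the differential ring `{N(t, φ t) / d(t) ^ e}` of an algebraic branch `φ`
-/

open Polynomial Filter
open scoped Polynomial.Bivariate

namespace Fermat.Agent.S52

/-- Partial derivative with respect to the inner variable `X`. -/
noncomputable def s52h_dX (N : ℝ[X][Y]) : ℝ[X][Y] :=
  ∑ k ∈ N.support, monomial k (derivative (N.coeff k))

theorem s52h_evalEval_eq_sum (N : ℝ[X][Y]) (t y : ℝ) :
    evalEval t y N = ∑ k ∈ N.support, (N.coeff k).eval t * y ^ k := by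
  rw [← map_evalRingHom_eval, eval_map, eval₂_eq_sum, Polynomial.sum]
  rfl

theorem s52h_evalEval_monomial (k : ℕ) (a : ℝ[X]) (t y : ℝ) :
    evalEval t y (monomial k a) = a.eval t * y ^ k := by
  rw [← map_evalRingHom_eval, map_monomial, eval_monomial]
  rfl

theorem s52h_evalEval_dX (N : ℝ[X][Y]) (t y : ℝ) :
    evalEval t y (s52h_dX N) = ∑ k ∈ N.support, (derivative (N.coeff k)).eval t * y ^ k := by
  rw [s52h_dX, evalEval_finsetSum]
  exact Finset.sum_congr rfl fun k _ => s52h_evalEval_monomial _ _ _ _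

theorem s52h_evalEval_derivative (N : ℝ[X][Y]) (t y : ℝ) :
    evalEval t y (derivative N) =
      ∑ k ∈ N.support, (N.coeff k).eval t * ((k : ℝ) * y ^ (k - 1)) := by
  rw [derivative_apply, Polynomial.sum, evalEval_finsetSum]
  refine Finset.sum_congr rfl fun k _ => ?_
  rw [C_mul_X_pow_eq_monomial, s52h_evalEval_monomial]
  simp [mul_assoc]

/-- Chain rule for `t ↦ N(t, φ t)`. -/
theorem s52h_hasDerivAt_evalEval (N : ℝ[X][Y]) (φ : ℝ → ℝ) (φ' t : ℝ) (h : HasDerivAt φ φ' t) :
    HasDerivAt (fun s => evalEval s (φ s) N)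
      (evalEval t (φ t) (s52h_dX N) + evalEval t (φ t) (derivative N) * φ') t := by
  have h1 : (fun s => evalEval s (φ s) N) =
      fun s => ∑ k ∈ N.support, (N.coeff k).eval s * φ s ^ k := by
    funext s; exact s52h_evalEval_eq_sum N s (φ s)
  rw [h1, s52h_evalEval_dX, s52h_evalEval_derivative, Finset.sum_mul, ← Finset.sum_add_distrib]
  refine HasDerivAt.fun_sum fun k _ => ?_
  have h2 := ((N.coeff k).hasDerivAt t).fun_mul (h.fun_pow k)
  refine h2.congr_deriv ?_
  ring

/-- One step of the derivative operator on pairs `(N, e)` representing `N(t, φ t) / d(t) ^ e`. -/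
noncomputable def s52h_step (G V : ℝ[X][Y]) (d : ℝ[X]) (p : ℝ[X][Y] × ℕ) : ℝ[X][Y] × ℕ :=
  (C d * s52h_dX p.1 - derivative p.1 * V * s52h_dX G - C ((p.2 : ℝ[X]) * derivative d) * p.1,
    p.2 + 1)

/-- The function represented by the pair `(N, e)`. -/
noncomputable def s52h_val (φ : ℝ → ℝ) (d : ℝ[X]) (p : ℝ[X][Y] × ℕ) (t : ℝ) : ℝ :=
  evalEval t (φ t) p.1 / d.eval t ^ p.2

theorem s52h_hasDerivAt_val (G V : ℝ[X][Y]) (d : ℝ[X]) (φ : ℝ → ℝ) (R : ℝ)
    (hG : ∀ t : ℝ, R < t → evalEval t (φ t) G = 0)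
    (hV : ∀ t : ℝ, R < t → evalEval t (φ t) V * evalEval t (φ t) (derivative G) = d.eval t)
    (hd : ∀ t : ℝ, R < t → d.eval t ≠ 0)
    (hφ : ∀ t : ℝ, R < t → DifferentiableAt ℝ φ t)
    (p : ℝ[X][Y] × ℕ) (t : ℝ) (ht : R < t) :
    HasDerivAt (s52h_val φ d p) (s52h_val φ d (s52h_step G V d p) t) t := by
  obtain ⟨N, e⟩ := p
  have hφ' : HasDerivAt φ (deriv φ t) t := (hφ t ht).hasDerivAt
  set φ' := deriv φ t
  have hGd := s52h_hasDerivAt_evalEval G φ φ' t hφ'
  have hG0 : HasDerivAt (fun s => evalEval s (φ s) G) 0 t := by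
    refine (hasDerivAt_const t (0 : ℝ)).congr_of_eventuallyEq ?_
    filter_upwards [Ioi_mem_nhds ht] with s hs using hG s hs
  have hrel0 := hGd.unique hG0
  have hdt := hd t ht
  have hVt := hV t ht
  have hrel : d.eval t * φ' = -(evalEval t (φ t) V * evalEval t (φ t) (s52h_dX G)) := by
    rw [← hVt]
    linear_combination (evalEval t (φ t) V) * hrel0
  have hNd := s52h_hasDerivAt_evalEval N φ φ' t hφ'
  have hq := hNd.div ((d.hasDerivAt t).fun_pow e) (pow_ne_zero e hdt)
  refine hq.congr_deriv ?_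
  simp only [s52h_val, s52h_step, evalEval_sub, evalEval_mul, evalEval_C, eval_mul, eval_natCast]
  have hφv : φ' = -(evalEval t (φ t) V * evalEval t (φ t) (s52h_dX G)) / d.eval t := by
    rw [eq_div_iff hdt]; linear_combination hrel
  rw [hφv]
  rcases e with _ | e
  · simp only [pow_zero, Nat.cast_zero, zero_mul, mul_zero, sub_zero, mul_one, zero_add,
      pow_one, one_pow, div_one]
    field_simp
    ring
  · simp only [Nat.add_sub_cancel, Nat.cast_add, Nat.cast_one]
    field_simp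
    ring

end Fermat.Agent.S52
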