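import Fermat.Agent.S52.HIT.Core

/-!
# S52 [HIT-G]: weak Hilbert irreducibility from the seams (final step: the rational root)
-/

open Polynomial Filter
open scoped Polynomial.Bivariate

namespace Fermat.Agent.S52

theorem s52h_homog {F : Type*} [Field F] (c : ℕ → F) (q α : F) (hα : α ≠ 0) (n : ℕ) :
    α ^ n * ∑ k ∈ Finset.range (n + 1), c k * (q / α) ^ k =
      ∑ k ∈ Finset.range (n + 1), c k * q ^ k * α ^ (n - k) := by
  rw [Finset.mul_sum]
  refine Finset.sum_congr rfl fun k hk => ?_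
  have hkn : k ≤ n := Nat.lt_succ_iff.1 (Finset.mem_range.1 hk)
  have h1 : α ^ n = α ^ k * α ^ (n - k) := by rw [← pow_add, Nat.add_sub_cancel' hkn]
  rw [h1, div_pow]
  field_simp

theorem s52h_cast_eval (p : ℚ[X]) (x : ℚ) :
    (p.map (algebraMap ℚ ℝ)).eval (x : ℝ) = ((p.eval x : ℚ) : ℝ) := by
  rw [eval_map, ← eq_ratCast (algebraMap ℚ ℝ) x, eval₂_at_apply, eq_ratCast]

theorem s52h_cast_evalEval (p : ℚ[X][Y]) (x y : ℚ) :
    evalEval (x : ℝ) (y : ℝ) (p.map (mapRingHom (algebraMap ℚ ℝ))) = ((evalEval x y p : ℚ) : ℝ) := by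
  have := map_mapRingHom_evalEval (algebraMap ℚ ℝ) p x y
  simpa using this

/-- `G(t, Q(t)/a(t)) = 0` for all large real `t` ⟹ `Q / a` is a root of `G` in `ℚ(X)`. -/
theorem s52h_ratfunc_root (G : ℚ[X][Y]) (Q a : ℚ[X]) (ha : a ≠ 0)
    (h : ∀ᶠ t : ℝ in atTop,
      evalEval t ((Q.map (algebraMap ℚ ℝ)).eval t / (a.map (algebraMap ℚ ℝ)).eval t)
        (G.map (mapRingHom (algebraMap ℚ ℝ))) = 0) :
    eval (algebraMap ℚ[X] (RatFunc ℚ) Q / algebraMap ℚ[X] (RatFunc ℚ) a)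
      (G.map (algebraMap ℚ[X] (RatFunc ℚ))) = 0 := by
  set n := G.natDegree with hn
  set K : ℚ[X] := ∑ k ∈ Finset.range (n + 1), G.coeff k * Q ^ k * a ^ (n - k) with hK
  have hinj : Function.Injective (algebraMap ℚ ℝ) := (algebraMap ℚ ℝ).injective
  have har : a.map (algebraMap ℚ ℝ) ≠ 0 := (Polynomial.map_ne_zero_iff hinj).2 ha
  -- K = 0
  have hK0 : K = 0 := by
    by_contra hne
    have hKr : K.map (algebraMap ℚ ℝ) ≠ 0 := (Polynomial.map_ne_zero_iff hinj).2 hne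
    have h1 := Polynomial.eventually_atTop_not_isRoot _ hKr
    have h2 := Polynomial.eventually_atTop_not_isRoot _ har
    obtain ⟨t, ⟨ht0, ht1⟩, ht2⟩ := ((h.and h1).and h2).exists
    apply ht1
    rw [IsRoot.def]
    rw [← map_evalRingHom_eval, Polynomial.map_map, eval_map, eval₂_eq_sum_range] at ht0
    have hnat : (G.map (mapRingHom (algebraMap ℚ ℝ))).natDegree = n := by
      rw [hn]
      exact natDegree_map_eq_of_injective (Polynomial.map_injective _ hinj) G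
    have h3 := s52h_homog (fun k => ((evalRingHom t).comp (mapRingHom (algebraMap ℚ ℝ))) (G.coeff k))
      ((Q.map (algebraMap ℚ ℝ)).eval t) ((a.map (algebraMap ℚ ℝ)).eval t) ht2 n
    rw [ht0, mul_zero] at h3
    rw [hK, Polynomial.map_sum, eval_finsetSum, h3]
    refine Finset.sum_congr rfl fun k _ => ?_
    simp [eval_mul, eval_pow]
  -- transfer to RatFunc
  have hα : algebraMap ℚ[X] (RatFunc ℚ) a ≠ 0 := by
    rw [Ne, map_eq_zero_iff _ (IsFractionRing.injective ℚ[X] (RatFunc ℚ))]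
    exact ha
  have h4 := s52h_homog (fun k => algebraMap ℚ[X] (RatFunc ℚ) (G.coeff k))
    (algebraMap ℚ[X] (RatFunc ℚ) Q) (algebraMap ℚ[X] (RatFunc ℚ) a) hα n
  have h5 : ∑ k ∈ Finset.range (n + 1), algebraMap ℚ[X] (RatFunc ℚ) (G.coeff k) *
      algebraMap ℚ[X] (RatFunc ℚ) Q ^ k * algebraMap ℚ[X] (RatFunc ℚ) a ^ (n - k) =
      algebraMap ℚ[X] (RatFunc ℚ) K := by
    rw [hK, map_sum]
    refine Finset.sum_congr rfl fun k _ => ?_
    rw [map_mul, map_mul, map_pow, map_pow]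
  rw [h5, hK0, map_zero] at h4
  rw [eval_map, eval₂_eq_sum_range]
  rcases mul_eq_zero.1 h4 with h6 | h6
  · exact absurd (pow_eq_zero_iff (n := n + 1) (by omega) |>.1 (by rw [pow_succ, h6, zero_mul])) hα
  · exact h6

/-- Weak Hilbert irreducibility over `ℤ`, from the eight seams. -/
theorem s52h_hit_of_seams (hA : s52h_Decay_stmt) (hB : s52h_DivDiff_stmt)
    (hC1 : s52h_PolyOfDeriv_stmt) (hC2 : s52h_RatPoly_stmt) (hD : s52h_Branch_stmt)
    (hE2 : s52h_Dich_stmt) (hE3 : s52h_Growth_stmt) (hF : s52h_Red_stmt)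
    (g : ℚ[X][Y])
    (hg : ∀ r : RatFunc ℚ, eval r (g.map (algebraMap ℚ[X] (RatFunc ℚ))) ≠ 0) (N : ℤ) :
    ∃ t : ℤ, N ≤ t ∧ ∀ y : ℚ, evalEval (t : ℚ) y g ≠ 0 := by
  by_contra hcon
  push Not at hcon
  have hg0 : g ≠ 0 := by
    rintro rfl
    exact hg 0 (by simp)
  obtain ⟨G, U, V, d, e, a, hd, he, ha, hbez, hroot, hspec⟩ := hF g hg0
  have hinj : Function.Injective (algebraMap ℚ ℝ) := (algebraMap ℚ ℝ).injective
  have her : e.map (algebraMap ℚ ℝ) ≠ 0 := (Polynomial.map_ne_zero_iff hinj).2 he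
  obtain ⟨Re, hRe⟩ := s52h_exists_gt_roots _ her
  obtain ⟨T₁, hT₁⟩ : ∃ T : ℤ, Re < T := exists_int_gt Re
  set T₀ : ℤ := max N T₁ with hT₀
  -- real data
  set Gr := G.map (mapRingHom (algebraMap ℚ ℝ)) with hGr
  have hbezr : U.map (mapRingHom (algebraMap ℚ ℝ)) * Gr +
      V.map (mapRingHom (algebraMap ℚ ℝ)) * derivative Gr = C (d.map (algebraMap ℚ ℝ)) := by
    have := congrArg (Polynomial.map (mapRingHom (algebraMap ℚ ℝ))) hbez
    rw [Polynomial.map_add, Polynomial.map_mul, Polynomial.map_mul, ← derivative_map, map_C] at this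
    exact this
  have hbad : ∀ t : ℤ, T₀ ≤ t → ∃ y : ℝ, evalEval (t : ℝ) y Gr = 0 ∧
      ∃ z : ℤ, (a.map (algebraMap ℚ ℝ)).eval (t : ℝ) * y = z := by
    intro t ht
    obtain ⟨y, hy⟩ := hcon t (le_trans (le_max_left _ _) ht)
    have het : e.eval (t : ℚ) ≠ 0 := by
      have h1 : Re < ((t : ℚ) : ℝ) := by
        have : (T₁ : ℝ) ≤ (t : ℝ) := by exact_mod_cast le_trans (le_max_right _ _) ht
        push_cast
        linarith
      have h2 := hRe _ h1
      rw [s52h_cast_eval] at h2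
      exact fun h0 => h2 (by rw [h0, Rat.cast_zero])
    obtain ⟨hG, z, hz⟩ := hspec t y het hy
    refine ⟨(y : ℝ), ?_, z, ?_⟩
    · have := s52h_cast_evalEval G (t : ℚ) y
      rw [hG, Rat.cast_zero] at this
      simpa using this
    · have := s52h_cast_eval a (t : ℚ)
      rw [Rat.cast_intCast] at this
      rw [this, ← Rat.cast_mul, hz, Rat.cast_intCast]
  obtain ⟨P, S, hdeg, hint, hev⟩ := s52h_core hA hB hC1 hD hE2 hE3 Gr _ _ _ _
    ((Polynomial.map_ne_zero_iff hinj).2 hd) ((Polynomial.map_ne_zero_iff hinj).2 ha) hbezr T₀ hbad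
  obtain ⟨Q, hQ⟩ := hC2 P (S.image (fun t : ℤ => (t : ℚ)))
    (by rwa [Finset.card_image_of_injective _ Int.cast_injective])
    (by
      intro x hx
      obtain ⟨t, ht, rfl⟩ := Finset.mem_image.1 hx
      obtain ⟨z, hz⟩ := hint t ht
      exact ⟨(z : ℚ), by rw [Rat.cast_intCast, hz, Rat.cast_intCast]⟩)
  subst hQ
  exact hg _ (hroot _ (s52h_ratfunc_root G Q a ha hev))

end Fermat.Agent.S52
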