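import Mathlib

/-!
# S52 / [HIT], p-adic route: the archimedean root bound (prefix `s52hp_`)

Integer roots of `F(t, ·)` (`F ∈ ℤ[t][X]` monic) are bounded by `C · t^e` for `t ≥ 1`.
-/

set_option autoImplicit false

namespace Fermat.Agent.S52

open Polynomial

/-- Cauchy-type bound for integer roots of a monic integer polynomial. -/
theorem s52hp_root_bound (g : ℤ[X]) (hg : g.Monic) (x : ℤ) (hx : g.eval x = 0) :
    |x| ≤ 1 + ∑ i ∈ Finset.range g.natDegree, |g.coeff i| := by
  have hS : 0 ≤ ∑ i ∈ Finset.range g.natDegree, |g.coeff i| :=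
    Finset.sum_nonneg (fun i _ => abs_nonneg _)
  by_cases h1 : |x| ≤ 1
  · linarith
  rw [not_le] at h1
  set n := g.natDegree with hn
  have hev : x ^ n + ∑ i ∈ Finset.range n, g.coeff i * x ^ i = 0 := by
    have := Polynomial.eval_eq_sum_range (p := g) x
    rw [← hn, Finset.sum_range_succ, hx] at this
    have hl : g.coeff n = 1 := hg
    rw [hl, one_mul] at this
    linarith
  rcases Nat.eq_zero_or_pos n with h0 | hpos
  · rw [h0] at hev
    simp at hev
  have habs : |x| ^ n ≤ (∑ i ∈ Finset.range n, |g.coeff i|) * |x| ^ (n - 1) := by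
    have e1 : x ^ n = -∑ i ∈ Finset.range n, g.coeff i * x ^ i := by linarith
    calc |x| ^ n = |x ^ n| := (abs_pow x n).symm
      _ = |∑ i ∈ Finset.range n, g.coeff i * x ^ i| := by rw [e1, abs_neg]
      _ ≤ ∑ i ∈ Finset.range n, |g.coeff i * x ^ i| := Finset.abs_sum_le_sum_abs _ _
      _ ≤ ∑ i ∈ Finset.range n, |g.coeff i| * |x| ^ (n - 1) := by
          refine Finset.sum_le_sum (fun i hi => ?_)
          rw [abs_mul, abs_pow]
          refine mul_le_mul_of_nonneg_left ?_ (abs_nonneg _)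
          refine pow_le_pow_right₀ h1.le ?_
          have := Finset.mem_range.1 hi
          omega
      _ = (∑ i ∈ Finset.range n, |g.coeff i|) * |x| ^ (n - 1) := by rw [Finset.sum_mul]
  have hpow : |x| ^ n = |x| * |x| ^ (n - 1) := by
    rw [← pow_succ']
    congr 1
    omega
  rw [hpow] at habs
  have hpos' : 0 < |x| ^ (n - 1) := pow_pos (by linarith) _
  have := le_of_mul_le_mul_right habs hpos'
  linarith

/-- Value bound for an integer polynomial at `t ≥ 1`. -/
theorem s52hp_eval_bound (c : ℤ[X]) (e : ℕ) (he : c.natDegree ≤ e) (t : ℤ) (ht : 1 ≤ t) :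
    |c.eval t| ≤ (∑ j ∈ Finset.range (c.natDegree + 1), |c.coeff j|) * t ^ e := by
  rw [Polynomial.eval_eq_sum_range, Finset.sum_mul]
  refine le_trans (Finset.abs_sum_le_sum_abs _ _) (Finset.sum_le_sum (fun j hj => ?_))
  rw [abs_mul, abs_pow, abs_of_nonneg (by linarith : (0 : ℤ) ≤ t)]
  refine mul_le_mul_of_nonneg_left ?_ (abs_nonneg _)
  refine pow_le_pow_right₀ ht ?_
  have := Finset.mem_range.1 hj
  omega

/-- Growth of the integer roots of `F(t, ·)`. -/
theorem s52hp_growth (F : ℤ[X][X]) (hmon : F.Monic) :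
    ∃ (Cb : ℤ) (e : ℕ), 0 ≤ Cb ∧ (∀ i, (F.coeff i).natDegree ≤ e) ∧
      ∀ t x : ℤ, 1 ≤ t → (F.map (evalRingHom t)).eval x = 0 → |x| ≤ Cb * t ^ e := by
  set e := F.support.sup (fun i => (F.coeff i).natDegree) with he
  have hdeg : ∀ i, (F.coeff i).natDegree ≤ e := by
    intro i
    by_cases hi : i ∈ F.support
    · exact Finset.le_sup (f := fun i => (F.coeff i).natDegree) hi
    · rw [Polynomial.notMem_support_iff.1 hi]; simp
  set Bi : ℕ → ℤ := fun i => ∑ j ∈ Finset.range ((F.coeff i).natDegree + 1), |(F.coeff i).coeff j|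
    with hBi
  have hBi0 : ∀ i, 0 ≤ Bi i := fun i => Finset.sum_nonneg (fun j _ => abs_nonneg _)
  refine ⟨1 + ∑ i ∈ Finset.range F.natDegree, Bi i, e, ?_, hdeg, ?_⟩
  · have := Finset.sum_nonneg (s := Finset.range F.natDegree) (fun i _ => hBi0 i)
    linarith
  intro t x ht hx
  have hmon' : (F.map (evalRingHom t)).Monic := hmon.map _
  have hnd : (F.map (evalRingHom t)).natDegree = F.natDegree := hmon.natDegree_map _
  have h1 := s52hp_root_bound _ hmon' x hx
  rw [hnd] at h1
  have hte : (1 : ℤ) ≤ t ^ e := one_le_pow₀ ht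
  have h2 : ∑ i ∈ Finset.range F.natDegree, |(F.map (evalRingHom t)).coeff i|
      ≤ ∑ i ∈ Finset.range F.natDegree, Bi i * t ^ e := by
    refine Finset.sum_le_sum (fun i _ => ?_)
    rw [Polynomial.coeff_map]
    exact s52hp_eval_bound _ e (hdeg i) t ht
  rw [← Finset.sum_mul] at h2
  have h3 : 0 ≤ ∑ i ∈ Finset.range F.natDegree, Bi i :=
    Finset.sum_nonneg (fun i _ => hBi0 i)
  nlinarith

end Fermat.Agent.S52
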