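import Mathlib

/-!
# S52 / [HIT], p-adic route: Hensel approximants, algebraically (prefix `s52hp_`)

`s52hp_congr`: for `F ∈ ℤ[t][X]` with `U F + V F' = δ`, a point `t₁` and a prime `p ∤ δ(t₁)`,
and a residue `r` with `p ∣ F(t₁, r)`: every integer root `x ≡ r (mod p)` of
`F(t₁ + p^N k, ·)` is, modulo `p^(N m)`, a fixed polynomial of degree `< m` in `k`.
The proof is Newton's method in the ring `(ℤ/p^(N m))[T]/(T^m)` (Mathlib `Dynamics/Newton`).
-/

set_option autoImplicit false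

namespace Fermat.Agent.S52

open Polynomial

theorem s52hp_newton_exists {R S : Type*} [CommRing R] [CommRing S] (P : R[X]) (f : R →+* S)
    (x : S) (h : IsNilpotent (P.eval₂ f x)) (h' : IsUnit (P.derivative.eval₂ f x)) :
    ∃ y, IsNilpotent (x - y) ∧ P.eval₂ f y = 0 := by
  let _ := f.toAlgebra
  have h1 : IsNilpotent (aeval x P) := by rw [aeval_def]; exact h
  have h2 : IsUnit (aeval x (derivative P)) := by rw [aeval_def]; exact h'
  obtain ⟨y, hy, _⟩ := Polynomial.existsUnique_nilpotent_sub_and_aeval_eq_zero h1 h2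
  refine ⟨y, hy.1, ?_⟩
  have := hy.2
  rw [aeval_def] at this
  exact this

theorem s52hp_newton_unique {R S : Type*} [CommRing R] [CommRing S] (P : R[X]) (f : R →+* S)
    (x : S) (h : IsNilpotent (P.eval₂ f x)) (h' : IsUnit (P.derivative.eval₂ f x))
    (y₁ y₂ : S) (h₁ : IsNilpotent (x - y₁)) (e₁ : P.eval₂ f y₁ = 0)
    (h₂ : IsNilpotent (x - y₂)) (e₂ : P.eval₂ f y₂ = 0) : y₁ = y₂ := by
  let _ := f.toAlgebra
  have h1 : IsNilpotent (aeval x P) := by rw [aeval_def]; exact h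
  have h2 : IsUnit (aeval x (derivative P)) := by rw [aeval_def]; exact h'
  have hu := Polynomial.existsUnique_nilpotent_sub_and_aeval_eq_zero h1 h2
  refine hu.unique ⟨h₁, ?_⟩ ⟨h₂, ?_⟩
  · rw [aeval_def]; exact e₁
  · rw [aeval_def]; exact e₂

/-- Evaluating `G ∈ ℤ[t][X]` at `X = r` first and then pushing `t` along `f`. -/
theorem s52hp_eval₂_intCast {A : Type*} [CommRing A] (f : ℤ[X] →+* A) (G : ℤ[X][X]) (r : ℤ) :
    G.eval₂ f (r : A) = f (G.eval (C r)) := by
  have h := Polynomial.hom_eval₂ G (RingHom.id ℤ[X]) f (C r)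
  rw [Polynomial.eval₂_id, RingHom.comp_id] at h
  rw [h]
  congr 1
  have : (C r : ℤ[X]) = ((r : ℤ) : ℤ[X]) := by simp
  rw [this, map_intCast]

theorem s52hp_eval_eval (G : ℤ[X][X]) (t r : ℤ) :
    (G.eval (C r)).eval t = (G.map (evalRingHom t)).eval r := by
  have h := Polynomial.hom_eval₂ G (RingHom.id ℤ[X]) (evalRingHom t) (C r)
  rw [Polynomial.eval₂_id, RingHom.comp_id] at h
  rw [Polynomial.eval_map]
  simpa using h

theorem s52hp_congr (F U V : ℤ[X][X]) (δ : ℤ[X])
    (hsep : U * F + V * derivative F = C δ)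
    (t₁ : ℤ) (p : ℕ) (hp : p.Prime) (hδ : ¬ (p : ℤ) ∣ δ.eval t₁)
    (N m : ℕ) (r : ℤ) (hr : (p : ℤ) ∣ (F.map (evalRingHom t₁)).eval r) :
    ∃ a : ℕ → ZMod (p ^ (N * m)), ∀ k x : ℤ,
      (F.map (evalRingHom (t₁ + (p : ℤ) ^ N * k))).eval x = 0 → (p : ℤ) ∣ x - r →
      (x : ZMod (p ^ (N * m))) = ∑ j ∈ Finset.range m, a j * (k : ZMod (p ^ (N * m))) ^ j := by
  classical
  set q := p ^ (N * m) with hq
  have hpq : ((p : ℕ) : ZMod q) ^ (N * m) = 0 := by
    rw [← Nat.cast_pow, ← hq, ZMod.natCast_self]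
  -- the ring A = (ℤ/q)[T]/(T^m)
  set g : (ZMod q)[X] := X ^ m with hg
  set T : AdjoinRoot g := AdjoinRoot.root g with hTdef
  have hT : T ^ m = 0 := by
    have := AdjoinRoot.eval₂_root g
    rw [hg, Polynomial.eval₂_pow, Polynomial.eval₂_X] at this
    exact this
  have hpA : ((p : ℕ) : AdjoinRoot g) ^ (N * m) = 0 := by
    have h1 : ((p : ℕ) : AdjoinRoot g) = AdjoinRoot.of g ((p : ℕ) : ZMod q) := by
      simp
    rw [h1, ← map_pow, hpq, map_zero]
  have hpnil : IsNilpotent ((p : ℕ) : AdjoinRoot g) := ⟨_, hpA⟩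
  have hTnil : IsNilpotent T := ⟨_, hT⟩
  set f : ℤ[X] →+* AdjoinRoot g :=
    Polynomial.eval₂RingHom (Int.castRingHom (AdjoinRoot g)) ((t₁ : AdjoinRoot g) + T) with hf
  -- splitting f c = c(t₁) + T w
  have hsplit : ∀ c : ℤ[X], ∃ w : AdjoinRoot g, f c = ((c.eval t₁ : ℤ) : AdjoinRoot g) + T * w := by
    intro c
    have h1 : f c = (c.map (Int.castRingHom (AdjoinRoot g))).eval ((t₁ : AdjoinRoot g) + T) := by
      rw [hf, Polynomial.coe_eval₂RingHom, Polynomial.eval_map]
    have h2 : ((c.eval t₁ : ℤ) : AdjoinRoot g)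
        = (c.map (Int.castRingHom (AdjoinRoot g))).eval (t₁ : AdjoinRoot g) := by
      rw [Polynomial.eval_intCast_map]; rfl
    obtain ⟨w, hw⟩ := Polynomial.sub_dvd_eval_sub ((t₁ : AdjoinRoot g) + T) (t₁ : AdjoinRoot g)
      (c.map (Int.castRingHom (AdjoinRoot g)))
    refine ⟨w, ?_⟩
    rw [h1, h2]
    have : (t₁ : AdjoinRoot g) + T - t₁ = T := by ring
    rw [this] at hw
    rw [← hw]; ring
  have hnil_of : ∀ c : ℤ[X], (p : ℤ) ∣ c.eval t₁ → IsNilpotent (f c) := by
    intro c hc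
    obtain ⟨w, hw⟩ := hsplit c
    obtain ⟨s, hs⟩ := hc
    rw [hw, hs]
    push_cast
    refine Commute.isNilpotent_add (Commute.all _ _) ?_ ?_
    · exact (Commute.all _ _).isNilpotent_mul_right hpnil
    · exact (Commute.all _ _).isNilpotent_mul_right hTnil
  -- nilpotency of F(t₁+T, r) and invertibility of F_X(t₁+T, r)
  have hFr : (p : ℤ) ∣ (F.eval (C r)).eval t₁ := by rw [s52hp_eval_eval]; exact hr
  have hnil : IsNilpotent (F.eval₂ f (r : AdjoinRoot g)) := by
    rw [s52hp_eval₂_intCast]; exact hnil_of _ hFr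
  have hunit : IsUnit ((derivative F).eval₂ f (r : AdjoinRoot g)) := by
    rw [s52hp_eval₂_intCast]
    have hid : (U.eval (C r)) * (F.eval (C r)) + (V.eval (C r)) * ((derivative F).eval (C r)) = δ := by
      have := congrArg (Polynomial.eval (C r)) hsep
      simpa using this
    have hfid : f (V.eval (C r)) * f ((derivative F).eval (C r))
        = f δ - f (U.eval (C r)) * f (F.eval (C r)) := by
      have := congrArg f hid
      rw [map_add, map_mul, map_mul] at this
      rw [← this]; ring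
    obtain ⟨w, hw⟩ := hsplit δ
    -- δ(t₁) is a unit in A
    have hcop : IsCoprime (δ.eval t₁) (p : ℤ) := by
      rw [isCoprime_comm]
      exact (Int.prime_iff_natAbs_prime.2 (by simpa using hp)).coprime_iff_not_dvd.2 hδ
    obtain ⟨a, b, hab⟩ := hcop
    have hδunit : IsUnit ((δ.eval t₁ : ℤ) : AdjoinRoot g) := by
      have h1 : ((a : ℤ) : AdjoinRoot g) * ((δ.eval t₁ : ℤ) : AdjoinRoot g)
          = 1 - ((b : ℤ) : AdjoinRoot g) * ((p : ℕ) : AdjoinRoot g) := by
        have := congrArg (Int.cast : ℤ → AdjoinRoot g) hab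
        push_cast at this
        rw [← this]; ring
      have h2 : IsUnit (((a : ℤ) : AdjoinRoot g) * ((δ.eval t₁ : ℤ) : AdjoinRoot g)) := by
        rw [h1]
        exact IsNilpotent.isUnit_one_sub ((Commute.all _ _).isNilpotent_mul_left hpnil)
      exact isUnit_of_mul_isUnit_right h2
    have hprod : IsUnit (f (V.eval (C r)) * f ((derivative F).eval (C r))) := by
      rw [hfid, hw]
      have : ((δ.eval t₁ : ℤ) : AdjoinRoot g) + T * w - f (U.eval (C r)) * f (F.eval (C r))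
          = ((δ.eval t₁ : ℤ) : AdjoinRoot g) + (T * w - f (U.eval (C r)) * f (F.eval (C r))) := by
        ring
      rw [this]
      have hn1 : IsNilpotent (T * w) := (Commute.all _ _).isNilpotent_mul_right hTnil
      have hn2 : IsNilpotent (f (U.eval (C r)) * f (F.eval (C r))) :=
        (Commute.all _ _).isNilpotent_mul_left (hnil_of _ hFr)
      have hn3 : IsNilpotent (T * w - f (U.eval (C r)) * f (F.eval (C r))) :=
        (Commute.all _ _).isNilpotent_sub hn1 hn2
      exact IsNilpotent.isUnit_add_left_of_commute hn3 hδunit (Commute.all _ _)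
    exact isUnit_of_mul_isUnit_right hprod
  obtain ⟨y, hy1, hy2⟩ := s52hp_newton_exists F f (r : AdjoinRoot g) hnil hunit
  obtain ⟨Pt, hPt⟩ := AdjoinRoot.mk_surjective y
  refine ⟨fun j => Pt.coeff j * ((p : ℕ) : ZMod q) ^ (N * j), fun k x hx hxr => ?_⟩
  -- the evaluation T ↦ p^N k
  have hz : (X ^ m : (ZMod q)[X]).eval₂ (RingHom.id (ZMod q)) (((p : ℕ) : ZMod q) ^ N * (k : ZMod q)) = 0 := by
    rw [Polynomial.eval₂_pow, Polynomial.eval₂_X, mul_pow, ← pow_mul, hpq, zero_mul]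
  set φ : AdjoinRoot g →+* ZMod q :=
    AdjoinRoot.lift (RingHom.id (ZMod q)) (((p : ℕ) : ZMod q) ^ N * (k : ZMod q)) hz with hφ
  have hφf : φ.comp f = (Int.castRingHom (ZMod q)).comp (evalRingHom (t₁ + (p : ℤ) ^ N * k)) := by
    refine Polynomial.ringHom_ext (fun c => ?_) ?_
    · exact RingHom.congr_fun (RingHom.ext_int ((φ.comp f).comp C)
        (((Int.castRingHom (ZMod q)).comp (evalRingHom (t₁ + (p : ℤ) ^ N * k))).comp C)) c
    · simp [hf, hφ, hTdef]
  have hφr : φ (r : AdjoinRoot g) = (r : ZMod q) := map_intCast φ r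
  have e2 : ∀ (G : ℤ[X][X]) (z : AdjoinRoot g), G.eval₂ (φ.comp f) (φ z) = φ (G.eval₂ f z) :=
    fun G z => (Polynomial.hom_eval₂ G f φ z).symm
  have hnilB : IsNilpotent (F.eval₂ (φ.comp f) (r : ZMod q)) := by
    rw [← hφr, e2]; exact hnil.map φ
  have hunitB : IsUnit ((derivative F).eval₂ (φ.comp f) (r : ZMod q)) := by
    rw [← hφr, e2]; exact hunit.map φ
  have hy1' : IsNilpotent ((r : ZMod q) - φ y) := by
    rw [← hφr, ← map_sub]; exact hy1.map φ
  have hy2' : F.eval₂ (φ.comp f) (φ y) = 0 := by rw [e2, hy2, map_zero]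
  have hx1 : IsNilpotent ((r : ZMod q) - (x : ZMod q)) := by
    obtain ⟨s, hs⟩ := hxr
    have : (r : ZMod q) - (x : ZMod q) = ((p : ℕ) : ZMod q) * (-(s : ZMod q)) := by
      have := congrArg (Int.cast : ℤ → ZMod q) hs
      push_cast at this
      linear_combination -this
    rw [this]
    exact (Commute.all _ _).isNilpotent_mul_right ⟨_, hpq⟩
  have hx2 : F.eval₂ (φ.comp f) (x : ZMod q) = 0 := by
    rw [hφf]
    have h := Polynomial.hom_eval₂ F (evalRingHom (t₁ + (p : ℤ) ^ N * k))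
      (Int.castRingHom (ZMod q)) x
    rw [Polynomial.eval_map] at hx
    rw [hx] at h
    simpa using h.symm
  have hxy : (x : ZMod q) = φ y :=
    s52hp_newton_unique F (φ.comp f) (r : ZMod q) hnilB hunitB _ _ hx1 hx2 hy1' hy2'
  rw [hxy, ← hPt, hφ, AdjoinRoot.lift_mk, Polynomial.eval₂_id]
  set n := max m (Pt.natDegree + 1) with hn
  rw [Polynomial.eval_eq_sum_range' (lt_of_lt_of_le (Nat.lt_succ_self _) (le_max_right m _))]
  rw [← hn]
  symm
  rw [← Finset.sum_subset (Finset.range_subset_range.2 (le_max_left m (Pt.natDegree + 1)))]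
  · refine Finset.sum_congr rfl (fun j _ => ?_)
    rw [mul_pow, ← pow_mul]; ring
  · intro j _ hj
    rw [Finset.mem_range, not_lt] at hj
    rw [mul_pow, ← pow_mul]
    have : ((p : ℕ) : ZMod q) ^ (N * j) = 0 :=
      pow_eq_zero_of_le (Nat.mul_le_mul_left N hj) hpq
    rw [this]; ring

end Fermat.Agent.S52
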