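import Fermat.Agent.S52.HIT.PadicDet
import Fermat.Agent.S52.HIT.PadicHensel
import Fermat.Agent.S52.HIT.PadicGrowth

/-!
# S52 / [HIT], p-adic route: the core statement (prefix `s52hp_`)

`s52hp_core`: `F ∈ ℤ[t][X]` monic, separable (Bezout identity `U F + V F' = δ ≠ 0`), without a
root in `ℚ[t]`: for every `T₀` there is an integer `t ≥ T₀` such that `F(t, ·)` has no integer
root.  Proof: p-adic Hensel approximants + the interpolation determinant + the product formula.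
-/

set_option autoImplicit false

namespace Fermat.Agent.S52

open Polynomial

/-- The interpolation determinant of `e + 2` roots on one residue branch vanishes once
`p ^ N` is large. -/
theorem s52hp_det_zero (F U V : ℤ[X][X]) (δ : ℤ[X]) (hsep : U * F + V * derivative F = C δ)
    (t₁ : ℤ) (ht₁ : 1 ≤ t₁) (p : ℕ) (hp : p.Prime) (hδ : ¬ (p : ℤ) ∣ δ.eval t₁)
    (Cb : ℤ) (e : ℕ) (hCb : 0 ≤ Cb)
    (hgrow : ∀ t x : ℤ, 1 ≤ t → (F.map (evalRingHom t)).eval x = 0 → |x| ≤ Cb * t ^ e)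
    (L : ℕ) (hL : 1 ≤ L) (N : ℕ)
    (hN : ((e + 2).factorial : ℤ) * ((L : ℤ) ^ (e + 1)) ^ (e + 1) * (Cb * (t₁ + L) ^ e)
      < (p : ℤ) ^ N)
    (r : ℤ) (hr : (p : ℤ) ∣ (F.map (evalRingHom t₁)).eval r)
    (κ : Fin (e + 2) → ℕ) (hκ : ∀ i, κ i ≤ L) (xs : Fin (e + 2) → ℤ)
    (hroot : ∀ i, (F.map (evalRingHom (t₁ + (p : ℤ) ^ N * (κ i : ℤ)))).eval (xs i) = 0)
    (hres : ∀ i, (p : ℤ) ∣ xs i - r) :
    (s52hp_mat (e + 1) (fun i => (κ i : ℤ)) xs).det = 0 := by
  set q := p ^ (N * (e + 1)) with hq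
  obtain ⟨a, ha⟩ : ∃ a : ℕ → ZMod q, ∀ k x : ℤ,
      (F.map (evalRingHom (t₁ + (p : ℤ) ^ N * k))).eval x = 0 → (p : ℤ) ∣ x - r →
      (x : ZMod q) = ∑ j ∈ Finset.range (e + 1), a j * (k : ZMod q) ^ j :=
    s52hp_congr F U V δ hsep t₁ p hp hδ N (e + 1) r hr
  set D := (s52hp_mat (e + 1) (fun i => (κ i : ℤ)) xs).det with hD
  have hp1 : (1 : ℤ) ≤ (p : ℤ) := by exact_mod_cast hp.one_lt.le
  have hpN : (1 : ℤ) ≤ (p : ℤ) ^ N := one_le_pow₀ hp1
  -- p-adic divisibility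
  have hdvd : ((q : ℕ) : ℤ) ∣ D := by
    rw [← ZMod.intCast_zmod_eq_zero_iff_dvd]
    have h1 := s52hp_det_map (Int.castRingHom (ZMod q)) (e + 1) (fun i => (κ i : ℤ)) xs
    have h1' : ((D : ℤ) : ZMod q) = (s52hp_mat (e + 1) (fun i => (((κ i : ℤ)) : ZMod q))
        (fun i => ((xs i : ℤ) : ZMod q))).det := h1
    rw [h1']
    refine s52hp_det_eq_zero_of_comb (e + 1) _ _ (fun j => a j) (fun i => ?_)
    have := ha (κ i : ℤ) (xs i) (hroot i) (hres i)
    rw [this, Finset.sum_range]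
  -- archimedean bound
  have hX : ∀ i, |xs i| ≤ Cb * ((p : ℤ) ^ N * (t₁ + L)) ^ e := by
    intro i
    have hti : 1 ≤ t₁ + (p : ℤ) ^ N * (κ i : ℤ) := by
      have : (0 : ℤ) ≤ (p : ℤ) ^ N * (κ i : ℤ) := by positivity
      linarith
    refine le_trans (hgrow _ _ hti (hroot i)) ?_
    refine mul_le_mul_of_nonneg_left ?_ hCb
    refine pow_le_pow_left₀ (by linarith) ?_ e
    have hκi : ((κ i : ℕ) : ℤ) ≤ (L : ℤ) := by exact_mod_cast hκ i
    have h2 : (p : ℤ) ^ N * (κ i : ℤ) ≤ (p : ℤ) ^ N * (L : ℤ) :=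
      mul_le_mul_of_nonneg_left hκi (by linarith)
    have h3 : t₁ ≤ (p : ℤ) ^ N * t₁ := by nlinarith
    nlinarith
  have hB : ∀ (i : Fin (e + 2)) (j : Fin (e + 1)), |((κ i : ℕ) : ℤ) ^ (j : ℕ)| ≤ (L : ℤ) ^ (e + 1) := by
    intro i j
    rw [abs_pow, abs_of_nonneg (by positivity : (0 : ℤ) ≤ ((κ i : ℕ) : ℤ))]
    have hκi : ((κ i : ℕ) : ℤ) ≤ (L : ℤ) := by exact_mod_cast hκ i
    have hL1 : (1 : ℤ) ≤ (L : ℤ) := by exact_mod_cast hL
    calc ((κ i : ℕ) : ℤ) ^ (j : ℕ) ≤ (L : ℤ) ^ (j : ℕ) := pow_le_pow_left₀ (by positivity) hκi _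
      _ ≤ (L : ℤ) ^ (e + 1) := pow_le_pow_right₀ hL1 (by omega)
  have habs := s52hp_abs_det_le (e + 1) (fun i => (κ i : ℤ)) xs ((L : ℤ) ^ (e + 1))
    (Cb * ((p : ℤ) ^ N * (t₁ + L)) ^ e) (by positivity) hB hX
  rw [← hD] at habs
  have hlt : |D| < ((q : ℕ) : ℤ) := by
    have hqe : ((q : ℕ) : ℤ) = (p : ℤ) ^ N * ((p : ℤ) ^ N) ^ e := by
      rw [hq]; push_cast; ring
    rw [hqe]
    have hpe : (0 : ℤ) < ((p : ℤ) ^ N) ^ e := by positivity
    calc |D| ≤ ((e + 1 + 1).factorial : ℤ) * ((L : ℤ) ^ (e + 1)) ^ (e + 1)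
          * (Cb * ((p : ℤ) ^ N * (t₁ + L)) ^ e) := habs
      _ = (((e + 2).factorial : ℤ) * ((L : ℤ) ^ (e + 1)) ^ (e + 1) * (Cb * (t₁ + L) ^ e))
          * ((p : ℤ) ^ N) ^ e := by rw [mul_pow]; ring
      _ < (p : ℤ) ^ N * ((p : ℤ) ^ N) ^ e := mul_lt_mul_of_pos_right hN hpe
  exact Int.eq_zero_of_abs_lt_dvd hdvd hlt

/-- If all interpolation determinants of `e + 2` nodes of `S` vanish, the points `(s, xv s)`,
`s ∈ S`, lie on one polynomial of degree `≤ e`. -/
theorem s52hp_curve (e : ℕ) (S : Finset ℕ) (xv : ℕ → ℤ) (hS : e + 1 ≤ S.card)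
    (hdet : ∀ κ : Fin (e + 2) → ℕ, Function.Injective κ → (∀ i, κ i ∈ S) →
      (s52hp_mat (e + 1) (fun i => (κ i : ℤ)) (fun i => xv (κ i))).det = 0) :
    ∃ R : ℚ[X], R.degree < ((e + 1 : ℕ) : WithBot ℕ) ∧ ∀ s ∈ S, R.eval (s : ℚ) = xv s := by
  classical
  obtain ⟨S₀, hS₀S, hS₀c⟩ := Finset.exists_subset_card_eq hS
  have hinj : Set.InjOn (fun k : ℕ => (k : ℚ)) (S₀ : Set ℕ) := Nat.cast_injective.injOn
  set R := Lagrange.interpolate S₀ (fun k : ℕ => (k : ℚ)) (fun k => (xv k : ℚ)) with hR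
  have hRdeg : R.degree < ((e + 1 : ℕ) : WithBot ℕ) := by
    have := Lagrange.degree_interpolate_lt (s := S₀) (v := fun k : ℕ => (k : ℚ))
      (fun k => (xv k : ℚ)) hinj
    rw [hS₀c] at this
    exact this
  refine ⟨R, hRdeg, fun s hs => ?_⟩
  by_cases hs0 : s ∈ S₀
  · exact Lagrange.eval_interpolate_at_node (fun k => (xv k : ℚ)) hinj hs0
  · have hcard : (insert s S₀).card = e + 2 := by
      rw [Finset.card_insert_of_notMem hs0, hS₀c]
    have hsub : insert s S₀ ⊆ S := Finset.insert_subset hs hS₀S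
    set eqv := (insert s S₀).equivFinOfCardEq hcard with heqv
    set κ : Fin (e + 2) → ℕ := fun i => (eqv.symm i).1 with hκ
    have hκinj : Function.Injective κ := fun i j hij =>
      eqv.symm.injective (Subtype.ext hij)
    have hκS : ∀ i, κ i ∈ S := fun i => hsub (eqv.symm i).2
    have hκsurj : ∀ j ∈ insert s S₀, ∃ i, κ i = j := by
      intro j hj
      refine ⟨eqv ⟨j, hj⟩, ?_⟩
      simp [hκ]
    have hd := hdet κ hκinj hκS
    have hdQ : (s52hp_mat (e + 1) (fun i => (((κ i : ℕ) : ℤ) : ℚ))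
        (fun i => ((xv (κ i) : ℤ) : ℚ))).det = 0 := by
      have := s52hp_det_map (Int.castRingHom ℚ) (e + 1) (fun i => (κ i : ℤ)) (fun i => xv (κ i))
      rw [hd] at this
      simpa using this.symm
    have hkinj : Function.Injective (fun i => (((κ i : ℕ) : ℤ) : ℚ)) := by
      intro i j hij
      apply hκinj
      have : ((κ i : ℕ) : ℚ) = ((κ j : ℕ) : ℚ) := by simpa using hij
      exact_mod_cast this
    obtain ⟨R', hR'deg, hR'ev⟩ := s52hp_exists_poly_of_det_eq_zero (e + 1) _ _ hkinj hdQ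
    have hR'R : R' = R := by
      refine Lagrange.eq_interpolate_of_eval_eq (fun k => (xv k : ℚ)) hinj ?_ ?_
      · rw [hS₀c]; exact hR'deg
      · intro j hj
        obtain ⟨i, hi⟩ := hκsurj j (Finset.mem_insert_of_mem hj)
        have := hR'ev i
        simp only [Int.cast_natCast] at this
        rw [hi] at this
        exact this
    obtain ⟨i, hi⟩ := hκsurj s (Finset.mem_insert_self s S₀)
    have := hR'ev i
    simp only [Int.cast_natCast] at this
    rw [hi, hR'R] at this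
    exact this

/-- The substitution `t ↦ t₁ + c X` on `ℤ[t]`, with values in `ℚ[X]`. -/
noncomputable def s52hp_subst (t₁ c : ℚ) : ℤ[X] →+* ℚ[X] :=
  Polynomial.eval₂RingHom ((C : ℚ →+* ℚ[X]).comp (Int.castRingHom ℚ)) (C t₁ + C c * X)

theorem s52hp_subst_natDegree_le (t₁ c : ℚ) (a : ℤ[X]) :
    (s52hp_subst t₁ c a).natDegree ≤ a.natDegree := by
  unfold s52hp_subst
  rw [Polynomial.coe_eval₂RingHom, Polynomial.eval₂_eq_sum_range]
  refine Polynomial.natDegree_sum_le_of_forall_le _ _ (fun j hj => ?_)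
  have hj' : j ≤ a.natDegree := by
    have := Finset.mem_range.1 hj
    omega
  have hlin : (C t₁ + C c * X : ℚ[X]).natDegree ≤ 1 := by
    refine le_trans (Polynomial.natDegree_add_le _ _) ?_
    rw [max_le_iff]
    refine ⟨by simp, ?_⟩
    exact le_trans (Polynomial.natDegree_C_mul_le _ _) (by simp)
  calc (((C : ℚ →+* ℚ[X]).comp (Int.castRingHom ℚ)) (a.coeff j) * (C t₁ + C c * X) ^ j).natDegree
      ≤ (((C : ℚ →+* ℚ[X]).comp (Int.castRingHom ℚ)) (a.coeff j)).natDegree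
          + ((C t₁ + C c * X : ℚ[X]) ^ j).natDegree := Polynomial.natDegree_mul_le
    _ ≤ 0 + j * 1 := by
        refine add_le_add ?_ ?_
        · simp
        · exact le_trans (Polynomial.natDegree_pow_le) (Nat.mul_le_mul_left j hlin)
    _ ≤ a.natDegree := by omega

/-- **[HIT], core form.**  `F ∈ ℤ[t][X]` monic, separable, without a root in `ℚ[t]`: for every
`T₀` some integer `t ≥ T₀` has `F(t, ·)` without an integer root. -/
theorem s52hp_core (F : ℤ[X][X]) (hmon : F.Monic)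
    (hsep : ∃ U V : ℤ[X][X], ∃ δ : ℤ[X], δ ≠ 0 ∧ U * F + V * derivative F = C δ)
    (hroot : ∀ g : ℚ[X], (F.map (Polynomial.mapRingHom (Int.castRingHom ℚ))).eval g ≠ 0)
    (T₀ : ℤ) : ∃ t : ℤ, T₀ ≤ t ∧ ∀ x : ℤ, (F.map (evalRingHom t)).eval x ≠ 0 := by
  classical
  by_contra hcon
  have hcon' : ∀ t : ℤ, ∃ x : ℤ, T₀ ≤ t → (F.map (evalRingHom t)).eval x = 0 := by
    intro t
    by_cases ht : T₀ ≤ t
    · by_contra h
      apply hcon
      refine ⟨t, ht, fun x hx => h ⟨x, fun _ => hx⟩⟩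
    · exact ⟨0, fun h => absurd h ht⟩
  choose xf hxf using hcon'
  obtain ⟨U, V, δ, hδ0, hsep⟩ := hsep
  obtain ⟨Cb, e, hCb, hdeg, hgrow⟩ := s52hp_growth F hmon
  -- the base point t₁
  obtain ⟨t₁, ht₁mem, ht₁δ⟩ :=
    (Set.Ici_infinite (max T₀ 1)).exists_notMem_finset δ.roots.toFinset
  have ht₁T : T₀ ≤ t₁ := le_trans (le_max_left _ _) ht₁mem
  have ht₁1 : 1 ≤ t₁ := le_trans (le_max_right _ _) ht₁mem
  have hδt₁ : δ.eval t₁ ≠ 0 := by
    intro h
    apply ht₁δ
    rw [Multiset.mem_toFinset, Polynomial.mem_roots hδ0]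
    exact h
  -- the prime p
  obtain ⟨p, hpge, hp⟩ := Nat.exists_infinite_primes ((δ.eval t₁).natAbs + 1)
  have hpδ : ¬ (p : ℤ) ∣ δ.eval t₁ := by
    intro h
    apply hδt₁
    apply Int.eq_zero_of_abs_lt_dvd h
    rw [Int.abs_eq_natAbs]
    exact_mod_cast (by omega : (δ.eval t₁).natAbs < p)
  have : Fact p.Prime := ⟨hp⟩
  have hp1 : (1 : ℤ) ≤ (p : ℤ) := by exact_mod_cast hp.one_lt.le
  have hp2 : (2 : ℤ) ≤ (p : ℤ) := by exact_mod_cast hp.two_le
  set n := F.natDegree with hn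
  set etot := e + n * e with hetot
  set Mn := etot + e + 1 with hMn
  set L := p * Mn with hLdef
  have hL : 1 ≤ L := by
    have : 1 ≤ p := hp.one_lt.le
    have : 1 ≤ Mn := by omega
    exact Nat.one_le_iff_ne_zero.2 (Nat.mul_ne_zero (by omega) (by omega))
  -- the exponent N
  set K : ℤ := ((e + 2).factorial : ℤ) * ((L : ℤ) ^ (e + 1)) ^ (e + 1) * (Cb * (t₁ + L) ^ e)
    with hK
  set N := K.toNat + 1 with hNdef
  have hN : K < (p : ℤ) ^ N := by
    have h1 : K ≤ (K.toNat : ℤ) := Int.self_le_toNat K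
    have h2 : ((K.toNat + 1 : ℕ) : ℤ) < (2 : ℤ) ^ (K.toNat + 1) := by
      exact_mod_cast Nat.lt_two_pow_self
    have h3 : (2 : ℤ) ^ (K.toNat + 1) ≤ (p : ℤ) ^ (K.toNat + 1) :=
      pow_le_pow_left₀ (by norm_num) hp2 _
    push_cast at h2
    linarith
  have hpN : (1 : ℤ) ≤ (p : ℤ) ^ N := one_le_pow₀ hp1
  -- the nodes and their roots
  set tk : ℕ → ℤ := fun k => t₁ + (p : ℤ) ^ N * (k : ℤ) with htk
  have htkT : ∀ k, T₀ ≤ tk k := by
    intro k
    have : (0 : ℤ) ≤ (p : ℤ) ^ N * (k : ℤ) := by positivity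
    simp only [htk]; linarith
  set xv : ℕ → ℤ := fun k => xf (tk k) with hxvdef
  have hxv : ∀ k, (F.map (evalRingHom (tk k))).eval (xv k) = 0 := fun k => hxf _ (htkT k)
  -- pigeonhole on the residues mod p
  obtain ⟨y, -, hy⟩ := Finset.exists_lt_card_fiber_of_mul_lt_card_of_maps_to
    (s := Finset.range (L + 1)) (t := (Finset.univ : Finset (ZMod p)))
    (f := fun k => ((xv k : ℤ) : ZMod p)) (n := Mn) (fun _ _ => Finset.mem_univ _)
    (by rw [Finset.card_univ, ZMod.card, Finset.card_range, hLdef]; exact Nat.lt_succ_self _)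
  set S := (Finset.range (L + 1)).filter (fun k => ((xv k : ℤ) : ZMod p) = y) with hS
  have hSL : ∀ k ∈ S, k ≤ L := by
    intro k hk
    have := Finset.mem_range.1 (Finset.mem_filter.1 hk).1
    omega
  obtain ⟨k₀, hk₀⟩ : S.Nonempty := Finset.card_pos.1 (by omega)
  set r := xv k₀ with hr0
  have hr : (p : ℤ) ∣ (F.map (evalRingHom t₁)).eval r := by
    have h1 := hxv k₀
    rw [← s52hp_eval_eval] at h1 ⊢
    have h2 := Polynomial.sub_dvd_eval_sub (tk k₀) t₁ (F.eval (C r))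
    rw [h1, zero_sub, dvd_neg] at h2
    refine dvd_trans ?_ h2
    have : tk k₀ - t₁ = (p : ℤ) ^ N * (k₀ : ℤ) := by simp only [htk]; ring
    rw [this]
    exact (dvd_pow_self (p : ℤ) (Nat.succ_ne_zero K.toNat)).mul_right _
  have hres : ∀ k ∈ S, (p : ℤ) ∣ xv k - r := by
    intro k hk
    have h1 : ((xv k : ℤ) : ZMod p) = y := (Finset.mem_filter.1 hk).2
    have h2 : ((r : ℤ) : ZMod p) = y := (Finset.mem_filter.1 hk₀).2
    have := (ZMod.intCast_eq_intCast_iff_dvd_sub r (xv k) p).1 (h2.trans h1.symm)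
    exact this
  -- all interpolation determinants vanish
  have hdet : ∀ κ : Fin (e + 2) → ℕ, Function.Injective κ → (∀ i, κ i ∈ S) →
      (s52hp_mat (e + 1) (fun i => (κ i : ℤ)) (fun i => xv (κ i))).det = 0 :=
    fun κ _ hκS => s52hp_det_zero F U V δ hsep t₁ ht₁1 p hp hpδ Cb e hCb hgrow L hL N hN r hr κ
      (fun i => hSL _ (hκS i)) (fun i => xv (κ i)) (fun i => hxv _) (fun i => hres _ (hκS i))
  obtain ⟨R, hRdeg, hRev⟩ := s52hp_curve e S xv (by omega) hdet
  have hRnat : R.natDegree ≤ e := by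
    rw [Polynomial.natDegree_le_iff_coeff_eq_zero]
    intro j hj
    exact (Polynomial.degree_lt_iff_coeff_zero R (e + 1)).1 hRdeg j (by omega)
  -- the polynomial G(k) = F(t₁ + p^N k, R(k))
  set ψ := s52hp_subst (t₁ : ℚ) ((p : ℚ) ^ N) with hψ
  set G : ℚ[X] := F.eval₂ ψ R with hG
  have hGdeg : G.natDegree ≤ etot := by
    rw [hG, Polynomial.eval₂_eq_sum_range]
    refine Polynomial.natDegree_sum_le_of_forall_le _ _ (fun i hi => ?_)
    have hi' : i ≤ n := by
      have := Finset.mem_range.1 hi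
      omega
    calc (ψ (F.coeff i) * R ^ i).natDegree
        ≤ (ψ (F.coeff i)).natDegree + (R ^ i).natDegree := Polynomial.natDegree_mul_le
      _ ≤ e + i * e := by
          refine add_le_add ?_ ?_
          · exact le_trans (s52hp_subst_natDegree_le _ _ _) (hdeg i)
          · exact le_trans Polynomial.natDegree_pow_le (Nat.mul_le_mul_left i hRnat)
      _ ≤ etot := by
          rw [hetot]
          exact Nat.add_le_add_left (Nat.mul_le_mul_right e hi') e
  have hGev : ∀ s ∈ S, G.eval (s : ℚ) = 0 := by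
    intro s hs
    have h1 := Polynomial.hom_eval₂ F ψ (Polynomial.evalRingHom (s : ℚ)) R
    have hcomp : (Polynomial.evalRingHom (s : ℚ)).comp ψ
        = (Int.castRingHom ℚ).comp (Polynomial.evalRingHom (tk s)) := by
      refine Polynomial.ringHom_ext (fun c => ?_) ?_
      · exact RingHom.congr_fun (RingHom.ext_int (((Polynomial.evalRingHom (s : ℚ)).comp ψ).comp C)
          (((Int.castRingHom ℚ).comp (Polynomial.evalRingHom (tk s))).comp C)) c
      · simp [hψ, s52hp_subst, htk]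
    rw [hcomp] at h1
    have h2 := Polynomial.hom_eval₂ F (Polynomial.evalRingHom (tk s)) (Int.castRingHom ℚ) (xv s)
    have h3 := hxv s
    rw [Polynomial.eval_map] at h3
    rw [h3] at h2
    have h4 : (Polynomial.evalRingHom (s : ℚ)) R = ((xv s : ℤ) : ℚ) := hRev s hs
    rw [h4] at h1
    have h5 : (Int.castRingHom ℚ) (xv s) = ((xv s : ℤ) : ℚ) := rfl
    rw [h5] at h2
    rw [← h2] at h1
    simpa using h1
  have hG0 : G = 0 := by
    refine Polynomial.eq_zero_of_natDegree_lt_card_of_eval_eq_zero' G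
      (S.image (Nat.cast : ℕ → ℚ)) ?_ ?_
    · intro z hz
      obtain ⟨s, hs, rfl⟩ := Finset.mem_image.1 hz
      exact hGev s hs
    · rw [Finset.card_image_of_injective _ Nat.cast_injective]
      omega
  -- back-substitution: a root in ℚ[t]
  have hpN0 : ((p : ℚ) ^ N) ≠ 0 := pow_ne_zero _ (by exact_mod_cast hp.ne_zero)
  set lam : ℚ[X] := C ((p : ℚ) ^ N)⁻¹ * (X - C (t₁ : ℚ)) with hlam
  have h1 := Polynomial.hom_eval₂ F ψ (Polynomial.compRingHom lam) R
  have hcomp2 : (Polynomial.compRingHom lam).comp ψ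
      = Polynomial.mapRingHom (Int.castRingHom ℚ) := by
    refine Polynomial.ringHom_ext (fun c => ?_) ?_
    · exact RingHom.congr_fun (RingHom.ext_int (((Polynomial.compRingHom lam).comp ψ).comp C)
        ((Polynomial.mapRingHom (Int.castRingHom ℚ)).comp C)) c
    · have hX : ψ X = C (t₁ : ℚ) + C ((p : ℚ) ^ N) * X := by
        simp [hψ, s52hp_subst]
      rw [RingHom.comp_apply, hX]
      simp only [Polynomial.coe_compRingHom_apply, Polynomial.add_comp, Polynomial.C_comp,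
        Polynomial.mul_comp, Polynomial.X_comp, Polynomial.coe_mapRingHom, Polynomial.map_X]
      rw [hlam, ← mul_assoc, ← Polynomial.C_mul, mul_inv_cancel₀ hpN0]
      simp
  rw [hcomp2, ← hG, hG0, map_zero] at h1
  refine hroot ((Polynomial.compRingHom lam) R) ?_
  rw [Polynomial.eval_map]
  exact h1.symm

end Fermat.Agent.S52
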