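import Mathlib

/-!
# S52 / [HIT], p-adic route: the interpolation determinant (prefix `s52hp_`)

For nodes `k_0, …, k_m` and values `x_0, …, x_m` the matrix `[1, k_i, …, k_i^(m-1), x_i]`.
* `s52hp_det_eq_zero_of_comb`: if the value column is a combination of the power columns, `det = 0`;
* `s52hp_abs_det_le`: the Leibniz bound, linear in the size of the values;
* `s52hp_exists_poly_of_det_eq_zero`: over `ℚ`, `det = 0` and distinct nodes give a polynomial of
  degree `< m` through all `m + 1` points.
-/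

set_option autoImplicit false

namespace Fermat.Agent.S52

open Polynomial Matrix

/-- The interpolation matrix `[1, k_i, …, k_i^(m-1), x_i]`. -/
def s52hp_mat {R : Type*} [CommRing R] (m : ℕ) (k x : Fin (m + 1) → R) :
    Matrix (Fin (m + 1)) (Fin (m + 1)) R :=
  Matrix.of fun i j => Fin.lastCases (x i) (fun j' : Fin m => (k i) ^ (j' : ℕ)) j

@[simp] theorem s52hp_mat_last {R : Type*} [CommRing R] (m : ℕ) (k x : Fin (m + 1) → R)
    (i : Fin (m + 1)) : s52hp_mat m k x i (Fin.last m) = x i := by
  simp [s52hp_mat]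

@[simp] theorem s52hp_mat_castSucc {R : Type*} [CommRing R] (m : ℕ) (k x : Fin (m + 1) → R)
    (i : Fin (m + 1)) (j : Fin m) : s52hp_mat m k x i j.castSucc = (k i) ^ (j : ℕ) := by
  simp [s52hp_mat]

theorem s52hp_mat_map {R S : Type*} [CommRing R] [CommRing S] (f : R →+* S) (m : ℕ)
    (k x : Fin (m + 1) → R) :
    (s52hp_mat m k x).map f = s52hp_mat m (fun i => f (k i)) (fun i => f (x i)) := by
  ext i j
  refine Fin.lastCases ?_ (fun j' => ?_) j
  · simp
  · simp

theorem s52hp_det_map {R S : Type*} [CommRing R] [CommRing S] (f : R →+* S) (m : ℕ)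
    (k x : Fin (m + 1) → R) :
    f (s52hp_mat m k x).det = (s52hp_mat m (fun i => f (k i)) (fun i => f (x i))).det := by
  rw [RingHom.map_det, RingHom.mapMatrix_apply, s52hp_mat_map]

/-- If the value column is a combination of the power columns the determinant vanishes. -/
theorem s52hp_det_eq_zero_of_comb {R : Type*} [CommRing R] (m : ℕ) (k x : Fin (m + 1) → R)
    (a : Fin m → R) (h : ∀ i, x i = ∑ j : Fin m, a j * (k i) ^ (j : ℕ)) :
    (s52hp_mat m k x).det = 0 := by
  set M := s52hp_mat m k x with hM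
  set v : Fin (m + 1) → R := fun j => Fin.lastCases (-1) a j with hv
  have hMv : M *ᵥ v = 0 := by
    funext i
    simp only [Matrix.mulVec, dotProduct, Pi.zero_apply]
    rw [Fin.sum_univ_castSucc]
    simp only [hM, hv, s52hp_mat_last, s52hp_mat_castSucc, Fin.lastCases_last,
      Fin.lastCases_castSucc]
    rw [h i]
    have : ∀ j : Fin m, k i ^ (j : ℕ) * a j = a j * k i ^ (j : ℕ) := fun j => mul_comm _ _
    simp only [this]
    ring
  have h1 : M.det • v = 0 := by
    have h2 : (M.adjugate * M) *ᵥ v = 0 := by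
      rw [← Matrix.mulVec_mulVec, hMv, Matrix.mulVec_zero]
    rw [Matrix.adjugate_mul, Matrix.smul_mulVec, Matrix.one_mulVec] at h2
    exact h2
  have h3 := congrFun h1 (Fin.last m)
  simp only [hv, Pi.smul_apply, Fin.lastCases_last, smul_eq_mul, mul_neg, mul_one, Pi.zero_apply,
    neg_eq_zero] at h3
  exact h3

/-- Leibniz bound: linear in the size `X` of the values. -/
theorem s52hp_abs_det_le (m : ℕ) (k x : Fin (m + 1) → ℤ) (B X : ℤ) (hB0 : 0 ≤ B)
    (hB : ∀ i (j : Fin m), |k i ^ (j : ℕ)| ≤ B) (hX : ∀ i, |x i| ≤ X) :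
    |(s52hp_mat m k x).det| ≤ ((m + 1).factorial : ℤ) * B ^ m * X := by
  rw [Matrix.det_apply]
  have hterm : ∀ σ : Equiv.Perm (Fin (m + 1)),
      |Equiv.Perm.sign σ • ∏ i, s52hp_mat m k x (σ i) i| ≤ B ^ m * X := by
    intro σ
    have hs : |Equiv.Perm.sign σ • ∏ i, s52hp_mat m k x (σ i) i|
        = |∏ i, s52hp_mat m k x (σ i) i| := by
      rcases Int.units_eq_one_or (Equiv.Perm.sign σ) with h | h <;> simp [h]
    rw [hs, Fin.prod_univ_castSucc, abs_mul, Finset.abs_prod]
    simp only [s52hp_mat_last, s52hp_mat_castSucc]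
    have h1 : ∏ i : Fin m, |k (σ i.castSucc) ^ (i : ℕ)| ≤ B ^ m := by
      calc ∏ i : Fin m, |k (σ i.castSucc) ^ (i : ℕ)| ≤ ∏ _i : Fin m, B :=
            Finset.prod_le_prod (fun i _ => abs_nonneg _) (fun i _ => hB _ i)
        _ = B ^ m := by simp
    exact mul_le_mul h1 (hX _) (abs_nonneg _) (pow_nonneg hB0 m)
  calc |∑ σ : Equiv.Perm (Fin (m + 1)), Equiv.Perm.sign σ • ∏ i, s52hp_mat m k x (σ i) i|
      ≤ ∑ σ : Equiv.Perm (Fin (m + 1)), |Equiv.Perm.sign σ • ∏ i, s52hp_mat m k x (σ i) i| :=
        Finset.abs_sum_le_sum_abs _ _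
    _ ≤ ∑ _σ : Equiv.Perm (Fin (m + 1)), B ^ m * X := Finset.sum_le_sum (fun σ _ => hterm σ)
    _ = ((m + 1).factorial : ℤ) * B ^ m * X := by
        simp [Fintype.card_perm, mul_assoc]

/-- Over `ℚ`: vanishing determinant and distinct nodes give a polynomial of degree `< m` through
all `m + 1` points. -/
theorem s52hp_exists_poly_of_det_eq_zero (m : ℕ) (k x : Fin (m + 1) → ℚ)
    (hk : Function.Injective k) (h : (s52hp_mat m k x).det = 0) :
    ∃ R : ℚ[X], R.degree < (m : WithBot ℕ) ∧ ∀ i, R.eval (k i) = x i := by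
  obtain ⟨v, hv0, hv⟩ := (Matrix.exists_mulVec_eq_zero_iff (M := s52hp_mat m k x)).2 h
  set Q : ℚ[X] := ∑ j : Fin m, C (v j.castSucc) * X ^ (j : ℕ) with hQ
  have hQdeg : Q.degree < (m : WithBot ℕ) := by
    rw [← Polynomial.mem_degreeLT, hQ]
    refine Submodule.sum_mem _ (fun j _ => ?_)
    rw [Polynomial.mem_degreeLT]
    refine lt_of_le_of_lt (Polynomial.degree_C_mul_X_pow_le _ _) ?_
    exact_mod_cast j.2
  have hrow : ∀ i, Q.eval (k i) + x i * v (Fin.last m) = 0 := by
    intro i
    have := congrFun hv i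
    simp only [Matrix.mulVec, dotProduct, Pi.zero_apply] at this
    rw [Fin.sum_univ_castSucc] at this
    simp only [s52hp_mat_last, s52hp_mat_castSucc] at this
    rw [← this, hQ, Polynomial.eval_finsetSum]
    congr 1
    refine Finset.sum_congr rfl (fun j _ => ?_)
    rw [Polynomial.eval_mul, Polynomial.eval_C, Polynomial.eval_pow, Polynomial.eval_X, mul_comm]
  by_cases hl : v (Fin.last m) = 0
  · exfalso
    have hroots : ∀ i, Q.eval (k i) = 0 := by
      intro i
      have := hrow i
      rwa [hl, mul_zero, add_zero] at this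
    have hQ0 : Q = 0 := by
      by_contra hne
      have hcard : (Finset.univ.image k).card ≤ Q.roots.toFinset.card := by
        apply Finset.card_le_card
        intro y hy
        obtain ⟨i, _, rfl⟩ := Finset.mem_image.1 hy
        rw [Multiset.mem_toFinset, Polynomial.mem_roots hne]
        exact hroots i
      rw [Finset.card_image_of_injective _ hk, Finset.card_univ, Fintype.card_fin] at hcard
      have h2 : Q.roots.toFinset.card ≤ Q.natDegree :=
        le_trans (Multiset.toFinset_card_le _) (Polynomial.card_roots' Q)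
      have h3 : Q.natDegree < m := by
        rwa [Polynomial.natDegree_lt_iff_degree_lt hne]
      omega
    apply hv0
    funext j
    refine Fin.lastCases ?_ (fun j' => ?_) j
    · simpa using hl
    · have hc : Q.coeff (j' : ℕ) = v j'.castSucc := by
        rw [hQ, Polynomial.finsetSum_coeff]
        simp only [Polynomial.coeff_C_mul, Polynomial.coeff_X_pow]
        rw [Finset.sum_eq_single j']
        · simp
        · intro b _ hb
          have : (j' : ℕ) ≠ (b : ℕ) := fun hh => hb (Fin.ext hh.symm)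
          simp [this]
        · simp
      rw [hQ0] at hc
      simpa using hc.symm
  · refine ⟨C (-(v (Fin.last m))⁻¹) * Q, ?_, fun i => ?_⟩
    · refine lt_of_le_of_lt (Polynomial.degree_mul_le _ _) ?_
      have : (C (-(v (Fin.last m))⁻¹) : ℚ[X]).degree ≤ 0 := Polynomial.degree_C_le
      calc (C (-(v (Fin.last m))⁻¹) : ℚ[X]).degree + Q.degree ≤ 0 + Q.degree := by gcongr
        _ = Q.degree := zero_add _
        _ < m := hQdeg
    · have := hrow i
      rw [Polynomial.eval_mul, Polynomial.eval_C]
      have h1 : Q.eval (k i) = -(x i * v (Fin.last m)) := by linarith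
      rw [h1]
      field_simp

end Fermat.Agent.S52
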