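import Fermat.Agent.S52.Seams

/-!
# S52 / [HIT]: from the `ℚ(t)`-form of weak Hilbert irreducibility to the seam `s52_HIT_stmt`
(prefix `s52hp_`)

`s52_Rootless` is "no root in `ℚ(s)`"; `a := M`, `b := 0`, `N` an upper bound of the finite
exceptional set.
-/

set_option autoImplicit false

namespace Fermat.Agent.S52

open Polynomial

/-- `s52_Rootless P` says that `P` has no root in `ℚ(s)` (definitionally, since Seams v2). -/
theorem s52hp_rootless_rat (P : Polynomial (Polynomial ℚ)) (hP : s52_Rootless P) :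
    ∀ r : RatFunc ℚ, (P.map (algebraMap (Polynomial ℚ) (RatFunc ℚ))).eval r ≠ 0 :=
  hP

/-- The seam `s52_HIT_stmt` from the `ℚ(t)`-form with progressions `a t + b`. -/
theorem s52hp_HIT_of
    (hW : ∀ f : Polynomial (Polynomial ℚ),
      (∀ r : RatFunc ℚ, (f.map (algebraMap (Polynomial ℚ) (RatFunc ℚ))).eval r ≠ 0) →
      ∀ a b : ℤ, a ≠ 0 → ∀ N : ℤ, ∃ t : ℤ, N < t ∧
        ∀ x : ℚ, (f.map (Polynomial.evalRingHom ((a * t + b : ℤ) : ℚ))).eval x ≠ 0) :
    s52_HIT_stmt := by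
  intro P hP M hM T
  obtain ⟨N, hN⟩ : ∃ N : ℤ, ∀ t ∈ T, t ≤ N := by
    by_cases hT : T.Nonempty
    · exact ⟨T.max' hT, fun t ht => T.le_max' t ht⟩
    · exact ⟨0, fun t ht => absurd ⟨t, ht⟩ hT⟩
  obtain ⟨t, htN, ht⟩ := hW P (s52hp_rootless_rat P hP) M 0 hM N
  refine ⟨t, fun htT => ?_, fun x => ?_⟩
  · have := hN t htT
    omega
  · have := ht x
    rwa [add_zero] at this

end Fermat.Agent.S52
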