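/-
Project S52 (the 3–5 switch), node [HIT] (owner helper19), cell [HIT-R] (helper29).
Prefix `s52hr_`.  Mathlib only.  THE MEAN VALUE THEOREM FOR DIVIDED DIFFERENCES:

* `s52hr_rolle`  : iterated Rolle: a `C^n` function with `n + 1` zeros `v 0 < … < v n` has a zero of
                   its `n`-th derivative in `[v 0, v n]`;
* `s52hr_iteratedDeriv_eval` : `iteratedDeriv k (fun x => p.eval x) = fun x => (derivative^[k] p).eval x`;
* `s52hr_main`   : for nodes `u 0 < … < u m` and `g` of class `C^m` on an open set containing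
                   `[u 0, u m]`:  `∑ j, g (u j) / ∏ k ≠ j, (u j - u k) = g^(m) (ξ) / m!` for some
                   `ξ ∈ [u 0, u m]`.
-/
import Mathlib

set_option autoImplicit false

namespace Fermat.Agent.S52

open Set Polynomial
open scoped ContDiff

/-- **iterated Rolle**. -/
theorem s52hr_rolle (n : ℕ) : ∀ (f : ℝ → ℝ) (v : Fin (n + 1) → ℝ), StrictMono v →
    ∀ s : Set ℝ, IsOpen s → Icc (v 0) (v (Fin.last n)) ⊆ s → ContDiffOn ℝ n f s →
    (∀ j, f (v j) = 0) → ∃ ξ ∈ Icc (v 0) (v (Fin.last n)), iteratedDeriv n f ξ = 0 := by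
  induction n with
  | zero =>
    intro f v _ s _ _ _ hz
    exact ⟨v 0, ⟨le_rfl, le_rfl⟩, by rw [iteratedDeriv_zero]; exact hz 0⟩
  | succ n ih =>
    intro f v hv s hs hsub hf hz
    have hR : ∀ i : Fin (n + 1), ∃ c ∈ Ioo (v i.castSucc) (v i.succ), deriv f c = 0 := by
      intro i
      have hlt : v i.castSucc < v i.succ := hv (Fin.castSucc_lt_succ)
      refine exists_deriv_eq_zero hlt ?_ (by rw [hz, hz])
      refine hf.continuousOn.mono (fun x hx => hsub ⟨?_, ?_⟩)
      · exact le_trans (hv.monotone (Fin.zero_le _)) hx.1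
      · exact le_trans hx.2 (hv.monotone (Fin.le_last _))
    choose w hw hw0 using hR
    have hwmono : StrictMono w := by
      intro i j hij
      calc w i < v i.succ := (hw i).2
        _ ≤ v j.castSucc := hv.monotone (by
            rw [Fin.le_iff_val_le_val, Fin.val_succ, Fin.val_castSucc]
            exact hij)
        _ < w j := (hw j).1
    have hf' : ContDiffOn ℝ n (deriv f) s := by
      have h1 : ContDiffOn ℝ ((n : ℕ∞ω) + 1) f s := by
        have h2 : (((n + 1 : ℕ) : ℕ∞ω)) = (n : ℕ∞ω) + 1 := by push_cast; rfl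
        rw [← h2]
        exact hf
      exact ((contDiffOn_succ_iff_deriv_of_isOpen hs).1 h1).2.2
    have h0 : v 0 ≤ w 0 := (hw 0).1.le
    have hl : w (Fin.last n) ≤ v (Fin.last (n + 1)) := by
      have := (hw (Fin.last n)).2.le
      rwa [Fin.succ_last] at this
    obtain ⟨ξ, hξ, hξ0⟩ := ih (deriv f) w hwmono s hs
      (fun x hx => hsub ⟨le_trans h0 hx.1, le_trans hx.2 hl⟩) hf' hw0
    exact ⟨ξ, ⟨le_trans h0 hξ.1, le_trans hξ.2 hl⟩, by rw [iteratedDeriv_succ']; exact hξ0⟩

/-- iterated derivatives of a polynomial function. -/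
theorem s52hr_iteratedDeriv_eval (k : ℕ) : ∀ p : ℝ[X],
    iteratedDeriv k (fun x => p.eval x) = fun x => (derivative^[k] p).eval x := by
  induction k with
  | zero =>
    intro p
    rw [iteratedDeriv_zero, Function.iterate_zero, id]
  | succ k ih =>
    intro p
    rw [iteratedDeriv_succ']
    have h1 : deriv (fun x => p.eval x) = fun x => (derivative p).eval x := by
      funext x
      exact Polynomial.deriv p
    rw [h1, ih, Function.iterate_succ_apply]

/-- the top iterated derivative of a polynomial of degree `≤ m`. -/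
theorem s52hr_top_deriv {q : ℝ[X]} {m : ℕ} (hq : q.natDegree ≤ m) (x : ℝ) :
    (derivative^[m] q).eval x = (m.factorial : ℝ) * q.coeff m := by
  have h1 : (derivative^[m] q).natDegree ≤ 0 := by
    refine (natDegree_iterate_derivative q m).trans ?_
    omega
  rw [eq_C_of_natDegree_le_zero h1, eval_C, coeff_iterate_derivative, zero_add,
    Nat.descFactorial_self, nsmul_eq_mul]

/-- **the mean value theorem for divided differences**. -/
theorem s52hr_main (m : ℕ) (u : Fin (m + 1) → ℝ) (hu : StrictMono u) (g : ℝ → ℝ) (s : Set ℝ)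
    (hs : IsOpen s) (hsub : Set.Icc (u 0) (u (Fin.last m)) ⊆ s) (hg : ContDiffOn ℝ m g s) :
    ∃ ξ ∈ Set.Icc (u 0) (u (Fin.last m)),
      ∑ j, g (u j) / ∏ k ∈ Finset.univ.erase j, (u j - u k) =
        iteratedDeriv m g ξ / (m.factorial : ℝ) := by
  classical
  set q : ℝ[X] := Lagrange.interpolate Finset.univ u (fun j => g (u j)) with hq
  have hinj : Set.InjOn u ↑(Finset.univ : Finset (Fin (m + 1))) := hu.injective.injOn
  have hcard : (Finset.univ : Finset (Fin (m + 1))).card = m + 1 := by
    rw [Finset.card_univ, Fintype.card_fin]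
  have hdeg : q.degree < ((Finset.univ : Finset (Fin (m + 1))).card : WithBot ℕ) :=
    Lagrange.degree_interpolate_lt _ hinj
  have heval : ∀ j, q.eval (u j) = g (u j) := fun j =>
    Lagrange.eval_interpolate_at_node _ hinj (Finset.mem_univ j)
  have hcoeff : q.coeff m = ∑ j, g (u j) / ∏ k ∈ Finset.univ.erase j, (u j - u k) := by
    have h1 := Lagrange.coeff_eq_sum hinj hdeg
    rw [hcard, Nat.add_sub_cancel] at h1
    rw [h1]
    refine Finset.sum_congr rfl (fun j _ => ?_)
    rw [heval]
  have hnat : q.natDegree ≤ m := by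
    rw [hcard] at hdeg
    by_cases hq0 : q = 0
    · rw [hq0, natDegree_zero]
      exact Nat.zero_le _
    · have h2 := (natDegree_lt_iff_degree_lt hq0).mpr hdeg
      omega
  have hqc : ContDiff ℝ m (fun x : ℝ => q.eval x) := by
    have h2 := q.contDiff_aeval (𝕜 := ℝ) m
    simpa only [coe_aeval_eq_eval] using h2
  obtain ⟨ξ, hξ, h0⟩ := s52hr_rolle m (fun x => g x - q.eval x) u hu s hs hsub
    (hg.sub hqc.contDiffOn) (fun j => by rw [heval, sub_self])
  refine ⟨ξ, hξ, ?_⟩
  have hgat : ContDiffAt ℝ m g ξ := hg.contDiffAt (hs.mem_nhds (hsub hξ))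
  have h1 : iteratedDeriv m (fun x => g x - q.eval x) ξ =
      iteratedDeriv m g ξ - iteratedDeriv m (fun x => q.eval x) ξ :=
    iteratedDeriv_fun_sub hgat hqc.contDiffAt
  have h2 : iteratedDeriv m (fun x => q.eval x) ξ = (m.factorial : ℝ) * q.coeff m := by
    rw [s52hr_iteratedDeriv_eval]
    exact s52hr_top_deriv hnat ξ
  rw [h1, h2, sub_eq_zero] at h0
  rw [← hcoeff, h0]
  have hm : (m.factorial : ℝ) ≠ 0 := Nat.cast_ne_zero.mpr (Nat.factorial_ne_zero m)
  field_simp

end Fermat.Agent.S52
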