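import Mathlib
import Fermat.Agent.S52.HIT.Red

/-!
# S52, node [HIT]: the wrapper of the `p`-adic core

`s52hw_Core_stmt` is the statement of helper28's `p`-adic determinant core `s52hp_core` (monic
`F ∈ ℤ[t][X]`, separable with cleared denominators, no root in `ℚ[t]` ⟹ integers `t ≥ T₀` with
`F(t, ·)` without integer root).  `s52hw_main` derives from it the consumer statement for an
ARBITRARY `f ∈ ℚ[c][X]` without root in `ℚ(c)`, along an arithmetic progression `c = a t + b`.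

Route: helper27's `s52hf_main` (radical over `ℚ(c)`, Bezout, specialisation) + clearing of
denominators to `ℤ[c][X]` + `Polynomial.integralNormalization` (monic) + transport of separability
along `X ↦ lead · X` + the affine substitution `c = a t + b`.
-/

open Polynomial
open scoped Polynomial.Bivariate

namespace Fermat.Agent.S52

/-- The statement of the `p`-adic core (`s52hp_core`, helper28), as a `Prop`. -/
def s52hw_Core_stmt : Prop :=
  ∀ (F : Polynomial (Polynomial ℤ)), F.Monic →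
    (∃ U V : Polynomial (Polynomial ℤ), ∃ δ : Polynomial ℤ,
      δ ≠ 0 ∧ U * F + V * Polynomial.derivative F = Polynomial.C δ) →
    (∀ g : Polynomial ℚ, (F.map (Polynomial.mapRingHom (Int.castRingHom ℚ))).eval g ≠ 0) →
    ∀ T₀ : ℤ, ∃ t : ℤ, T₀ ≤ t ∧ ∀ x : ℤ, (F.map (Polynomial.evalRingHom t)).eval x ≠ 0

/-- A nonzero rational polynomial has no integer zeros beyond some bound. -/
theorem s52hw_avoid (q : ℚ[X]) (hq : q ≠ 0) (N : ℤ) :
    ∃ T : ℤ, N < T ∧ ∀ t : ℤ, T ≤ t → q.eval (t : ℚ) ≠ 0 := by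
  obtain ⟨B, hB⟩ := Finset.exists_le q.roots.toFinset
  refine ⟨max (N + 1) (⌈B⌉ + 1), lt_of_lt_of_le (lt_add_one N) (le_max_left _ _), ?_⟩
  intro t ht h0
  have hmem : (t : ℚ) ∈ q.roots.toFinset := by
    rw [Multiset.mem_toFinset, mem_roots hq]; exact h0
  have h1 : (t : ℚ) ≤ B := hB _ hmem
  have h2 : t ≤ ⌈B⌉ := by
    have : (t : ℚ) ≤ (⌈B⌉ : ℚ) := h1.trans (Int.le_ceil B)
    exact_mod_cast this
  have h3 : ⌈B⌉ + 1 ≤ t := (le_max_right _ _).trans ht
  omega

/-- Transport of separability along `X ↦ L * X`. -/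
theorem s52hw_isCoprime_scale {K : Type*} [Field K] (P Q : K[X]) (L c : K) (hL : L ≠ 0)
    (hc : c ≠ 0) (hPQ : P.comp (C L * X) = C c * Q) (hQ : IsCoprime Q (derivative Q)) :
    IsCoprime P (derivative P) := by
  obtain ⟨u, v, huv⟩ := hQ
  have hlin : (C L * X : K[X]).comp (C L⁻¹ * X) = X := by
    rw [mul_comp, C_comp, X_comp, ← mul_assoc, ← C_mul, mul_inv_cancel₀ hL, C_1, one_mul]
  -- `τ Q`
  have h1 : Q.comp (C L⁻¹ * X) = C c⁻¹ * P := by
    have := congrArg (fun p => C c⁻¹ * p.comp (C L⁻¹ * X)) hPQ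
    simp only [comp_assoc, hlin, comp_X, mul_comp, C_comp] at this
    rw [this, ← mul_assoc, ← C_mul, inv_mul_cancel₀ hc, C_1, one_mul]
  -- `τ Q'`
  have h2 : (derivative Q).comp (C L⁻¹ * X) = C (L * c⁻¹) * derivative P := by
    have hd := congrArg derivative hPQ
    rw [derivative_comp, derivative_C_mul, derivative_C_mul, derivative_X, mul_one] at hd
    have := congrArg (fun p => C c⁻¹ * p.comp (C L⁻¹ * X)) hd
    simp only [comp_assoc, hlin, comp_X, mul_comp, C_comp] at this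
    rw [← mul_assoc (C c⁻¹) (C c), ← C_mul, inv_mul_cancel₀ hc, C_1, one_mul] at this
    rw [← this, C_mul]; ring
  have h3 := congrArg (fun p => p.comp (C L⁻¹ * X)) huv
  simp only [add_comp, mul_comp, one_comp, h1, h2] at h3
  refine ⟨u.comp (C L⁻¹ * X) * C c⁻¹, v.comp (C L⁻¹ * X) * C (L * c⁻¹), ?_⟩
  rw [← h3]; ring

/-- The embedding `ℤ[t] → ℚ(t)`. -/
noncomputable def s52hw_j : ℤ[X] →+* RatFunc ℚ :=
  (algebraMap ℚ[X] (RatFunc ℚ)).comp (mapRingHom (Int.castRingHom ℚ))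

theorem s52hw_j_injective : Function.Injective s52hw_j := by
  have h1 : Function.Injective (algebraMap ℚ[X] (RatFunc ℚ)) :=
    IsFractionRing.injective ℚ[X] (RatFunc ℚ)
  have h2 : Function.Injective (mapRingHom (Int.castRingHom ℚ)) :=
    Polynomial.map_injective _ (RingHom.injective_int (Int.castRingHom ℚ))
  exact h1.comp h2

theorem s52hw_map_j (P : ℤ[X][Y]) :
    P.map s52hw_j = (P.map (mapRingHom (Int.castRingHom ℚ))).map (algebraMap ℚ[X] (RatFunc ℚ)) := by
  rw [Polynomial.map_map]; rfl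

/-- Clearing denominators `ℚ(t)[Y] → ℤ[t][Y]`. -/
theorem s52hw_clearK (u : (RatFunc ℚ)[X]) :
    ∃ (δ : ℤ[X]) (U : ℤ[X][Y]), δ ≠ 0 ∧ U.map s52hw_j = C (s52hw_j δ) * u := by
  obtain ⟨P, c, hc, hP⟩ := s52hf_clear u
  obtain ⟨D, U₁, hD, hU₁⟩ := s52hf_clearZ2 P
  obtain ⟨E, cZ, hE, hcZ⟩ := s52hf_clearZ c
  have hcZ0 : cZ ≠ 0 := by
    rintro rfl
    rw [Polynomial.map_zero] at hcZ
    have : (C (E : ℚ) : ℚ[X]) ≠ 0 := by simpa using hE
    exact (mul_ne_zero this hc) hcZ.symm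
  have hD0 : (C D : ℤ[X]) ≠ 0 := by simpa using hD
  refine ⟨C D * cZ, C (C E) * U₁, mul_ne_zero hD0 hcZ0, ?_⟩
  rw [s52hw_map_j, Polynomial.map_mul, Polynomial.map_mul, hU₁, Polynomial.map_mul, hP]
  have e1 : s52hw_j (C D * cZ) =
      algebraMap ℚ[X] (RatFunc ℚ) (C (D : ℚ)) * algebraMap ℚ[X] (RatFunc ℚ) (C (E : ℚ)) *
        algebraMap ℚ[X] (RatFunc ℚ) c := by
    show algebraMap ℚ[X] (RatFunc ℚ) ((C D * cZ).map (Int.castRingHom ℚ)) = _
    rw [Polynomial.map_mul, hcZ, Polynomial.map_C, eq_intCast, map_mul, map_mul]; ring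
  rw [e1]
  simp only [eq_intCast, C_mul, Polynomial.map_intCast, map_intCast]
  ring

/-- The monic model `integralNormalization G₁` and `G₁` over `ℚ(t)`. -/
theorem s52hw_norm_comp (G₁ : ℤ[X][Y]) (hn : 1 ≤ G₁.natDegree) :
    ((integralNormalization G₁).map s52hw_j).comp (C (s52hw_j G₁.leadingCoeff) * X) =
      C (s52hw_j G₁.leadingCoeff ^ (G₁.natDegree - 1)) * G₁.map s52hw_j := by
  have key := integralNormalization_eval₂_leadingCoeff_mul hn
    ((C : RatFunc ℚ →+* (RatFunc ℚ)[X]).comp s52hw_j) X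
  rw [comp, eval₂_map, ← RingHom.comp_apply, key, ← eval₂_map, eval₂_C_X, RingHom.comp_apply,
    C_pow]

/-- Bezout identity over `ℤ[t][Y]` for the monic model. -/
theorem s52hw_bezout (G₁ : ℤ[X][Y]) (hn : 1 ≤ G₁.natDegree)
    (hcop : IsCoprime (G₁.map s52hw_j) (derivative (G₁.map s52hw_j))) :
    ∃ U V : ℤ[X][Y], ∃ δ : ℤ[X], δ ≠ 0 ∧
      U * integralNormalization G₁ + V * derivative (integralNormalization G₁) = C δ := by
  have hG₁0 : G₁ ≠ 0 := by
    rintro rfl; simp at hn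
  have hL : s52hw_j G₁.leadingCoeff ≠ 0 := by
    intro h0
    exact leadingCoeff_ne_zero.mpr hG₁0 (s52hw_j_injective (by rw [h0, map_zero]))
  have hcopF := s52hw_isCoprime_scale _ _ _ _ hL (pow_ne_zero _ hL) (s52hw_norm_comp G₁ hn) hcop
  obtain ⟨u, v, huv⟩ := hcopF
  obtain ⟨δu, U, hδu, hU⟩ := s52hw_clearK u
  obtain ⟨δv, V, hδv, hV⟩ := s52hw_clearK v
  refine ⟨C δv * U, C δu * V, δu * δv, mul_ne_zero hδu hδv, ?_⟩
  apply Polynomial.map_injective _ s52hw_j_injective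
  rw [Polynomial.map_add, Polynomial.map_mul, Polynomial.map_mul, Polynomial.map_mul,
    Polynomial.map_mul, ← derivative_map, hU, hV, Polynomial.map_C, Polynomial.map_C,
    Polynomial.map_C, map_mul, C_mul]
  linear_combination (C (s52hw_j δu) * C (s52hw_j δv)) * huv

/-- A root in `ℚ[t]` of the monic model gives a root of `G₁` in `ℚ(t)`. -/
theorem s52hw_root_of_norm (G₁ : ℤ[X][Y]) (hn : 1 ≤ G₁.natDegree) (g : ℚ[X])
    (hg : ((integralNormalization G₁).map (mapRingHom (Int.castRingHom ℚ))).eval g = 0) :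
    ∃ r : RatFunc ℚ, (G₁.map s52hw_j).eval r = 0 := by
  have hG₁0 : G₁ ≠ 0 := by
    rintro rfl; simp at hn
  have hL : s52hw_j G₁.leadingCoeff ≠ 0 := by
    intro h0
    exact leadingCoeff_ne_zero.mpr hG₁0 (s52hw_j_injective (by rw [h0, map_zero]))
  refine ⟨algebraMap ℚ[X] (RatFunc ℚ) g / s52hw_j G₁.leadingCoeff, ?_⟩
  have key := integralNormalization_eval₂_leadingCoeff_mul hn s52hw_j
    (algebraMap ℚ[X] (RatFunc ℚ) g / s52hw_j G₁.leadingCoeff)
  rw [mul_div_cancel₀ _ hL] at key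
  have h1 : (integralNormalization G₁).eval₂ s52hw_j (algebraMap ℚ[X] (RatFunc ℚ) g) = 0 := by
    rw [eval_map] at hg
    have := congrArg (algebraMap ℚ[X] (RatFunc ℚ)) hg
    rw [Polynomial.hom_eval₂, map_zero] at this
    exact this
  rw [h1] at key
  rw [eval_map]
  exact (mul_eq_zero.mp key.symm).resolve_left (pow_ne_zero _ hL)

/-- Rational roots of `G₁(c, ·)` give integer roots of the monic model at `c`. -/
theorem s52hw_int_root (G₁ : ℤ[X][Y]) (hn : 1 ≤ G₁.natDegree) (c : ℤ) (x : ℚ)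
    (hx : ((G₁.map (evalRingHom c)).map (Int.castRingHom ℚ)).eval x = 0) :
    ∃ z : ℤ, ((integralNormalization G₁).map (evalRingHom c)).eval z = 0 := by
  have hG₁0 : G₁ ≠ 0 := by
    rintro rfl; simp at hn
  have key := integralNormalization_eval₂_leadingCoeff_mul hn
    ((algebraMap ℤ ℚ).comp (evalRingHom c)) x
  have h0 : G₁.eval₂ ((algebraMap ℤ ℚ).comp (evalRingHom c)) x = 0 := by
    rw [← hx, eval_map, eval₂_map]; rfl
  rw [h0, mul_zero] at key
  have hmon : ((integralNormalization G₁).map (evalRingHom c)).Monic :=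
    (monic_integralNormalization hG₁0).map _
  have haeval : aeval (((algebraMap ℤ ℚ).comp (evalRingHom c)) G₁.leadingCoeff * x)
      ((integralNormalization G₁).map (evalRingHom c)) = 0 := by
    rw [aeval_def, eval₂_map]; exact key
  obtain ⟨z, hz⟩ := isInteger_of_is_root_of_monic hmon haeval
  refine ⟨z, ?_⟩
  rw [← hz, aeval_algebraMap_apply] at haeval
  rw [coe_aeval_eq_eval] at haeval
  exact (FaithfulSMul.algebraMap_injective ℤ ℚ) (by rw [haeval, map_zero])

/-- The affine substitution `t ↦ a t + b` on `ℤ[t]`. -/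
noncomputable def s52hw_phi (a b : ℤ) : ℤ[X] →+* ℤ[X] := compRingHom (C a * X + C b)

/-- The affine substitution `t ↦ a t + b` on `ℚ[t]`. -/
noncomputable def s52hw_phiQ (a b : ℤ) : ℚ[X] →+* ℚ[X] :=
  compRingHom (C (a : ℚ) * X + C (b : ℚ))

/-- The inverse affine substitution on `ℚ[t]`. -/
noncomputable def s52hw_psiQ (a b : ℤ) : ℚ[X] →+* ℚ[X] :=
  compRingHom (C (a : ℚ)⁻¹ * (X - C (b : ℚ)))

theorem s52hw_eval_phi (a b t : ℤ) :
    (evalRingHom t).comp (s52hw_phi a b) = evalRingHom (a * t + b) := by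
  ext <;> simp [s52hw_phi]

theorem s52hw_psi_phi (a b : ℤ) (ha : a ≠ 0) :
    (s52hw_psiQ a b).comp (s52hw_phiQ a b) = RingHom.id ℚ[X] := by
  have ha' : (a : ℚ) ≠ 0 := by exact_mod_cast ha
  ext
  · simp [s52hw_phiQ, s52hw_psiQ]
  · simp only [s52hw_phiQ, s52hw_psiQ, RingHom.comp_apply, coe_compRingHom, X_comp, add_comp,
      mul_comp, C_comp, RingHom.id_apply]
    rw [← mul_assoc, ← C_mul, mul_inv_cancel₀ ha', C_1, one_mul, sub_add_cancel]

theorem s52hw_cast_phi (a b : ℤ) :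
    (mapRingHom (Int.castRingHom ℚ)).comp (s52hw_phi a b) =
      (s52hw_phiQ a b).comp (mapRingHom (Int.castRingHom ℚ)) := by
  ext <;> simp [s52hw_phi, s52hw_phiQ]

theorem s52hw_phi_injective (a b : ℤ) (ha : a ≠ 0) : Function.Injective (s52hw_phi a b) := by
  intro p q hpq
  have h1 := congrArg (mapRingHom (Int.castRingHom ℚ)) hpq
  rw [← RingHom.comp_apply, ← RingHom.comp_apply, s52hw_cast_phi] at h1
  have h2 := congrArg (s52hw_psiQ a b) h1
  rw [RingHom.comp_apply, RingHom.comp_apply, ← RingHom.comp_apply, ← RingHom.comp_apply (s52hw_psiQ a b),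
    s52hw_psi_phi a b ha] at h2
  exact Polynomial.map_injective _ (RingHom.injective_int (Int.castRingHom ℚ)) h2

theorem s52hw_comp_ne_zero (a b : ℤ) (ha : a ≠ 0) (q : ℚ[X]) (hq : q ≠ 0) :
    s52hw_phiQ a b q ≠ 0 := by
  intro h0
  have := congrArg (s52hw_psiQ a b) h0
  rw [← RingHom.comp_apply, s52hw_psi_phi a b ha, map_zero] at this
  exact hq this

theorem s52hw_eval_phiQ (a b t : ℤ) (q : ℚ[X]) :
    (s52hw_phiQ a b q).eval (t : ℚ) = q.eval ((a * t + b : ℤ) : ℚ) := by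
  simp [s52hw_phiQ, eval_comp]

/-- **The wrapper**: the `p`-adic core implies weak Hilbert irreducibility over `ℤ` along an
arithmetic progression, for an arbitrary `f ∈ ℚ[c][X]` without root in `ℚ(c)`. -/
theorem s52hw_main (hcore : s52hw_Core_stmt) (f : Polynomial (Polynomial ℚ))
    (hroot : ∀ r : RatFunc ℚ, (f.map (algebraMap (Polynomial ℚ) (RatFunc ℚ))).eval r ≠ 0)
    (a b : ℤ) (ha : a ≠ 0) (N : ℤ) :
    ∃ t : ℤ, N < t ∧
      ∀ x : ℚ, (f.map (Polynomial.evalRingHom ((a * t + b : ℤ) : ℚ))).eval x ≠ 0 := by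
  have hf0 : f ≠ 0 := by
    rintro rfl; exact hroot 0 (by simp)
  obtain ⟨G, U, V, d, e, a', hd, he, -, hBez, hrootsG, hspec⟩ := s52hf_main f hf0
  have hG0 : G ≠ 0 := by
    rintro rfl
    rw [mul_zero, derivative_zero, mul_zero, add_zero] at hBez
    exact hd (C_eq_zero.mp hBez.symm)
  obtain ⟨D, G₁, hD, hG₁⟩ := s52hf_clearZ2 G
  have hinjQ : Function.Injective (algebraMap ℚ[X] (RatFunc ℚ)) :=
    IsFractionRing.injective ℚ[X] (RatFunc ℚ)
  have hDK : algebraMap ℚ[X] (RatFunc ℚ) (C (D : ℚ)) ≠ 0 := by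
    intro h0
    have : (C (D : ℚ) : ℚ[X]) = 0 := hinjQ (by rw [h0, map_zero])
    exact hD (by exact_mod_cast C_eq_zero.mp this)
  have hdK : algebraMap ℚ[X] (RatFunc ℚ) d ≠ 0 := fun h0 => hd (hinjQ (by rw [h0, map_zero]))
  have hG₁K : G₁.map s52hw_j = C (algebraMap ℚ[X] (RatFunc ℚ) (C (D : ℚ))) *
      G.map (algebraMap ℚ[X] (RatFunc ℚ)) := by
    rw [s52hw_map_j, hG₁, Polynomial.map_mul, Polynomial.map_C]
  have hG₁0 : G₁ ≠ 0 := by
    rintro rfl
    rw [Polynomial.map_zero] at hG₁K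
    exact (mul_ne_zero (C_ne_zero.mpr hDK) ((Polynomial.map_ne_zero_iff hinjQ).mpr hG0)) hG₁K.symm
  -- no root of `G₁` over `ℚ(t)`
  have hnoroot : ∀ r : RatFunc ℚ, (G₁.map s52hw_j).eval r ≠ 0 := by
    intro r hr
    rw [hG₁K, eval_mul, eval_C] at hr
    exact hroot r (hrootsG r ((mul_eq_zero.mp hr).resolve_left hDK))
  -- specialisation
  have hspec₁ : ∀ (c : ℤ) (x : ℚ), e.eval (c : ℚ) ≠ 0 →
      (f.map (evalRingHom (c : ℚ))).eval x = 0 →
      ((G₁.map (evalRingHom c)).map (Int.castRingHom ℚ)).eval x = 0 := by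
    intro c x hec hx
    rw [map_evalRingHom_eval] at hx
    have hGx := (hspec c x hec hx).1
    have hcomp : (Int.castRingHom ℚ).comp (evalRingHom c) =
        (evalRingHom (c : ℚ)).comp (mapRingHom (Int.castRingHom ℚ)) := by
      ext <;> simp
    rw [Polynomial.map_map, hcomp, ← Polynomial.map_map, hG₁, map_evalRingHom_eval, evalEval_mul,
      hGx, mul_zero]
  rcases Nat.eq_zero_or_pos G₁.natDegree with hn0 | hn
  · -- degenerate case: `G₁` is constant in the outer variable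
    have hG₁C : G₁ = C (G₁.coeff 0) := eq_C_of_natDegree_eq_zero hn0
    have hg₀ : G₁.coeff 0 ≠ 0 := by
      intro h0; rw [h0, C_0] at hG₁C; exact hG₁0 hG₁C
    have hq : s52hw_phiQ a b (e * (G₁.coeff 0).map (Int.castRingHom ℚ)) ≠ 0 :=
      s52hw_comp_ne_zero a b ha _ (mul_ne_zero he
        ((Polynomial.map_ne_zero_iff (RingHom.injective_int (Int.castRingHom ℚ))).mpr hg₀))
    obtain ⟨T, hNT, hT⟩ := s52hw_avoid _ hq N
    refine ⟨T, hNT, ?_⟩
    intro x hx
    have h1 := hT T le_rfl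
    rw [s52hw_eval_phiQ, eval_mul] at h1
    have h2 := hspec₁ (a * T + b) x (left_ne_zero_of_mul h1) hx
    rw [hG₁C, Polynomial.map_C, Polynomial.map_C, eval_C] at h2
    apply right_ne_zero_of_mul h1
    rw [eval_map, eval₂_at_intCast]
    exact h2
  · -- main case
    have hcop : IsCoprime (G₁.map s52hw_j) (derivative (G₁.map s52hw_j)) := by
      have hB := congrArg (Polynomial.map (algebraMap ℚ[X] (RatFunc ℚ))) hBez
      rw [Polynomial.map_add, Polynomial.map_mul, Polynomial.map_mul, ← derivative_map,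
        Polynomial.map_C] at hB
      rw [hG₁K, derivative_C_mul]
      refine ⟨C ((algebraMap ℚ[X] (RatFunc ℚ) (C (D : ℚ)))⁻¹ * (algebraMap ℚ[X] (RatFunc ℚ) d)⁻¹) *
        U.map (algebraMap ℚ[X] (RatFunc ℚ)),
        C ((algebraMap ℚ[X] (RatFunc ℚ) (C (D : ℚ)))⁻¹ * (algebraMap ℚ[X] (RatFunc ℚ) d)⁻¹) *
        V.map (algebraMap ℚ[X] (RatFunc ℚ)), ?_⟩
      have h1 : C ((algebraMap ℚ[X] (RatFunc ℚ) (C (D : ℚ)))⁻¹ *
          (algebraMap ℚ[X] (RatFunc ℚ) d)⁻¹) * C (algebraMap ℚ[X] (RatFunc ℚ) (C (D : ℚ))) *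
          C (algebraMap ℚ[X] (RatFunc ℚ) d) = 1 := by
        rw [← C_mul, ← C_mul, ← C_1]
        congr 1
        field_simp
      linear_combination (C ((algebraMap ℚ[X] (RatFunc ℚ) (C (D : ℚ)))⁻¹ *
          (algebraMap ℚ[X] (RatFunc ℚ) d)⁻¹) * C (algebraMap ℚ[X] (RatFunc ℚ) (C (D : ℚ)))) * hB + h1
    obtain ⟨U₁, V₁, δ, hδ, hB₁⟩ := s52hw_bezout G₁ hn hcop
    have hmon₂ : ((integralNormalization G₁).map (s52hw_phi a b)).Monic :=
      (monic_integralNormalization hG₁0).map _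
    have hsep₂ : ∃ U V : Polynomial (Polynomial ℤ), ∃ δ : Polynomial ℤ, δ ≠ 0 ∧
        U * (integralNormalization G₁).map (s52hw_phi a b) +
          V * Polynomial.derivative ((integralNormalization G₁).map (s52hw_phi a b)) =
          Polynomial.C δ := by
      refine ⟨U₁.map (s52hw_phi a b), V₁.map (s52hw_phi a b), s52hw_phi a b δ, ?_, ?_⟩
      · intro h0
        exact hδ (s52hw_phi_injective a b ha (by rw [h0, map_zero]))
      · rw [derivative_map, ← Polynomial.map_mul, ← Polynomial.map_mul, ← Polynomial.map_add, hB₁,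
          Polynomial.map_C]
    have hroot₂ : ∀ g : Polynomial ℚ, (((integralNormalization G₁).map (s52hw_phi a b)).map
        (Polynomial.mapRingHom (Int.castRingHom ℚ))).eval g ≠ 0 := by
      intro g hg
      rw [Polynomial.map_map, s52hw_cast_phi, ← Polynomial.map_map, eval_map] at hg
      have h1 := congrArg (s52hw_psiQ a b) hg
      rw [Polynomial.hom_eval₂, s52hw_psi_phi a b ha, map_zero, eval₂_id] at h1
      obtain ⟨r, hr⟩ := s52hw_root_of_norm G₁ hn _ h1
      exact hnoroot r hr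
    have hq : s52hw_phiQ a b e ≠ 0 := s52hw_comp_ne_zero a b ha _ he
    obtain ⟨T, hNT, hT⟩ := s52hw_avoid _ hq N
    obtain ⟨t, hTt, ht⟩ := hcore _ hmon₂ hsep₂ hroot₂ T
    refine ⟨t, lt_of_lt_of_le hNT hTt, ?_⟩
    intro x hx
    have hec := hT t hTt
    rw [s52hw_eval_phiQ] at hec
    obtain ⟨z, hz⟩ := s52hw_int_root G₁ hn (a * t + b) x (hspec₁ (a * t + b) x hec hx)
    apply ht z
    rw [Polynomial.map_map, s52hw_eval_phi]
    exact hz

end Fermat.Agent.S52
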