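import Fermat.Agent.S52.HIT.Wrap
import Fermat.Agent.S52.HIT.PadicCore

/-!
# S52, node [HIT]: weak Hilbert irreducibility over `ℤ` along arithmetic progressions, closed term

`s52hw_hit` = helper28's `p`-adic core `s52hp_core` fed into the wrapper `s52hw_main`: no real
analysis, no condition at infinity.
-/

namespace Fermat.Agent.S52

theorem s52hw_core_closed : s52hw_Core_stmt :=
  fun F hmon hsep hroot T₀ => s52hp_core F hmon hsep hroot T₀

/-- For `f ∈ ℚ[c][X]` without root in `ℚ(c)` and `a ≠ 0`: infinitely many integers `t` such that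
`f(a t + b, ·)` has no rational root. -/
theorem s52hw_hit (f : Polynomial (Polynomial ℚ))
    (hroot : ∀ r : RatFunc ℚ, (f.map (algebraMap (Polynomial ℚ) (RatFunc ℚ))).eval r ≠ 0)
    (a b : ℤ) (ha : a ≠ 0) (N : ℤ) :
    ∃ t : ℤ, N < t ∧
      ∀ x : ℚ, (f.map (Polynomial.evalRingHom ((a * t + b : ℤ) : ℚ))).eval x ≠ 0 :=
  s52hw_main s52hw_core_closed f hroot a b ha N

end Fermat.Agent.S52
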